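import Fermat.Agent.S16.HeckeTrick6016

/-!
# S16, package (A), `G`-free form

`Δ` restricted to `Γ₀(p)` has integer `q`-coefficients `τ n` with `τ 1 = 1`, so it can serve as the
auxiliary form `G` in `HeckeTrick6016.hecke_trick`.  This gives the Hecke trick in the form used
by the NUB case tables: there is NO weight-2 form on `Γ₀(p)` with integral `q`-expansion congruent
to an `ℓ`-adic unit constant modulo `ℓ` (`ℓ ≥ 5`, including `ℓ = p`), modulo `9`, modulo `16`.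
-/

set_option autoImplicit false

open UpperHalfPlane CongruenceSubgroup ModularForm
open scoped MatrixGroups ModularForm ArithmeticFunction.sigma

namespace Fermat.Agent.S16.HeckeTrick6016

/-! ### Integrality of the `q`-expansion of `Δ` -/

/-- `∑_{n ≥ 1} σ_k(n) qⁿ` as an integral power series. -/
noncomputable def sigSer (k : ℕ) : PowerSeries ℤ :=
  PowerSeries.mk fun n => if n = 0 then 0 else ((ArithmeticFunction.sigma k n : ℕ) : ℤ)

theorem twelve_dvd_aux (d : ℕ) : (12 : ℤ) ∣ 5 * (d : ℤ) ^ 3 + 7 * (d : ℤ) ^ 5 := by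
  have h : ∀ x : ZMod 12, 5 * x ^ 3 + 7 * x ^ 5 = 0 := by decide
  have h2 := h (d : ZMod 12)
  have h3 := (ZMod.intCast_zmod_eq_zero_iff_dvd (5 * (d : ℤ) ^ 3 + 7 * (d : ℤ) ^ 5) 12).mp
    (by push_cast; exact h2)
  exact_mod_cast h3

theorem twelve_dvd_sigma (n : ℕ) :
    (12 : ℤ) ∣ 5 * ((ArithmeticFunction.sigma 3 n : ℕ) : ℤ) + 7 * ((ArithmeticFunction.sigma 5 n : ℕ) : ℤ) := by
  rw [ArithmeticFunction.sigma_apply, ArithmeticFunction.sigma_apply]
  push_cast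
  rw [Finset.mul_sum, Finset.mul_sum, ← Finset.sum_add_distrib]
  exact Finset.dvd_sum fun d _ => twelve_dvd_aux d

/-- The integral power series `(5 σ₃ + 7 σ₅)/12`. -/
noncomputable def sigMix : PowerSeries ℤ :=
  PowerSeries.mk fun n => if n = 0 then 0 else
    (5 * ((ArithmeticFunction.sigma 3 n : ℕ) : ℤ) + 7 * ((ArithmeticFunction.sigma 5 n : ℕ) : ℤ)) / 12

theorem sigMix_spec : (12 : PowerSeries ℤ) * sigMix = 5 * sigSer 3 + 7 * sigSer 5 := by
  ext n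
  have h12 : (12 : PowerSeries ℤ) = PowerSeries.C (12 : ℤ) := by simp
  have h5 : (5 : PowerSeries ℤ) = PowerSeries.C (5 : ℤ) := by simp
  have h7 : (7 : PowerSeries ℤ) = PowerSeries.C (7 : ℤ) := by simp
  rw [h12, h5, h7, map_add, PowerSeries.coeff_C_mul, PowerSeries.coeff_C_mul, PowerSeries.coeff_C_mul]
  simp only [sigMix, sigSer, PowerSeries.coeff_mk]
  split_ifs with h
  · simp
  · exact Int.mul_ediv_cancel' (twelve_dvd_sigma n)

/-- The integral `q`-expansion of `Δ`. -/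
noncomputable def tauSer : PowerSeries ℤ :=
  sigMix + 100 * sigSer 3 ^ 2 + 8000 * sigSer 3 ^ 3 - 147 * sigSer 5 ^ 2

theorem tauSer_spec :
    (1728 : PowerSeries ℤ) * tauSer = (1 + 240 * sigSer 3) ^ 3 - (1 - 504 * sigSer 5) ^ 2 := by
  have h := sigMix_spec
  unfold tauSer
  linear_combination (144 : PowerSeries ℤ) * h

theorem qExpansion_E₄_eq :
    qExpansion 1 E₄ = PowerSeries.map (Int.castRingHom ℂ) (1 + 240 * sigSer 3) := by
  ext m
  rw [EisensteinSeries.E_qExpansion_coeff _ ⟨2, rfl⟩]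
  have h240 : (240 : PowerSeries ℤ) = PowerSeries.C (240 : ℤ) := by simp
  rw [PowerSeries.coeff_map, map_add, h240, PowerSeries.coeff_C_mul, PowerSeries.coeff_one]
  simp only [sigSer, PowerSeries.coeff_mk]
  split_ifs with h
  · simp
  · norm_num [show bernoulli 4 = -1 / 30 by decide +kernel]

theorem qExpansion_E₆_eq :
    qExpansion 1 E₆ = PowerSeries.map (Int.castRingHom ℂ) (1 - 504 * sigSer 5) := by
  ext m
  rw [EisensteinSeries.E_qExpansion_coeff _ ⟨3, rfl⟩]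
  have h504 : (504 : PowerSeries ℤ) = PowerSeries.C (504 : ℤ) := by simp
  rw [PowerSeries.coeff_map, map_sub, h504, PowerSeries.coeff_C_mul, PowerSeries.coeff_one]
  simp only [sigSer, PowerSeries.coeff_mk]
  split_ifs with h
  · simp
  · norm_num [show bernoulli 6 = 1 / 42 by decide +kernel]

theorem oneMemSL : (1 : ℝ) ∈ (𝒮ℒ).strictPeriods := by simp

theorem qExpansion_discriminant_eq_tauSer :
    qExpansion 1 ModularForm.discriminant = PowerSeries.map (Int.castRingHom ℂ) tauSer := by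
  let G : ModularForm 𝒮ℒ 12 :=
    ModularForm.mcast (by decide) (E₄.pow 3) - ModularForm.mcast (by decide) (E₆.pow 2)
  have hG : (ModularForm.discriminant : ℍ → ℂ) = (1 / 1728 : ℂ) • (G : ℍ → ℂ) := by
    funext z
    simp only [G, Pi.smul_apply, smul_eq_mul, FunLike.coe_sub, coe_mcast, coe_pow, Pi.sub_apply,
      Pi.pow_apply]
    rw [discriminant_eq_E₄_cube_sub_E₆_sq z]
    ring
  have hq : qExpansion 1 (G : ℍ → ℂ) = qExpansion 1 E₄ ^ 3 - qExpansion 1 E₆ ^ 2 := by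
    simp only [G, FunLike.coe_sub, coe_mcast,
      ModularForm.qExpansion_sub one_pos oneMemSL,
      ModularForm.qExpansion_pow one_pos oneMemSL]
  have h1728 : (PowerSeries.map (Int.castRingHom ℂ)) (1728 * tauSer)
      = qExpansion 1 E₄ ^ 3 - qExpansion 1 E₆ ^ 2 := by
    rw [tauSer_spec, qExpansion_E₄_eq, qExpansion_E₆_eq, map_sub, map_pow, map_pow]
  rw [hG, ModularForm.qExpansion_smul one_pos oneMemSL, hq, ← h1728, map_mul]
  ext n
  have hC : (PowerSeries.map (Int.castRingHom ℂ)) (1728 : PowerSeries ℤ) = PowerSeries.C (1728 : ℂ) := by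
    have : (1728 : PowerSeries ℤ) = PowerSeries.C (1728 : ℤ) := by simp
    rw [this, PowerSeries.map_C]; simp
  rw [hC, map_smul, PowerSeries.coeff_C_mul, smul_eq_mul]
  ring

/-- Ramanujan's `τ`. -/
noncomputable def tau (n : ℕ) : ℤ := tauSer.coeff n

theorem qExpansion_discriminant_coeff (n : ℕ) :
    (qExpansion 1 ModularForm.discriminant).coeff n = (tau n : ℂ) := by
  rw [qExpansion_discriminant_eq_tauSer, PowerSeries.coeff_map]; rfl

theorem tau_one : tau 1 = 1 := by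
  have h := qExpansion_discriminant_coeff 1
  rw [discriminant_qExpansion_coeff_one] at h
  exact_mod_cast h.symm

/-! ### `Δ` at level `p` -/

theorem Gamma0_le_SL (N : ℕ) : ((Gamma0 N : Subgroup SL(2, ℤ)) : Subgroup (GL (Fin 2) ℝ)) ≤ 𝒮ℒ :=
  Subgroup.map_le_range _ _

/-- Restriction of a level-one modular form (or cusp form) to `Γ₀(N)`. -/
noncomputable def restrGamma0 (N : ℕ) {k : ℤ} {F : Type*} [FunLike F ℍ ℂ] [ModularFormClass F 𝒮ℒ k]
    (f : F) : ModularForm (Gamma0 N) k where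
  toFun := f
  slash_action_eq' γ hγ := SlashInvariantFormClass.slash_action_eq f γ (Gamma0_le_SL N hγ)
  holo' := ModularFormClass.holo f
  bdd_at_cusps' hc := ModularFormClass.bdd_at_cusps f (hc.mono (Gamma0_le_SL N))

theorem coe_restrGamma0 (N : ℕ) {k : ℤ} {F : Type*} [FunLike F ℍ ℂ] [ModularFormClass F 𝒮ℒ k]
    (f : F) : ⇑(restrGamma0 N f) = ⇑f := rfl

/-- `Δ` as a weight-12 modular form on `Γ₀(N)`. -/
noncomputable def deltaGamma0 (N : ℕ) : ModularForm (Gamma0 N) 12 :=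
  restrGamma0 N CuspForm.discriminant

theorem coe_deltaGamma0 (N : ℕ) : ⇑(deltaGamma0 N) = ModularForm.discriminant := rfl

theorem hasCoeffs_deltaGamma0 (N : ℕ) : HasCoeffs (deltaGamma0 N) tau := fun n => by
  rw [coe_deltaGamma0]; exact qExpansion_discriminant_coeff n

/-! ### The Hecke trick without auxiliary form -/

/-- **(A), general auxiliary prime.**  For primes `r ∉ {p, ℓ}` with `ℓ^e ∤ r² - 1` there is no
weight-2 form on `Γ₀(p)` with integer `q`-coefficients `a n`, `ℓ ∤ a 0`, `ℓ^e ∣ a n` (`n ≥ 1`). -/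
theorem hypA {p r ℓ e : ℕ} (hp : p.Prime) (hr : r.Prime) (hℓ : ℓ.Prime) (hrp : r ≠ p)
    (hrℓ : r ≠ ℓ) (he : ¬ ℓ ^ e ∣ r ^ 2 - 1)
    (F : ModularForm (Gamma0 p) 2) (a : ℕ → ℤ)
    (hF : ∀ n, (qExpansion 1 F).coeff n = (a n : ℂ)) (hc : ¬ (ℓ : ℤ) ∣ a 0)
    (ha : ∀ n, 1 ≤ n → (ℓ : ℤ) ^ e ∣ a n) : False := by
  have : Fact p.Prime := ⟨hp⟩
  refine no_unit_congruence (w := 11) p hℓ hr hrp hrℓ he F a hF hc ha
    (ModularForm.mcast (by norm_num) (deltaGamma0 p) rfl) tau (fun n => hasCoeffs_deltaGamma0 p n)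
    ⟨1, le_refl 1, ?_⟩
  rw [tau_one]
  intro h
  have h1 : ℓ ∣ 1 := by exact_mod_cast h
  exact hℓ.one_lt.ne' (Nat.dvd_one.mp h1)

/-- (A) with the hypothesis `v_ℓ(r² - 1) < e` written with `padicValNat`. -/
theorem hypA_padicValNat {p r ℓ e : ℕ} (hp : p.Prime) (hr : r.Prime) (hℓ : ℓ.Prime) (hrp : r ≠ p)
    (hrℓ : r ≠ ℓ) (he : padicValNat ℓ (r ^ 2 - 1) < e)
    (F : ModularForm (Gamma0 p) 2) (a : ℕ → ℤ)
    (hF : ∀ n, (qExpansion 1 F).coeff n = (a n : ℂ)) (hc : ¬ (ℓ : ℤ) ∣ a 0)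
    (ha : ∀ n, 1 ≤ n → (ℓ : ℤ) ^ e ∣ a n) : False := by
  have : Fact ℓ.Prime := ⟨hℓ⟩
  refine hypA hp hr hℓ hrp hrℓ (fun hdvd => ?_) F a hF hc ha
  have hr2 : r ^ 2 - 1 ≠ 0 := by
    have := hr.two_le
    have : 2 ^ 2 ≤ r ^ 2 := Nat.pow_le_pow_left this 2
    omega
  have := (padicValNat_dvd_iff_le hr2).mp hdvd
  omega

/-- (A) in "constant `c`, complex coefficients" form: `F = c + ℓ^e (…)`, `ℓ ∤ c`. -/
theorem hypA_const {p r ℓ e : ℕ} (hp : p.Prime) (hr : r.Prime) (hℓ : ℓ.Prime) (hrp : r ≠ p)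
    (hrℓ : r ≠ ℓ) (he : ¬ ℓ ^ e ∣ r ^ 2 - 1)
    (F : ModularForm (Gamma0 p) 2) (c : ℤ) (hc : ¬ (ℓ : ℤ) ∣ c)
    (h0 : (qExpansion 1 F).coeff 0 = (c : ℂ))
    (hn : ∀ n : ℕ, 1 ≤ n → ∃ d : ℤ, (qExpansion 1 F).coeff n = (ℓ : ℂ) ^ e * (d : ℂ)) : False := by
  classical
  choose d hd using hn
  refine hypA hp hr hℓ hrp hrℓ he F
    (fun n => if h : 1 ≤ n then (ℓ : ℤ) ^ e * d n h else c) (fun n => ?_) ?_ (fun n hn1 => ?_)
  · by_cases h : 1 ≤ n
    · simp only [dif_pos h]; rw [hd n h]; push_cast; ring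
    · have : n = 0 := by omega
      subst this
      simp only [dif_neg h]; exact h0
  · simpa using hc
  · simp only [dif_pos hn1]; exact Dvd.intro _ rfl

/-- **(A), final `G`-free form**: kills `ℓ ≥ 5` (`e ≥ 1`, also `ℓ = p`), `ℓ = 3` (`e ≥ 2`),
`ℓ = 2` (`e ≥ 4`). -/
theorem hecke_trick_delta (p : ℕ) [Fact p.Prime] {ℓ e : ℕ} (hℓ : ℓ.Prime)
    (hcase : (5 ≤ ℓ ∧ 1 ≤ e) ∨ (ℓ = 3 ∧ 2 ≤ e) ∨ (ℓ = 2 ∧ 4 ≤ e))
    (F : ModularForm (Gamma0 p) 2) (a : ℕ → ℤ)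
    (hF : ∀ n, (qExpansion 1 F).coeff n = (a n : ℂ)) (hc : ¬ (ℓ : ℤ) ∣ a 0)
    (ha : ∀ n, 1 ≤ n → (ℓ : ℤ) ^ e ∣ a n) : False := by
  refine hecke_trick p hℓ hcase F a hF hc ha (k := 12) (by norm_num) (deltaGamma0 p) tau
    (fun n => hasCoeffs_deltaGamma0 p n) ⟨1, le_refl 1, ?_⟩
  rw [tau_one]
  intro h
  have h1 : ℓ ∣ 1 := by exact_mod_cast h
  exact hℓ.one_lt.ne' (Nat.dvd_one.mp h1)

end Fermat.Agent.S16.HeckeTrick6016
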