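import Fermat.Agent.S16.Eis2
import Fermat.Prelude.Def_CuspForm_IntegralStructure
import Fermat.Prelude.Def_ModularCurve_ModularUnit

/-!
# S16, package P7 (assembly), helper958

Bookkeeping that turns the "no unit form" table (NUB) into the upper bound, and a form in
`1 + 2qℤ[[q]]` into the lower bound.  Everything is stated with explicit hypotheses so that the
other packages (reduction P0, trace/cusp criterion P3, Hecke trick P4, `V_p` trick P5, the
`p ≡ 7 mod 8` case P6, theta series S16TH) can be plugged in without touching this file.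

Notation: `σ'(n) = Eis2.sigmaP p n` (sum of the divisors of `n` prime to `p`),
`eisForm p = p E₂(pz) - E₂(z) = (p - 1) + 24 ∑ σ'(n) qⁿ`.
-/

set_option autoImplicit false

open UpperHalfPlane ModularForm CongruenceSubgroup
open scoped MatrixGroups ModularForm

namespace Fermat.Agent.S16.Asm958

noncomputable section

/-- `HasUnitForm p m`: there is a weight 2 modular form on `Γ₀(p)` with integral q-expansion
whose constant term is prime to `m` and whose higher coefficients are all divisible by `m`. -/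
def HasUnitForm (p m : ℕ) : Prop :=
  ∃ (F : ModularForm (Gamma0 p : Subgroup (GL (Fin 2) ℝ)) 2) (a : ℕ → ℤ),
    (∀ n, (qExpansion 1 F).coeff n = (a n : ℂ)) ∧ IsCoprime (a 0) (m : ℤ) ∧
      ∀ n, n ≠ 0 → (m : ℤ) ∣ a n

/-- `HasEisCong p M`: there is a weight 2 cusp form on `Γ₀(p)` with integral q-expansion
congruent to the Eisenstein series `∑ σ'(n) qⁿ` modulo `M`. -/
def HasEisCong (p M : ℕ) : Prop :=
  ∃ (f : CuspForm (Gamma0 p : Subgroup (GL (Fin 2) ℝ)) 2) (a : ℕ → ℤ),
    (∀ n, (qExpansion 1 f).coeff n = (a n : ℂ)) ∧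
      ∀ n, n ≠ 0 → (M : ℤ) ∣ a n - Eis2.sigmaP p n

theorem one_mem_strictPeriods (N : ℕ) :
    (1 : ℝ) ∈ (Gamma0 N : Subgroup (GL (Fin 2) ℝ)).strictPeriods := by simp

theorem HasUnitForm.of_dvd {p m m' : ℕ} (h : HasUnitForm p m) (hm : m' ∣ m) :
    HasUnitForm p m' := by
  obtain ⟨F, a, ha, hcop, hdvd⟩ := h
  refine ⟨F, a, ha, ?_, fun n hn => (Int.natCast_dvd_natCast.mpr hm).trans (hdvd n hn)⟩
  exact hcop.of_isCoprime_of_dvd_right (Int.natCast_dvd_natCast.mpr hm)

theorem HasEisCong.of_dvd {p M M' : ℕ} (h : HasEisCong p M) (hM : M' ∣ M) :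
    HasEisCong p M' := by
  obtain ⟨f, a, ha, hdvd⟩ := h
  exact ⟨f, a, ha, fun n hn => (Int.natCast_dvd_natCast.mpr hM).trans (hdvd n hn)⟩

theorem qExpansion_smul' {N : ℕ} {k : ℤ} (c : ℂ)
    (F : ModularForm (Gamma0 N : Subgroup (GL (Fin 2) ℝ)) k) :
    qExpansion 1 ((c • F : ModularForm (Gamma0 N : Subgroup (GL (Fin 2) ℝ)) k) : ℍ → ℂ) =
      c • qExpansion 1 F := by
  have h1 : ((c • F : ModularForm (Gamma0 N : Subgroup (GL (Fin 2) ℝ)) k) : ℍ → ℂ) = c • ⇑F := by
    ext z
    simp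
  rw [h1]
  exact ModularForm.qExpansion_smul one_pos (one_mem_strictPeriods N) c F

theorem qExpansion_sub' {N : ℕ} {k : ℤ}
    (F G : ModularForm (Gamma0 N : Subgroup (GL (Fin 2) ℝ)) k) :
    qExpansion 1 ((F - G : ModularForm (Gamma0 N : Subgroup (GL (Fin 2) ℝ)) k) : ℍ → ℂ) =
      qExpansion 1 F - qExpansion 1 G := by
  have h1 : ((F - G : ModularForm (Gamma0 N : Subgroup (GL (Fin 2) ℝ)) k) : ℍ → ℂ) = ⇑F - ⇑G := by
    ext z
    simp
  rw [h1]
  exact ModularForm.qExpansion_sub one_pos (one_mem_strictPeriods N) F G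

theorem qExpansion_add' {N : ℕ} {k : ℤ}
    (F G : ModularForm (Gamma0 N : Subgroup (GL (Fin 2) ℝ)) k) :
    qExpansion 1 ((F + G : ModularForm (Gamma0 N : Subgroup (GL (Fin 2) ℝ)) k) : ℍ → ℂ) =
      qExpansion 1 F + qExpansion 1 G := by
  have h1 : ((F + G : ModularForm (Gamma0 N : Subgroup (GL (Fin 2) ℝ)) k) : ℍ → ℂ) = ⇑F + ⇑G := by
    ext z
    simp
  rw [h1]
  exact ModularForm.qExpansion_add one_pos (one_mem_strictPeriods N) F G

/-- **Lemma U.** A congruence `f ≡ ∑ σ'(n) qⁿ mod M` gives, for every `d ∣ p - 1` and `m` with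
`d * m ∣ 24 * M` and `(p - 1) / d` prime to `m`, a unit form modulo `m`
(namely `(eisForm p - 24 f) / d`). -/
theorem hasUnitForm_of_hasEisCong {p M : ℕ} [Fact p.Prime] (h : HasEisCong p M) {d m : ℕ}
    (hd : d ∣ p - 1) (hdm : d * m ∣ 24 * M) (hcop : Nat.Coprime ((p - 1) / d) m) :
    HasUnitForm p m := by
  have hp : p.Prime := Fact.out
  have : NeZero p := ⟨hp.ne_zero⟩
  obtain ⟨f, a, ha, hdvd⟩ := h
  have hd0 : d ≠ 0 := by
    rintro rfl
    have := Nat.eq_zero_of_zero_dvd hd
    have := hp.two_le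
    omega
  have hdC : (d : ℂ) ≠ 0 := by exact_mod_cast hd0
  have hΓ := one_mem_strictPeriods p
  -- the form `(eisForm p - 24 f) / d`
  let F : ModularForm (Gamma0 p : Subgroup (GL (Fin 2) ℝ)) 2 :=
    (d : ℂ)⁻¹ • (Eis2.eisForm p - (24 : ℂ) •
      (ModularFormClass.modularForm f : ModularForm (Gamma0 p : Subgroup (GL (Fin 2) ℝ)) 2))
  -- its coefficients
  have hq : ∀ n, (qExpansion 1 F).coeff n =
      (d : ℂ)⁻¹ * (Eis2.eisCoeff p n - 24 * (a n : ℂ)) := by
    intro n
    have h4 : qExpansion 1 (ModularFormClass.modularForm f :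
        ModularForm (Gamma0 p : Subgroup (GL (Fin 2) ℝ)) 2) = qExpansion 1 f := rfl
    show (qExpansion 1 (((d : ℂ)⁻¹ • (Eis2.eisForm p - (24 : ℂ) •
      (ModularFormClass.modularForm f : ModularForm (Gamma0 p : Subgroup (GL (Fin 2) ℝ)) 2)) :
        ModularForm (Gamma0 p : Subgroup (GL (Fin 2) ℝ)) 2) : ℍ → ℂ)).coeff n = _
    rw [qExpansion_smul', qExpansion_sub', qExpansion_smul', h4]
    simp only [PowerSeries.coeff_smul, map_sub, smul_eq_mul, Eis2.qExpansion_eisForm_coeff, ha n]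
  -- the integer coefficients
  obtain ⟨e, he⟩ := hd
  have he0 : (p - 1) / d = e := by rw [he]; exact Nat.mul_div_cancel_left e (Nat.pos_of_ne_zero hd0)
  -- `d * m ∣ 24 * (σ' n - a n)` for `n ≠ 0`
  have hkey : ∀ n, n ≠ 0 → ((d * m : ℕ) : ℤ) ∣ 24 * (Eis2.sigmaP p n - a n) := by
    intro n hn
    have h1 : ((d * m : ℕ) : ℤ) ∣ ((24 * M : ℕ) : ℤ) := Int.natCast_dvd_natCast.mpr hdm
    have h2 : ((24 * M : ℕ) : ℤ) ∣ 24 * (Eis2.sigmaP p n - a n) := by
      push_cast
      exact mul_dvd_mul_left 24 ((dvd_neg.mpr (hdvd n hn)).trans (by rw [neg_sub]))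
    exact h1.trans h2
  choose c hc using fun n (hn : n ≠ 0) => hkey n hn
  classical
  refine ⟨F, fun n => if hn : n = 0 then (e : ℤ) else (m : ℤ) * c n hn, ?_, ?_, ?_⟩
  · intro n
    rw [hq n]
    by_cases hn : n = 0
    · subst hn
      dsimp only
      rw [Eis2.eisCoeff_zero, dif_pos rfl]
      have ha0 : a 0 = 0 := by
        have h0 : (qExpansion 1 f).coeff 0 = 0 :=
          CuspFormClass.qExpansion_coeff_zero f one_pos hΓ
        have := (ha 0).symm.trans h0
        exact_mod_cast this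
      have hp1 : ((p : ℂ) - 1) = (d : ℂ) * (e : ℂ) := by
        have h1 : 1 ≤ p := hp.one_le
        have : ((p - 1 : ℕ) : ℂ) = (d : ℂ) * (e : ℂ) := by rw [he]; push_cast; ring
        rw [← this]; push_cast [h1]; ring
      rw [ha0, hp1]
      field_simp
      push_cast
      ring
    · dsimp only
      rw [dif_neg hn, Eis2.eisCoeff_prime hn]
      have := hc n hn
      have h2 : (24 : ℂ) * (Eis2.sigmaP p n : ℂ) - 24 * (a n : ℂ) =
          ((d * m : ℕ) : ℂ) * (c n hn : ℂ) := by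
        have : ((24 * (Eis2.sigmaP p n - a n) : ℤ) : ℂ) = (((d * m : ℕ) : ℤ) * c n hn : ℤ) := by
          rw [this]
        push_cast at this ⊢
        linear_combination this
      rw [h2]
      push_cast
      field_simp
  · dsimp only
    rw [dif_pos rfl, ← he0]
    exact Nat.isCoprime_iff_coprime.mpr hcop
  · intro n hn
    simp only [dif_neg hn]
    exact dvd_mul_right _ _

/-! ### Upper bound bookkeeping -/

private theorem fact_of_pow {ℓ n k : ℕ} (hℓ : ℓ.Prime) (hn : n ≠ 0) (h1 : ℓ ^ k ∣ n)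
    (h2 : ¬ ℓ ^ (k + 1) ∣ n) : n.factorization ℓ = k := by
  have a1 := (hℓ.pow_dvd_iff_le_factorization hn).mp h1
  have a2 := (hℓ.pow_dvd_iff_le_factorization hn).not.mp h2
  omega

private theorem fact12_two : (12 : ℕ).factorization 2 = 2 :=
  fact_of_pow Nat.prime_two (by norm_num) (by norm_num) (by norm_num)

private theorem fact12_three : (12 : ℕ).factorization 3 = 1 :=
  fact_of_pow Nat.prime_three (by norm_num) (by norm_num) (by norm_num)

private theorem fact24_two : (24 : ℕ).factorization 2 = 3 :=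
  fact_of_pow Nat.prime_two (by norm_num) (by norm_num) (by norm_num)

private theorem fact24_three : (24 : ℕ).factorization 3 = 1 :=
  fact_of_pow Nat.prime_three (by norm_num) (by norm_num) (by norm_num)

private theorem five_le_of_prime {ℓ : ℕ} (hℓ : ℓ.Prime) (h2 : ℓ ≠ 2) (h3 : ℓ ≠ 3) : 5 ≤ ℓ := by
  by_contra hlt
  have h4 : ℓ ≠ 4 := by rintro rfl; norm_num at hℓ
  have := hℓ.two_le
  omega

private theorem fact_of_five_le {ℓ n : ℕ} (hℓ : ℓ.Prime) (h5 : 5 ≤ ℓ) (hn : n ∣ 24) :
    n.factorization ℓ = 0 := by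
  apply Nat.factorization_eq_zero_of_not_dvd
  intro hdvd
  have h24 : ℓ ∣ 24 := hdvd.trans hn
  have hle : ℓ ≤ 24 := Nat.le_of_dvd (by norm_num) h24
  interval_cases ℓ <;> first | omega | (norm_num at hℓ)

/-- **Upper bound from the NUB table.**  If no unit forms exist in the listed cases, then every
modulus `M` of an Eisenstein congruence divides `(p - 1) / gcd (p - 1, 12)`. -/
theorem ub_of_nub {p : ℕ} [Fact p.Prime]
    (h5 : ∀ ℓ : ℕ, ℓ.Prime → 5 ≤ ℓ → ¬ HasUnitForm p ℓ)
    (h9 : ¬ HasUnitForm p 9) (h16 : ¬ HasUnitForm p 16)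
    (h3 : 3 ∣ p - 1 → ¬ HasUnitForm p 3)
    (h4 : 4 ∣ p - 1 → ¬ HasUnitForm p 4)
    (h8 : 2 ∣ p - 1 → ¬ HasUnitForm p 8)
    {M : ℕ} (hM : M ≠ 0) (h : HasEisCong p M) :
    M ∣ ModularCurve.eisensteinNumerator p := by
  have hp : p.Prime := Fact.out
  have hP : p - 1 ≠ 0 := by have := hp.two_le; omega
  have hg : Nat.gcd (p - 1) 12 ≠ 0 := by
    intro h0
    exact hP (Nat.eq_zero_of_gcd_eq_zero_left h0)
  unfold ModularCurve.eisensteinNumerator
  apply Nat.dvd_div_of_mul_dvd
  rw [← Nat.factorization_le_iff_dvd (Nat.mul_ne_zero hg hM) hP]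
  intro ℓ
  by_cases hℓ : ℓ.Prime
  swap
  · simp [Nat.factorization_eq_zero_of_not_prime _ hℓ]
  rw [Nat.factorization_mul hg hM, Finsupp.add_apply,
    Nat.factorization_gcd hP (by norm_num : (12 : ℕ) ≠ 0), Finsupp.inf_apply]
  by_contra hcon
  rw [not_le] at hcon
  set v := (p - 1).factorization ℓ with hv
  set k := M.factorization ℓ with hk
  set t := (12 : ℕ).factorization ℓ with ht
  set s := (24 : ℕ).factorization ℓ with hs
  have hts : t ≤ s := by
    have : (12 : ℕ).factorization ≤ (24 : ℕ).factorization :=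
      (Nat.factorization_le_iff_dvd (by norm_num) (by norm_num)).mpr (by norm_num)
    exact this ℓ
  -- the unit form modulo `ℓ ^ b`
  have hU : HasUnitForm p (ℓ ^ (s + 1 - min v t)) := by
    refine hasUnitForm_of_hasEisCong h (d := ℓ ^ v) (Nat.ordProj_dvd (p - 1) ℓ) ?_ ?_
    · have h1 : ℓ ^ s ∣ 24 := Nat.ordProj_dvd 24 ℓ
      have h2 : ℓ ^ k ∣ M := Nat.ordProj_dvd M ℓ
      have h3 : ℓ ^ v * ℓ ^ (s + 1 - min v t) ∣ ℓ ^ s * ℓ ^ k := by
        rw [← pow_add, ← pow_add]
        apply pow_dvd_pow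
        have : min v t ≤ t := min_le_right _ _
        omega
      exact h3.trans (mul_dvd_mul h1 h2)
    · exact ((Nat.coprime_ordCompl hℓ hP).symm).pow_right _
  have hvdvd : ∀ j, j ≤ v → ℓ ^ j ∣ p - 1 := fun j hj =>
    (pow_dvd_pow ℓ hj).trans (Nat.ordProj_dvd (p - 1) ℓ)
  by_cases hℓ2 : ℓ = 2
  · subst hℓ2
    have ht2 : t = 2 := fact12_two
    have hs3 : s = 3 := fact24_two
    rw [ht2, hs3] at hU
    rcases Nat.lt_or_ge v 2 with hv2 | hv2
    · rcases Nat.lt_or_ge v 1 with hv1 | hv1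
      · have hv0 : v = 0 := by omega
        rw [hv0] at hU
        exact h16 (by simpa using hU)
      · have hv1' : v = 1 := by omega
        rw [hv1'] at hU
        exact h8 (by simpa using hvdvd 1 hv1) (by simpa using hU)
    · have hb : 3 + 1 - min v 2 = 2 := by
        rw [min_eq_right hv2]
      rw [hb] at hU
      exact h4 (by simpa using hvdvd 2 hv2) (by simpa using hU)
  by_cases hℓ3 : ℓ = 3
  · subst hℓ3
    have ht1 : t = 1 := fact12_three
    have hs1 : s = 1 := fact24_three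
    rw [ht1, hs1] at hU
    rcases Nat.lt_or_ge v 1 with hv1 | hv1
    · have hv0 : v = 0 := by omega
      rw [hv0] at hU
      exact h9 (by simpa using hU)
    · have hb : 1 + 1 - min v 1 = 1 := by
        rw [min_eq_right hv1]
      rw [hb] at hU
      exact h3 (by simpa using hvdvd 1 hv1) (by simpa using hU)
  · have h5le : 5 ≤ ℓ := five_le_of_prime hℓ hℓ2 hℓ3
    have ht0 : t = 0 := fact_of_five_le hℓ h5le (by norm_num)
    have hs0 : s = 0 := fact_of_five_le hℓ h5le (by norm_num)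
    rw [ht0, hs0] at hU
    have hb : 0 + 1 - min v 0 = 1 := by simp
    rw [hb, pow_one] at hU
    exact h5 ℓ hℓ h5le hU

/-! ### Lower bound assembly -/

theorem eisensteinNumerator_ne_zero {p : ℕ} [Fact p.Prime] :
    ModularCurve.eisensteinNumerator p ≠ 0 := by
  have hp : p.Prime := Fact.out
  have hP : 0 < p - 1 := by have := hp.two_le; omega
  unfold ModularCurve.eisensteinNumerator
  have hg : Nat.gcd (p - 1) 12 ∣ p - 1 := Nat.gcd_dvd_left _ _
  have hgpos : 0 < Nat.gcd (p - 1) 12 := Nat.gcd_pos_of_pos_left _ hP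
  exact (Nat.div_pos (Nat.le_of_dvd hP hg) hgpos).ne'

/-- **Lower bound from one form in `1 + 2qℤ[[q]]`.**  `hcusp` is the cusp criterion (package P3):
a weight 2 form on `Γ₀(p)` whose q-expansion has no constant term is a cusp form. -/
theorem lb_of_theta {p : ℕ} [Fact p.Prime]
    (hcusp : ∀ G : ModularForm (Gamma0 p : Subgroup (GL (Fin 2) ℝ)) 2,
      (qExpansion 1 G).coeff 0 = 0 →
        ∃ g : CuspForm (Gamma0 p : Subgroup (GL (Fin 2) ℝ)) 2, (⇑g : ℍ → ℂ) = ⇑G)
    (H : ModularForm (Gamma0 p : Subgroup (GL (Fin 2) ℝ)) 2) (b : ℕ → ℤ)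
    (hH0 : (qExpansion 1 H).coeff 0 = 1)
    (hH : ∀ n, n ≠ 0 → (qExpansion 1 H).coeff n = 2 * (b n : ℂ)) :
    HasEisCong p (ModularCurve.eisensteinNumerator p) := by
  have hp : p.Prime := Fact.out
  have : NeZero p := ⟨hp.ne_zero⟩
  have hP : 0 < p - 1 := by have := hp.two_le; omega
  set n := ModularCurve.eisensteinNumerator p with hn
  -- Bezout
  set y : ℤ := Nat.gcdA (p - 1) 12 with hy
  set x : ℤ := Nat.gcdB (p - 1) 12 with hx
  have hbez : ((Nat.gcd (p - 1) 12 : ℕ) : ℤ) = ((p - 1 : ℕ) : ℤ) * y + ((12 : ℕ) : ℤ) * x :=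
    Nat.gcd_eq_gcd_ab (p - 1) 12
  have hng : n * Nat.gcd (p - 1) 12 = p - 1 := by
    rw [hn]
    unfold ModularCurve.eisensteinNumerator
    exact Nat.div_mul_cancel (Nat.gcd_dvd_left _ _)
  have hngZ : (n : ℤ) * ((Nat.gcd (p - 1) 12 : ℕ) : ℤ) = ((p - 1 : ℕ) : ℤ) := by
    exact_mod_cast hng
  have hp1 : ((p - 1 : ℕ) : ℤ) = (p : ℤ) - 1 := by
    have := hp.one_le
    push_cast [this]; ring
  -- the form
  let G : ModularForm (Gamma0 p : Subgroup (GL (Fin 2) ℝ)) 2 :=
    (((1 - (n : ℤ) * y : ℤ) : ℂ) / 24) • Eis2.eisForm p - ((((n : ℤ) * x : ℤ) : ℂ) / 2) • H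
  have hq : ∀ m, (qExpansion 1 G).coeff m =
      (((1 - (n : ℤ) * y : ℤ) : ℂ) / 24) * Eis2.eisCoeff p m -
        ((((n : ℤ) * x : ℤ) : ℂ) / 2) * (qExpansion 1 H).coeff m := by
    intro m
    show (qExpansion 1 (((((1 - (n : ℤ) * y : ℤ) : ℂ) / 24) • Eis2.eisForm p -
      ((((n : ℤ) * x : ℤ) : ℂ) / 2) • H :
        ModularForm (Gamma0 p : Subgroup (GL (Fin 2) ℝ)) 2) : ℍ → ℂ)).coeff m = _
    rw [qExpansion_sub', qExpansion_smul', qExpansion_smul']
    simp only [PowerSeries.coeff_smul, map_sub, smul_eq_mul, Eis2.qExpansion_eisForm_coeff]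
  have hG0 : (qExpansion 1 G).coeff 0 = 0 := by
    rw [hq 0, hH0, Eis2.eisCoeff_zero]
    have h1 : (((1 - (n : ℤ) * y) * ((p : ℤ) - 1) - 12 * ((n : ℤ) * x) : ℤ) : ℂ) = 0 := by
      have : (1 - (n : ℤ) * y) * ((p : ℤ) - 1) - 12 * ((n : ℤ) * x) = 0 := by
        rw [← hp1]
        have h2 := hngZ
        rw [hbez] at h2
        push_cast at h2 ⊢
        linear_combination -h2
      rw [this]; simp
    push_cast at h1 ⊢
    linear_combination h1 / 24
  obtain ⟨g, hg⟩ := hcusp G hG0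
  refine ⟨g, fun m => if m = 0 then 0 else
    (1 - (n : ℤ) * y) * Eis2.sigmaP p m - (n : ℤ) * x * b m, ?_, ?_⟩
  · intro m
    rw [hg]
    by_cases hm : m = 0
    · subst hm
      rw [hG0]
      simp
    · rw [hq m, hH m hm, Eis2.eisCoeff_prime hm]
      dsimp only
      rw [if_neg hm]
      push_cast
      ring
  · intro m hm
    dsimp only
    rw [if_neg hm]
    refine ⟨-(y * Eis2.sigmaP p m + x * b m), ?_⟩
    ring

/-! ### The NUB table from the three general statements (A), (B), (C) -/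

/-- **NUB table.**  `hA` is the Hecke trick (package P4), `hB` the `V_p`/trace trick (package P5),
`hC` the case `p ≡ 7 mod 8` (package P6). -/
theorem ub_of_ABC {p : ℕ} [Fact p.Prime]
    (hA : ∀ ℓ e r : ℕ, ℓ.Prime → r.Prime → r ≠ p → r ≠ ℓ → ¬ ℓ ^ e ∣ r ^ 2 - 1 →
      ¬ HasUnitForm p (ℓ ^ e))
    (hB : ∀ m : ℕ, m ∣ 24 → Nat.Coprime m p → ¬ m ∣ p + 1 → ¬ HasUnitForm p m)
    (hC : p % 8 = 7 → ¬ HasUnitForm p 8)
    {M : ℕ} (hM : M ≠ 0) (h : HasEisCong p M) :
    M ∣ ModularCurve.eisensteinNumerator p := by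
  have hp : p.Prime := Fact.out
  have hp2 := hp.two_le
  have hodd : 2 ∣ p - 1 → p % 2 = 1 := by intro h2; omega
  have hcop_of_odd : ∀ j : ℕ, p % 2 = 1 → Nat.Coprime (2 ^ j) p := by
    intro j h1
    apply Nat.Coprime.pow_left
    rw [Nat.coprime_comm, Nat.Prime.coprime_iff_not_dvd hp]
    intro h2
    have := Nat.le_of_dvd (by norm_num) h2
    omega
  have h4 : 4 ∣ p - 1 → ¬ HasUnitForm p 4 := by
    intro h41
    refine hB 4 (by norm_num) ?_ ?_
    · have := hcop_of_odd 2 (by omega)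
      simpa using this
    · omega
  refine ub_of_nub ?_ ?_ ?_ ?_ h4 ?_ hM h
  · -- `ℓ ≥ 5`
    intro ℓ hℓ h5
    by_cases hp2' : p = 2
    · have := hA ℓ 1 3 hℓ Nat.prime_three (by omega) (by omega) (by
        rw [pow_one]
        intro hd
        have : ℓ ≤ 8 := Nat.le_of_dvd (by norm_num) hd
        interval_cases ℓ <;> first | omega | (norm_num at hℓ))
      simpa using this
    · have := hA ℓ 1 2 hℓ Nat.prime_two (by omega) (by omega) (by
        rw [pow_one]
        intro hd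
        have : ℓ ≤ 3 := Nat.le_of_dvd (by norm_num) hd
        omega)
      simpa using this
  · -- modulo 9
    by_cases hp2' : p = 2
    · have := hA 3 2 5 Nat.prime_three (by norm_num) (by omega) (by omega) (by norm_num)
      simpa using this
    · have := hA 3 2 2 Nat.prime_three Nat.prime_two (by omega) (by omega) (by norm_num)
      simpa using this
  · -- modulo 16
    by_cases hp3 : p = 3
    · have := hA 2 4 5 Nat.prime_two (by norm_num) (by omega) (by omega) (by norm_num)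
      simpa using this
    · have := hA 2 4 3 Nat.prime_two Nat.prime_three (by omega) (by omega) (by norm_num)
      simpa using this
  · -- modulo 3, `p ≡ 1 mod 3`
    intro h31
    refine hB 3 (by norm_num) ?_ ?_
    · rw [Nat.coprime_comm, Nat.Prime.coprime_iff_not_dvd hp]
      intro h3p
      have := Nat.le_of_dvd (by norm_num) h3p
      interval_cases p <;> omega
    · omega
  · -- modulo 8, `p` odd
    intro h21
    have h1 := hodd h21
    have hmod : p % 8 = 1 ∨ p % 8 = 3 ∨ p % 8 = 5 ∨ p % 8 = 7 := by omega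
    rcases hmod with h | h | h | h
    · exact fun hU => h4 (by omega) (hU.of_dvd (by norm_num))
    · refine hB 8 (by norm_num) ?_ (by omega)
      have := hcop_of_odd 3 h1
      simpa using this
    · exact fun hU => h4 (by omega) (hU.of_dvd (by norm_num))
    · exact hC h

/-! ### Final combination -/

/-- Final combination: if divisibility of `c` (the index of the Eisenstein ideal) is equivalent
to the existence of Eisenstein congruences (reduction, package P0), then the lower and the upper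
bound give `c = (p - 1) / gcd (p - 1, 12)`. -/
theorem eq_eisensteinNumerator_of_reduction {p : ℕ} [Fact p.Prime] {c : ℕ}
    (hR : ∀ M : ℕ, M ≠ 0 → (M ∣ c ↔ HasEisCong p M))
    (hLB : HasEisCong p (ModularCurve.eisensteinNumerator p))
    (hUB : ∀ M : ℕ, M ≠ 0 → HasEisCong p M → M ∣ ModularCurve.eisensteinNumerator p) :
    c = ModularCurve.eisensteinNumerator p := by
  have hn0 : ModularCurve.eisensteinNumerator p ≠ 0 := eisensteinNumerator_ne_zero
  have h1 : ModularCurve.eisensteinNumerator p ∣ c := (hR _ hn0).mpr hLB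
  have hc0 : c ≠ 0 := by
    rintro rfl
    have h2 := hUB (ModularCurve.eisensteinNumerator p + 1) (by omega)
      ((hR _ (by omega)).mp (dvd_zero _))
    have := Nat.le_of_dvd (Nat.pos_of_ne_zero hn0) h2
    omega
  have h2 : c ∣ ModularCurve.eisensteinNumerator p := hUB c hc0 ((hR c hc0).mp dvd_rfl)
  exact Nat.dvd_antisymm h2 h1

/-! ### Bridge to the Prelude lattice -/

/-- Membership in the Prelude's `intLattice` is integrality of the q-expansion. -/
theorem mem_intLattice_iff (N : ℕ) (k : ℤ)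
    (f : CuspForm (Gamma0 N : Subgroup (GL (Fin 2) ℝ)) k) :
    f ∈ CuspForm.intLattice N k ↔ ∀ n : ℕ, ∃ m : ℤ, ModularFormClass.qCoeff f n = (m : ℂ) := by
  constructor
  · intro hf
    unfold CuspForm.intLattice at hf
    induction hf using Submodule.span_induction with
    | mem g hg => exact hg
    | zero =>
      intro n
      refine ⟨0, ?_⟩
      unfold ModularFormClass.qCoeff
      rw [show ((0 : CuspForm (Gamma0 N : Subgroup (GL (Fin 2) ℝ)) k) : ℍ → ℂ) = 0 from rfl,
        qExpansion_zero]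
      simp
    | add g h _ _ hg hh =>
      intro n
      obtain ⟨a, ha⟩ := hg n
      obtain ⟨b, hb⟩ := hh n
      refine ⟨a + b, ?_⟩
      have hadd : qExpansion 1 ((g + h : CuspForm (Gamma0 N : Subgroup (GL (Fin 2) ℝ)) k) : ℍ → ℂ)
          = qExpansion 1 g + qExpansion 1 h := by
        have h1 : ((g + h : CuspForm (Gamma0 N : Subgroup (GL (Fin 2) ℝ)) k) : ℍ → ℂ) = ⇑g + ⇑h := by
          ext z; simp
        rw [h1]
        exact ModularForm.qExpansion_add one_pos (one_mem_strictPeriods N) g h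
      unfold ModularFormClass.qCoeff at ha hb ⊢
      rw [hadd, map_add, ha, hb]
      push_cast
      ring
    | smul c g _ hg =>
      intro n
      obtain ⟨a, ha⟩ := hg n
      refine ⟨c * a, ?_⟩
      have hsmul : qExpansion 1 ((c • g : CuspForm (Gamma0 N : Subgroup (GL (Fin 2) ℝ)) k) : ℍ → ℂ)
          = (c : ℂ) • qExpansion 1 g := by
        have h1 : ((c • g : CuspForm (Gamma0 N : Subgroup (GL (Fin 2) ℝ)) k) : ℍ → ℂ)
            = (c : ℂ) • ⇑g := by
          ext z; simp
        rw [h1]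
        exact ModularForm.qExpansion_smul one_pos (one_mem_strictPeriods N) (c : ℂ) g
      unfold ModularFormClass.qCoeff at ha ⊢
      rw [hsmul, PowerSeries.coeff_smul, ha]
      push_cast
      simp
  · intro hf
    exact Submodule.subset_span hf

/-- `HasEisCong` in terms of the Prelude lattice. -/
theorem hasEisCong_iff_intLattice (p M : ℕ) :
    HasEisCong p M ↔ ∃ f ∈ CuspForm.intLattice p 2, ∀ n : ℕ, n ≠ 0 →
      ∃ m : ℤ, ModularFormClass.qCoeff f n = (m : ℂ) ∧ (M : ℤ) ∣ m - Eis2.sigmaP p n := by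
  constructor
  · rintro ⟨f, a, ha, hdvd⟩
    refine ⟨f, (mem_intLattice_iff p 2 f).mpr fun n => ⟨a n, ha n⟩, fun n hn => ⟨a n, ha n, hdvd n hn⟩⟩
  · rintro ⟨f, hf, hcong⟩
    have hint := (mem_intLattice_iff p 2 f).mp hf
    choose a ha using hint
    refine ⟨f, a, ha, fun n hn => ?_⟩
    obtain ⟨m, hm, hdvd⟩ := hcong n hn
    have : a n = m := by
      have := (ha n).symm.trans hm
      exact_mod_cast this
    rw [this]
    exact hdvd

end

end Fermat.Agent.S16.Asm958
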