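import Fermat.Agent.S16.LevelOne

/-!
# S16, package P5: the `V_p` / trace trick (B)  (helper8490)

Formal core of step (B) of the upper bound (route notes `origin/helper503:notes/S16_route_helper503.md`,
`origin/helper5130:notes/S16_route_helper5130.md`):

if `F ∈ M_2(Γ₀(p))` has an integral `q`-expansion `Fq` with `Fq ≡ c (mod m)`, `m ∣ 24`, then
`m ∣ c * p ^ 11 * (p + 1)`.

The analytic input (package P3, trace from level `p` to level one) enters only through the two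
hypotheses `hX`, `hY` of `vp_trick`:

* `X ∈ M_14(SL₂(ℤ))` with `q`-expansion `p^12 · Fq · V_p Δ − U_p (U_p Fq · Δ)`  (`= p^12 · Tr (F · V_p Δ)`),
* `Y ∈ M_12(SL₂(ℤ))` with `q`-expansion `U_p Δ + p^11 · V_p Δ`               (`= T_p Δ`).

`Uop`, `Vop` are the formal operators `U_p`, `V_p` on `ℤ⟦X⟧`.
-/

set_option autoImplicit false

open UpperHalfPlane ModularForm EisensteinSeries
open scoped MatrixGroups ModularForm Manifold

namespace Fermat.Agent.S16.VpTrick

open Fermat.Agent.S16.LevelOne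

noncomputable section

/-- The formal operator `U_p` on integer power series: `a_n ↦ a_{pn}`. -/
def Uop (p : ℕ) (P : PowerSeries ℤ) : PowerSeries ℤ :=
  PowerSeries.mk fun n => P.coeff (p * n)

/-- The formal operator `V_p` on integer power series: `q ↦ q^p`. -/
def Vop (p : ℕ) (P : PowerSeries ℤ) : PowerSeries ℤ :=
  PowerSeries.mk fun n => if p ∣ n then P.coeff (n / p) else 0

@[simp] theorem coeff_Uop (p : ℕ) (P : PowerSeries ℤ) (n : ℕ) :
    (Uop p P).coeff n = P.coeff (p * n) := by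
  simp [Uop]

@[simp] theorem coeff_Vop (p : ℕ) (P : PowerSeries ℤ) (n : ℕ) :
    (Vop p P).coeff n = if p ∣ n then P.coeff (n / p) else 0 := by
  simp [Vop]

theorem Uop_add (p : ℕ) (P Q : PowerSeries ℤ) : Uop p (P + Q) = Uop p P + Uop p Q := by
  ext n; simp

theorem Uop_sub (p : ℕ) (P Q : PowerSeries ℤ) : Uop p (P - Q) = Uop p P - Uop p Q := by
  ext n; simp

theorem Uop_C_mul (p : ℕ) (a : ℤ) (P : PowerSeries ℤ) :
    Uop p (PowerSeries.C a * P) = PowerSeries.C a * Uop p P := by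
  ext n
  rw [coeff_Uop, PowerSeries.coeff_C_mul, PowerSeries.coeff_C_mul, coeff_Uop]

theorem Uop_C {p : ℕ} (hp : p ≠ 0) (a : ℤ) : Uop p (PowerSeries.C a) = PowerSeries.C a := by
  ext n
  simp only [coeff_Uop, PowerSeries.coeff_C]
  by_cases hn : n = 0
  · simp [hn]
  · simp [hn, hp]

/-- A power series all of whose coefficients are divisible by `m` is `C m` times a power series. -/
theorem exists_eq_C_mul {m : ℤ} {P : PowerSeries ℤ} (h : ∀ n, m ∣ P.coeff n) :
    ∃ R : PowerSeries ℤ, P = PowerSeries.C m * R := by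
  refine ⟨PowerSeries.mk fun n => P.coeff n / m, ?_⟩
  ext n
  rw [PowerSeries.coeff_C_mul, PowerSeries.coeff_mk, Int.mul_ediv_cancel' (h n)]

/-- **The `V_p`/trace trick (B), formal core.** -/
theorem vp_trick {p : ℕ} (hp : p.Prime) (Fq : PowerSeries ℤ) (c m : ℤ) (hm : m ∣ 24)
    (hF0 : m ∣ Fq.coeff 0 - c) (hFn : ∀ n : ℕ, n ≠ 0 → m ∣ Fq.coeff n)
    (X : ModularForm 𝒮ℒ 14)
    (hX : qExpansion 1 X =
      toC ((p : PowerSeries ℤ) ^ 12 * (Fq * Vop p deltaInt) - Uop p (Uop p Fq * deltaInt)))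
    (Y : ModularForm 𝒮ℒ 12)
    (hY : qExpansion 1 Y = toC (Uop p deltaInt + (p : PowerSeries ℤ) ^ 11 * Vop p deltaInt)) :
    m ∣ c * (p : ℤ) ^ 11 * ((p : ℤ) + 1) := by
  have hp0 : p ≠ 0 := hp.ne_zero
  -- the level-one form `H = E₄ X + c E₆ Y` of weight 18
  obtain ⟨g4, -, hg4⟩ := exists_monomialForm 1 0 4 (by norm_num)
  obtain ⟨g6, -, hg6⟩ := exists_monomialForm 0 1 6 (by norm_num)
  simp only [pow_one, pow_zero, mul_one, one_mul] at hg4 hg6
  obtain ⟨Xq, hXq⟩ : ∃ Xq : PowerSeries ℤ,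
      Xq = (p : PowerSeries ℤ) ^ 12 * (Fq * Vop p deltaInt) - Uop p (Uop p Fq * deltaInt) :=
    ⟨_, rfl⟩
  obtain ⟨Yq, hYq⟩ : ∃ Yq : PowerSeries ℤ,
      Yq = Uop p deltaInt + (p : PowerSeries ℤ) ^ 11 * Vop p deltaInt := ⟨_, rfl⟩
  rw [← hXq] at hX
  rw [← hYq] at hY
  obtain ⟨H, hH⟩ : ∃ H : ModularForm 𝒮ℒ 18,
      H = ModularForm.mcast (by norm_num) (g4.mul X) +
        (c : ℂ) • ModularForm.mcast (by norm_num) (g6.mul Y) := ⟨_, rfl⟩
  obtain ⟨Hq, hHq⟩ : ∃ Hq : PowerSeries ℤ,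
      Hq = E4int * Xq + PowerSeries.C c * (E6int * Yq) := ⟨_, rfl⟩
  have hHexp : qExpansion 1 H = toC Hq := by
    rw [hH, FunLike.coe_add, ModularForm.qExpansion_add one_pos one_mem_strictPeriods_SL,
      FunLike.coe_smul, ModularForm.qExpansion_smul one_pos one_mem_strictPeriods_SL,
      ModularForm.qExpansion_mcast, ModularForm.qExpansion_mcast,
      ModularForm.qExpansion_mul one_pos one_mem_strictPeriods_SL,
      ModularForm.qExpansion_mul one_pos one_mem_strictPeriods_SL, hg4, hg6, hX, hY, hHq,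
      map_add, map_mul, map_mul, map_mul]
    congr 1
    ext n
    rw [PowerSeries.coeff_smul, show toC (PowerSeries.C c) = PowerSeries.C (c : ℂ) from
      PowerSeries.map_C _ _, PowerSeries.coeff_C_mul]
    rfl
  -- congruences
  obtain ⟨R1, hR1⟩ : ∃ R1 : PowerSeries ℤ, Fq - PowerSeries.C c = PowerSeries.C m * R1 := by
    apply exists_eq_C_mul
    intro n
    rw [map_sub, PowerSeries.coeff_C]
    by_cases hn : n = 0
    · simpa [hn] using hF0
    · simpa [hn] using hFn n hn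
  obtain ⟨R2, hR2⟩ : ∃ R2 : PowerSeries ℤ, E4int - 1 = PowerSeries.C m * R2 := by
    apply exists_eq_C_mul
    intro n
    have h : E4int - 1 = PowerSeries.C (240 : ℤ) * sig3 := by rw [E4int_eq]; ring
    rw [h, PowerSeries.coeff_C_mul]
    exact Dvd.dvd.mul_right (hm.trans (by norm_num)) _
  obtain ⟨R3, hR3⟩ : ∃ R3 : PowerSeries ℤ, E6int - 1 = PowerSeries.C m * R3 := by
    apply exists_eq_C_mul
    intro n
    have h : E6int - 1 = PowerSeries.C (-504 : ℤ) * sig5 := by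
      rw [E6int_eq, map_neg]; ring
    rw [h, PowerSeries.coeff_C_mul]
    exact Dvd.dvd.mul_right (hm.trans (by norm_num)) _
  have hFq : Fq = PowerSeries.C c + PowerSeries.C m * R1 := by rw [← hR1]; ring
  have hE4 : E4int = 1 + PowerSeries.C m * R2 := by rw [← hR2]; ring
  have hE6 : E6int = 1 + PowerSeries.C m * R3 := by rw [← hR3]; ring
  have hUF : Uop p Fq = PowerSeries.C c + PowerSeries.C m * Uop p R1 := by
    rw [hFq, Uop_add, Uop_C hp0, Uop_C_mul]
  obtain ⟨V, hV⟩ : ∃ V : PowerSeries ℤ, V = Vop p deltaInt := ⟨_, rfl⟩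
  obtain ⟨UD, hUD⟩ : ∃ UD : PowerSeries ℤ, UD = Uop p deltaInt := ⟨_, rfl⟩
  obtain ⟨A, hA⟩ : ∃ A : PowerSeries ℤ, A = Uop p (Uop p R1 * deltaInt) := ⟨_, rfl⟩
  have hUU : Uop p (Uop p Fq * deltaInt) = PowerSeries.C c * UD + PowerSeries.C m * A := by
    rw [hUF, add_mul, Uop_add, mul_assoc, Uop_C_mul, Uop_C_mul, hUD, hA]
  have hkey : Hq = PowerSeries.C (c * (p : ℤ) ^ 11 * ((p : ℤ) + 1)) * V +
      PowerSeries.C m * (R2 * Xq + (p : PowerSeries ℤ) ^ 12 * R1 * V - A +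
        PowerSeries.C c * R3 * Yq) := by
    have hXq' : Xq = (p : PowerSeries ℤ) ^ 12 * (Fq * V) -
        (PowerSeries.C c * UD + PowerSeries.C m * A) := by rw [hXq, hUU, hV]
    have hYq' : Yq = UD + (p : PowerSeries ℤ) ^ 11 * V := by rw [hYq, hUD, hV]
    have hCp : PowerSeries.C (c * (p : ℤ) ^ 11 * ((p : ℤ) + 1)) =
        PowerSeries.C c * (p : PowerSeries ℤ) ^ 11 * ((p : PowerSeries ℤ) + 1) := by
      rw [map_mul, map_mul, map_pow, map_add, map_one]
      rfl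
    rw [hHq, hCp, hE4, hE6]
    conv_lhs => rw [hXq', hYq', hFq]
    conv_rhs => rw [hXq', hYq', hFq]
    ring
  -- low coefficients
  have hV0 : V.coeff 0 = 0 := by
    rw [hV, coeff_Vop]; simp [deltaInt_coeff_zero]
  have hV1 : V.coeff 1 = 0 := by
    rw [hV, coeff_Vop]
    have : ¬ p ∣ 1 := fun h => hp.one_lt.ne' (Nat.dvd_one.mp h)
    simp [this]
  have hVp : V.coeff p = 1 := by
    rw [hV, coeff_Vop]
    simp [Nat.div_self hp.pos, deltaInt_coeff_one]
  have hcoeff : ∀ n, Hq.coeff n = c * (p : ℤ) ^ 11 * ((p : ℤ) + 1) * V.coeff n +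
      m * (R2 * Xq + (p : PowerSeries ℤ) ^ 12 * R1 * V - A +
        PowerSeries.C c * R3 * Yq).coeff n := by
    intro n
    rw [hkey, map_add, PowerSeries.coeff_C_mul, PowerSeries.coeff_C_mul]
  have hlow : ∀ n : ℕ, (12 * n : ℤ) ≤ 18 → m ∣ Hq.coeff n := by
    intro n hn
    have hn' : n = 0 ∨ n = 1 := by omega
    rcases hn' with rfl | rfl
    · rw [hcoeff, hV0, mul_zero, zero_add]; exact dvd_mul_right _ _
    · rw [hcoeff, hV1, mul_zero, zero_add]; exact dvd_mul_right _ _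
  have hall := levelOne_sturm_mod_int H Hq hHexp m hlow p
  rw [hcoeff, hVp, mul_one] at hall
  exact (Int.dvd_add_left (dvd_mul_right _ _)).mp hall


/-- **The `V_p`/trace trick (B)**, in the form used by the case table: if moreover `c` and `p` are
prime to `m`, then `m ∣ p + 1`.  (Uses: `m = 3`, `p ≡ 1 (3)`; `m = 4`, `p ≡ 1 (4)`; `m = 8`,
`p ≡ 3 (8)` are all impossible.) -/
theorem vp_trick_dvd {p : ℕ} (hp : p.Prime) (Fq : PowerSeries ℤ) (c m : ℤ) (hm : m ∣ 24)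
    (hF0 : m ∣ Fq.coeff 0 - c) (hFn : ∀ n : ℕ, n ≠ 0 → m ∣ Fq.coeff n)
    (X : ModularForm 𝒮ℒ 14)
    (hX : qExpansion 1 X =
      toC ((p : PowerSeries ℤ) ^ 12 * (Fq * Vop p deltaInt) - Uop p (Uop p Fq * deltaInt)))
    (Y : ModularForm 𝒮ℒ 12)
    (hY : qExpansion 1 Y = toC (Uop p deltaInt + (p : PowerSeries ℤ) ^ 11 * Vop p deltaInt))
    (hc : IsCoprime m c) (hpm : IsCoprime m (p : ℤ)) :
    m ∣ (p : ℤ) + 1 := by
  have h := vp_trick hp Fq c m hm hF0 hFn X hX Y hY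
  have hcop : IsCoprime m (c * (p : ℤ) ^ 11) := hc.mul_right hpm.pow_right
  exact hcop.dvd_of_dvd_mul_left h

end

end Fermat.Agent.S16.VpTrick
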