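import Fermat.Agent.S16.TraceCusp
import Fermat.Agent.S16.VpTrick
import Fermat.Agent.S16.Asm958

/-!
# S16, case (B) of the upper bound, concretely (helper2141)

Plugs the trace / Fricke package `TraceCusp` (helper2141) into the formal core `VpTrick.vp_trick_dvd`
(helper8490) and delivers hypothesis `hB` of `Asm958.ub_of_ABC` (helper958):

`hypB : ∀ m, m ∣ 24 → m.Coprime p → ¬ m ∣ p + 1 → ¬ Asm958.HasUnitForm p m`.

Also of independent use: power series forms of the `q`-expansion rules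
(`qExp_heckeU`, `qExp_vFun`, `qExp_trForm`, `qExp_mul`) with the formal operators `UC`, `VC` on `ℂ⟦X⟧`,
the level one form `deltaMF`, and `heckeForm p G = Tr (V_p G)` (the Hecke operator `T_p` in level one).
-/

set_option autoImplicit false

open UpperHalfPlane ModularForm MatrixGroups Matrix Filter Topology CongruenceSubgroup
open scoped Manifold

namespace Fermat.Agent.S16.HypB2141

open Fermat.Agent.S16.TraceCusp Fermat.Agent.S16.LevelOne Fermat.Agent.S16.VpTrick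

noncomputable section

/-- The formal operator `U_p` on complex power series. -/
def UC (p : ℕ) (P : PowerSeries ℂ) : PowerSeries ℂ := PowerSeries.mk fun n => P.coeff (n * p)

/-- The formal operator `V_p` on complex power series. -/
def VC (p : ℕ) (P : PowerSeries ℂ) : PowerSeries ℂ :=
  PowerSeries.mk fun n => if p ∣ n then P.coeff (n / p) else 0

@[simp] lemma coeff_UC (p : ℕ) (P : PowerSeries ℂ) (n : ℕ) : (UC p P).coeff n = P.coeff (n * p) := by
  simp [UC]

@[simp] lemma coeff_VC (p : ℕ) (P : PowerSeries ℂ) (n : ℕ) :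
    (VC p P).coeff n = if p ∣ n then P.coeff (n / p) else 0 := by
  simp [VC]

lemma UC_toC (p : ℕ) (P : PowerSeries ℤ) : UC p (toC P) = toC (Uop p P) := by
  ext n
  simp [mul_comm]

lemma VC_toC (p : ℕ) (P : PowerSeries ℤ) : VC p (toC P) = toC (Vop p P) := by
  ext n
  simp only [coeff_VC, coeff_toC, coeff_Vop]
  split_ifs <;> simp

lemma UC_C_mul (p : ℕ) (c : ℂ) (P : PowerSeries ℂ) :
    UC p (PowerSeries.C c * P) = PowerSeries.C c * UC p P := by
  ext n
  simp [PowerSeries.coeff_C_mul]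

lemma UC_add (p : ℕ) (P Q : PowerSeries ℂ) : UC p (P + Q) = UC p P + UC p Q := by
  ext n
  simp

lemma smul_eq_C_mul' (c : ℂ) (P : PowerSeries ℂ) : c • P = PowerSeries.C c * P := by
  ext n
  simp [PowerSeries.coeff_C_mul]

lemma qExp_eq_of_qCoeff {F : ℍ → ℂ} {P : PowerSeries ℂ}
    (h : ∀ n, ModularFormClass.qCoeff F n = P.coeff n) : qExpansion 1 F = P :=
  PowerSeries.ext h

lemma qExp_heckeU {F : ℍ → ℂ} (hF : Nice F) (k : ℤ) {p : ℕ} (hp : p ≠ 0) :
    qExpansion 1 (ModularForm.heckeU k p F) = UC p (qExpansion 1 F) :=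
  qExp_eq_of_qCoeff fun n => by rw [hF.qCoeff_heckeU k hp, coeff_UC]; rfl

lemma qExp_vFun {G : ℍ → ℂ} (hG : Nice G) (k : ℤ) {p : ℕ} (hp : p ≠ 0) :
    qExpansion 1 (vFun k p G) = PowerSeries.C ((p : ℂ) ^ (k - 1)) * VC p (qExpansion 1 G) :=
  qExp_eq_of_qCoeff fun n => by
    rw [qCoeff_vFun hG k hp, PowerSeries.coeff_C_mul, coeff_VC]
    split_ifs <;> simp [ModularFormClass.qCoeff]

lemma qExp_mul {F G : ℍ → ℂ} (hF : Nice F) (hG : Nice G) :
    qExpansion 1 (F * G) = qExpansion 1 F * qExpansion 1 G :=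
  qExpansion_mul hF.analytic hG.analytic

lemma qExp_smul {F : ℍ → ℂ} (hF : Nice F) (c : ℂ) :
    qExpansion 1 (c • F) = PowerSeries.C c * qExpansion 1 F := by
  rw [qExpansion_smul hF.analytic, smul_eq_C_mul']

lemma qExp_neg {F : ℍ → ℂ} (hF : Nice F) : qExpansion 1 (-F) = - qExpansion 1 F :=
  qExpansion_neg hF.analytic

lemma qExp_trForm {k : ℤ} (p : ℕ) [Fact p.Prime] (F : ModularForm (Gamma0 p) k) :
    qExpansion 1 (trForm p F) =
      qExpansion 1 F + PowerSeries.C ((p : ℂ) ^ (2 - k)) * UC p (qExpansion 1 (wFun k p F)) :=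
  qExp_eq_of_qCoeff fun n => by
    rw [qCoeff_trForm, map_add, PowerSeries.coeff_C_mul, coeff_UC]
    rfl

/-- The discriminant as a modular form of level one. -/
def deltaMF : ModularForm 𝒮ℒ 12 := ModularFormClass.modularForm CuspForm.discriminant

lemma coe_deltaMF : (deltaMF : ℍ → ℂ) = ModularForm.discriminant := rfl

lemma nice_delta : Nice (ModularForm.discriminant : ℍ → ℂ) := nice_of_levelOne deltaMF

/-- The Hecke operator `T_p` on level one forms, realised as the trace of `V_p`. -/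
def heckeForm {k : ℤ} (p : ℕ) [Fact p.Prime] (G : ModularForm 𝒮ℒ k) : ModularForm 𝒮ℒ k :=
  have : NeZero p := ⟨(Fact.out : p.Prime).ne_zero⟩
  trForm p (vForm p G)

lemma qExp_heckeForm {k : ℤ} (p : ℕ) [Fact p.Prime] (G : ModularForm 𝒮ℒ k) :
    qExpansion 1 (heckeForm p G) =
      UC p (qExpansion 1 G) + PowerSeries.C ((p : ℂ) ^ (k - 1)) * VC p (qExpansion 1 G) := by
  have hp : p.Prime := Fact.out
  have : NeZero p := ⟨hp.ne_zero⟩
  have hp' : (p : ℂ) ≠ 0 := by exact_mod_cast hp.ne_zero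
  have hG := nice_of_levelOne G
  rw [heckeForm, qExp_trForm, coe_vForm, wFun_vFun p (inv1_of_levelOne G), qExp_smul hG,
    qExp_vFun hG k hp.ne_zero, UC_C_mul, ← mul_assoc, ← map_mul, ← zpow_add₀ hp']
  have : (2 - k + (k - 2) : ℤ) = 0 := by ring
  rw [this, zpow_zero, map_one, one_mul, add_comm]

lemma UC_neg (p : ℕ) (P : PowerSeries ℂ) : UC p (-P) = - UC p P := by
  ext n
  simp

/-- `q`-expansion of `p • Tr (F · V_p Δ)` for a weight two form `F` on `Γ₀(p)`. -/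
theorem exists_X (p : ℕ) [Fact p.Prime] (F : ModularForm (Gamma0 p) 2) (Fq : PowerSeries ℤ)
    (hF : qExpansion 1 F = toC Fq) :
    ∃ X : ModularForm 𝒮ℒ 14, qExpansion 1 X =
      toC ((p : PowerSeries ℤ) ^ 12 * (Fq * Vop p deltaInt) - Uop p (Uop p Fq * deltaInt)) := by
  have hp : p.Prime := Fact.out
  have : NeZero p := ⟨hp.ne_zero⟩
  have hp' : (p : ℂ) ≠ 0 := by exact_mod_cast hp.ne_zero
  let Φ : ModularForm (Gamma0 p) (2 + 12) := F.mul (vForm p deltaMF)
  refine ⟨ModularForm.mcast (by norm_num) ((p : ℂ) • trForm p Φ), ?_⟩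
  have hΦ : (Φ : ℍ → ℂ) = (F : ℍ → ℂ) * vFun 12 p ModularForm.discriminant := rfl
  have hNF := nice_of_form F
  have hND := nice_delta
  have hNV : Nice (vFun 12 p ModularForm.discriminant) := hND.vFun 12 p
  have hNU : Nice (ModularForm.heckeU 2 p (F : ℍ → ℂ)) := hNF.heckeU 2 p
  -- the Fricke transform of `Φ`
  have hW : wFun (2 + 12) p (Φ : ℍ → ℂ) =
      (p : ℂ) • ((-ModularForm.heckeU 2 p (F : ℍ → ℂ)) *
        (((p : ℂ) ^ ((12 : ℤ) - 2)) • ModularForm.discriminant)) := by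
    have hD : Inv1 12 (ModularForm.discriminant : ℍ → ℂ) := inv1_of_levelOne deltaMF
    rw [hΦ, wFun_mul, wFun_weight_two, wFun_vFun p hD]
  have hWexp : qExpansion 1 (wFun (2 + 12) p (Φ : ℍ → ℂ)) =
      PowerSeries.C (p : ℂ) * (-(UC p (toC Fq)) *
        (PowerSeries.C ((p : ℂ) ^ ((12 : ℤ) - 2)) * toC deltaInt)) := by
    rw [hW, qExp_smul (hNU.neg.mul (hND.smul _)), qExp_mul hNU.neg (hND.smul _), qExp_neg hNU,
      qExp_heckeU hNF 2 hp.ne_zero, qExp_smul hND, hF, qExpansion_discriminant]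
  have hΦexp : qExpansion 1 (Φ : ℍ → ℂ) =
      toC Fq * (PowerSeries.C ((p : ℂ) ^ ((12 : ℤ) - 1)) * toC (Vop p deltaInt)) := by
    rw [hΦ, qExp_mul hNF hNV, qExp_vFun hND 12 hp.ne_zero, hF, qExpansion_discriminant, VC_toC]
  have hX : qExpansion 1 ((p : ℂ) • (trForm p Φ : ℍ → ℂ)) =
      PowerSeries.C (p : ℂ) * (qExpansion 1 (Φ : ℍ → ℂ) +
        PowerSeries.C ((p : ℂ) ^ ((2 : ℤ) - (2 + 12))) *
          UC p (qExpansion 1 (wFun (2 + 12) p (Φ : ℍ → ℂ)))) := by
    rw [qExp_smul (nice_of_levelOne (trForm p Φ)), qExp_trForm]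
  have hcoe : (ModularForm.mcast (by norm_num : (2 : ℤ) + 12 = 14) ((p : ℂ) • trForm p Φ) :
      ModularForm 𝒮ℒ 14) = ((p : ℂ) • (trForm p Φ : ℍ → ℂ) : ℍ → ℂ) := rfl
  rw [hcoe, hX, hΦexp, hWexp]
  -- constants
  have e1 : PowerSeries.C (p : ℂ) * PowerSeries.C ((p : ℂ) ^ ((12 : ℤ) - 1)) =
      (p : PowerSeries ℂ) ^ 12 := by
    rw [← map_mul, ← map_natCast (PowerSeries.C (R := ℂ)), ← map_pow]
    congr 1
    rw [show ((12 : ℤ) - 1) = ((11 : ℕ) : ℤ) by norm_num, zpow_natCast]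
    ring
  have e2 : PowerSeries.C (p : ℂ) * PowerSeries.C ((p : ℂ) ^ ((2 : ℤ) - (2 + 12))) *
      (PowerSeries.C (p : ℂ) * PowerSeries.C ((p : ℂ) ^ ((12 : ℤ) - 2))) = 1 := by
    rw [← map_mul, ← map_mul, ← map_mul, ← map_one (PowerSeries.C (R := ℂ))]
    congr 1
    rw [show ((2 : ℤ) - (2 + 12)) = -((12 : ℕ) : ℤ) by norm_num,
      show ((12 : ℤ) - 2) = ((10 : ℕ) : ℤ) by norm_num, _root_.zpow_neg, zpow_natCast, zpow_natCast]
    field_simp
  have e3 : PowerSeries.C (p : ℂ) * (-(UC p (toC Fq)) *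
        (PowerSeries.C ((p : ℂ) ^ ((12 : ℤ) - 2)) * toC deltaInt)) =
      PowerSeries.C (-((p : ℂ) * (p : ℂ) ^ ((12 : ℤ) - 2))) * (UC p (toC Fq) * toC deltaInt) := by
    rw [map_neg, map_mul]
    ring
  have hC : PowerSeries.C (p : ℂ) = (p : PowerSeries ℂ) := map_natCast _ p
  have htoC : toC (p : PowerSeries ℤ) = (p : PowerSeries ℂ) := map_natCast _ p
  rw [e3, UC_C_mul, map_sub, map_mul, map_mul, map_pow, ← UC_toC, map_mul, ← UC_toC,
    map_neg, map_mul]
  simp only [hC, htoC] at e1 e2 ⊢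
  linear_combination (toC Fq * toC (Vop p deltaInt)) * e1 -
    (UC p (UC p (toC Fq) * toC deltaInt)) * e2

/-- `T_p Δ` as a level one form with its `q`-expansion. -/
theorem exists_Y (p : ℕ) [Fact p.Prime] :
    ∃ Y : ModularForm 𝒮ℒ 12, qExpansion 1 Y =
      toC (Uop p deltaInt + (p : PowerSeries ℤ) ^ 11 * Vop p deltaInt) := by
  refine ⟨heckeForm p deltaMF, ?_⟩
  have htoC : toC (p : PowerSeries ℤ) = (p : PowerSeries ℂ) := map_natCast _ p
  have e : PowerSeries.C ((p : ℂ) ^ ((12 : ℤ) - 1)) = (p : PowerSeries ℂ) ^ 11 := by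
    rw [← map_natCast (PowerSeries.C (R := ℂ)), ← map_pow]
    congr 1
  rw [qExp_heckeForm, coe_deltaMF, qExpansion_discriminant, UC_toC, VC_toC, map_add, map_mul,
    map_pow, htoC, e]

/-- **Case (B) of the NUB table**, in the shape of `Asm958.ub_of_ABC`. -/
theorem hypB (p : ℕ) [Fact p.Prime] (m : ℕ) (hm : m ∣ 24) (hmp : Nat.Coprime m p)
    (hnd : ¬ m ∣ p + 1) : ¬ Asm958.HasUnitForm p m := by
  rintro ⟨F, a, ha, hcop, hdiv⟩
  have hp : p.Prime := Fact.out
  have hF : qExpansion 1 F = toC (PowerSeries.mk a) := by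
    ext n
    rw [ha, coeff_toC, PowerSeries.coeff_mk]
  obtain ⟨X, hX⟩ := exists_X p F (PowerSeries.mk a) hF
  obtain ⟨Y, hY⟩ := exists_Y p
  have h := vp_trick_dvd hp (PowerSeries.mk a) (a 0) (m : ℤ) (by exact_mod_cast hm)
    (by simp) (fun n hn => by simpa using hdiv n hn) X hX Y hY hcop.symm
    (by exact_mod_cast (Nat.isCoprime_iff_coprime.mpr hmp))
  exact hnd (by exact_mod_cast h)

end

end Fermat.Agent.S16.HypB2141
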