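import Mathlib

/-!
# S16, package P2: level-one toolkit (helper5423)

Everything is stated for `qExpansion 1` of forms on `𝒮ℒ = SL(2, ℤ)`, with integer power series.

* `sig3`, `sig5`, `E4int`, `E6int`, `deltaInt : PowerSeries ℤ` and
  `qExpansion_E4`, `qExpansion_E6`, `qExpansion_discriminant`: the `q`-expansions of `E₄`, `E₆`,
  `Δ` are the images of `E4int = 1 + 240 * sig3`, `E6int = 1 - 504 * sig5`, `deltaInt`.
* `E4int_pow_three_sub` : `E4int ^ 3 - E6int ^ 2 = 1728 * deltaInt`.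
* `deltaInt_coeff_zero`, `deltaInt_coeff_one`.
* `levelOne_sturm_mod_int` / `levelOne_sturm_mod`: **level-one Sturm bound modulo any integer**:
  a level-one form of weight `k` with integral `q`-expansion whose coefficients `a_n`, `12 n ≤ k`,
  are divisible by `m` has all its coefficients divisible by `m`.
-/

set_option autoImplicit false

open UpperHalfPlane ModularForm EisensteinSeries
open scoped MatrixGroups ModularForm Manifold

namespace Fermat.Agent.S16.LevelOne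

noncomputable section

/-- The coefficient map `ℤ⟦X⟧ → ℂ⟦X⟧`. -/
abbrev toC : PowerSeries ℤ →+* PowerSeries ℂ := PowerSeries.map (Int.castRingHom ℂ)

theorem toC_injective : Function.Injective toC := by
  intro P Q h
  ext n
  have := congrArg (PowerSeries.coeff n) h
  simpa using this

theorem coeff_toC (P : PowerSeries ℤ) (n : ℕ) : (toC P).coeff n = ((P.coeff n : ℤ) : ℂ) := by
  simp [toC]

/-- `∑_{n ≥ 1} σ₃(n) qⁿ`. -/
def sig3 : PowerSeries ℤ :=
  PowerSeries.mk fun n => if n = 0 then 0 else (ArithmeticFunction.sigma 3 n : ℤ)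

/-- `∑_{n ≥ 1} σ₅(n) qⁿ`. -/
def sig5 : PowerSeries ℤ :=
  PowerSeries.mk fun n => if n = 0 then 0 else (ArithmeticFunction.sigma 5 n : ℤ)

/-- `E₄ = 1 + 240 ∑ σ₃(n) qⁿ`. -/
def E4int : PowerSeries ℤ := 1 + 240 * sig3

/-- `E₆ = 1 - 504 ∑ σ₅(n) qⁿ`. -/
def E6int : PowerSeries ℤ := 1 - 504 * sig5

theorem coeff_sig3 (n : ℕ) :
    sig3.coeff n = if n = 0 then 0 else (ArithmeticFunction.sigma 3 n : ℤ) := by
  simp [sig3]

theorem coeff_sig5 (n : ℕ) :
    sig5.coeff n = if n = 0 then 0 else (ArithmeticFunction.sigma 5 n : ℤ) := by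
  simp [sig5]

theorem coeff_ofNat_mul (c : ℤ) (P : PowerSeries ℤ) (n : ℕ) :
    ((PowerSeries.C c) * P).coeff n = c * P.coeff n :=
  PowerSeries.coeff_C_mul n P c

theorem E4int_eq : E4int = 1 + PowerSeries.C (240 : ℤ) * sig3 := by
  simp [E4int]

theorem E6int_eq : E6int = 1 - PowerSeries.C (504 : ℤ) * sig5 := by
  simp [E6int]

theorem coeff_E4int (n : ℕ) :
    E4int.coeff n = if n = 0 then 1 else 240 * (ArithmeticFunction.sigma 3 n : ℤ) := by
  rw [E4int_eq, map_add, coeff_ofNat_mul, coeff_sig3, PowerSeries.coeff_one]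
  split_ifs <;> simp

theorem coeff_E6int (n : ℕ) :
    E6int.coeff n = if n = 0 then 1 else -504 * (ArithmeticFunction.sigma 5 n : ℤ) := by
  rw [E6int_eq, map_sub, coeff_ofNat_mul, coeff_sig5, PowerSeries.coeff_one]
  split_ifs <;> simp

theorem qExpansion_E4 : qExpansion 1 E₄ = toC E4int := by
  ext n
  rw [coeff_toC, coeff_E4int, E_qExpansion_coeff _ ⟨2, rfl⟩,
    show bernoulli 4 = -1 / 30 by decide +kernel]
  split_ifs with h
  · simp
  · push_cast; ring

theorem qExpansion_E6 : qExpansion 1 E₆ = toC E6int := by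
  ext n
  rw [coeff_toC, coeff_E6int, E_qExpansion_coeff _ ⟨3, rfl⟩,
    show bernoulli 6 = 1 / 42 by decide +kernel]
  split_ifs with h
  · simp
  · push_cast; ring

/-! ### Monomials `E₄ ^ a * E₆ ^ b` -/

theorem exists_monomialForm (a b : ℕ) (k : ℤ) (h : (4 * a + 6 * b : ℤ) = k) :
    ∃ g : ModularForm 𝒮ℒ k, (⇑g : ℍ → ℂ) = (⇑E₄) ^ a * (⇑E₆) ^ b ∧
      qExpansion 1 g = toC (E4int ^ a * E6int ^ b) := by
  refine ⟨ModularForm.mcast (by rw [← h]; ring) ((E₄.pow a).mul (E₆.pow b)), ?_, ?_⟩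
  · ext z; simp [ModularForm.mcast_apply]
  · rw [ModularForm.qExpansion_mcast, ModularForm.qExpansion_mul one_pos one_mem_strictPeriods_SL,
      ModularForm.qExpansion_pow one_pos one_mem_strictPeriods_SL,
      ModularForm.qExpansion_pow one_pos one_mem_strictPeriods_SL, qExpansion_E4, qExpansion_E6,
      map_mul, map_pow, map_pow]

/-! ### The discriminant -/

theorem twelve_dvd_pow (d : ℤ) : (12 : ℤ) ∣ 5 * d ^ 3 + 7 * d ^ 5 := by
  have h : ∀ x : ZMod 12, 5 * x ^ 3 + 7 * x ^ 5 = 0 := by decide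
  have h2 := h (d : ZMod 12)
  have h3 : ((5 * d ^ 3 + 7 * d ^ 5 : ℤ) : ZMod 12) = 0 := by
    push_cast
    exact h2
  exact (ZMod.intCast_zmod_eq_zero_iff_dvd _ 12).mp h3

theorem twelve_dvd_sigma (n : ℕ) :
    (12 : ℤ) ∣ 5 * (ArithmeticFunction.sigma 3 n : ℤ) + 7 * (ArithmeticFunction.sigma 5 n : ℤ) := by
  rw [ArithmeticFunction.sigma_apply, ArithmeticFunction.sigma_apply]
  push_cast
  rw [Finset.mul_sum, Finset.mul_sum, ← Finset.sum_add_distrib]
  exact Finset.dvd_sum fun d _ => twelve_dvd_pow d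

/-- `∑_{n ≥ 1} (5 σ₃(n) + 7 σ₅(n)) / 12 qⁿ`. -/
def sig35 : PowerSeries ℤ :=
  PowerSeries.mk fun n => if n = 0 then 0 else
    (5 * (ArithmeticFunction.sigma 3 n : ℤ) + 7 * (ArithmeticFunction.sigma 5 n : ℤ)) / 12

theorem twelve_mul_sig35 : (12 : PowerSeries ℤ) * sig35 = 5 * sig3 + 7 * sig5 := by
  have e12 : (12 : PowerSeries ℤ) = PowerSeries.C (12 : ℤ) := by simp
  have e5 : (5 : PowerSeries ℤ) = PowerSeries.C (5 : ℤ) := by simp
  have e7 : (7 : PowerSeries ℤ) = PowerSeries.C (7 : ℤ) := by simp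
  ext n
  rw [e12, e5, e7, map_add, PowerSeries.coeff_C_mul, PowerSeries.coeff_C_mul,
    PowerSeries.coeff_C_mul, coeff_sig3, coeff_sig5, sig35, PowerSeries.coeff_mk]
  split_ifs with h
  · simp
  · exact Int.mul_ediv_cancel' (twelve_dvd_sigma n)

/-- The `q`-expansion of `Δ` as an integer power series. -/
def deltaInt : PowerSeries ℤ := sig35 + 100 * sig3 ^ 2 + 8000 * sig3 ^ 3 - 147 * sig5 ^ 2

theorem E4int_pow_three_sub : E4int ^ 3 - E6int ^ 2 = 1728 * deltaInt := by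
  unfold E4int E6int deltaInt
  linear_combination (-144 : PowerSeries ℤ) * twelve_mul_sig35

theorem qExpansion_discriminant : qExpansion 1 ModularForm.discriminant = toC deltaInt := by
  obtain ⟨m1, hm1, hq1⟩ := exists_monomialForm 3 0 12 (by norm_num)
  obtain ⟨m2, hm2, hq2⟩ := exists_monomialForm 0 2 12 (by norm_num)
  have hfun : ((1728 : ℂ) • (⇑CuspForm.discriminant : ℍ → ℂ)) = ⇑m1 - ⇑m2 := by
    ext z
    simp only [hm1, hm2, Pi.smul_apply, Pi.sub_apply, Pi.pow_apply, pow_zero,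
      mul_one, one_mul, smul_eq_mul, CuspForm.coe_discriminant]
    rw [discriminant_eq_E₄_cube_sub_E₆_sq]
    ring
  have h1 := ModularForm.qExpansion_smul one_pos one_mem_strictPeriods_SL (1728 : ℂ)
    CuspForm.discriminant
  have h2 := ModularForm.qExpansion_sub one_pos one_mem_strictPeriods_SL m1 m2
  rw [hfun] at h1
  rw [h1, hq1, hq2, ← map_sub] at h2
  have h3 : E4int ^ 3 * E6int ^ 0 - E4int ^ 0 * E6int ^ 2 = 1728 * deltaInt := by
    rw [← E4int_pow_three_sub]; ring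
  rw [h3] at h2
  ext n
  have h4 := congrArg (PowerSeries.coeff n) h2
  rw [coeff_toC] at h4 ⊢
  have e : (1728 : PowerSeries ℤ) = PowerSeries.C (1728 : ℤ) := by simp
  rw [e, PowerSeries.coeff_C_mul] at h4
  simp only [PowerSeries.coeff_smul, smul_eq_mul, CuspForm.coe_discriminant] at h4
  push_cast at h4
  exact mul_left_cancel₀ (by norm_num : (1728 : ℂ) ≠ 0) h4

theorem deltaInt_coeff_one : deltaInt.coeff 1 = 1 := by
  have h := discriminant_qExpansion_coeff_one
  rw [qExpansion_discriminant, coeff_toC] at h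
  exact_mod_cast h

theorem deltaInt_coeff_zero : deltaInt.coeff 0 = 0 := by
  have h := CuspFormClass.qExpansion_coeff_zero CuspForm.discriminant one_pos
    one_mem_strictPeriods_SL
  rw [CuspForm.coe_discriminant, qExpansion_discriminant, coeff_toC] at h
  exact_mod_cast h

/-! ### Level-one Sturm bound modulo an integer -/

theorem dvd_coeff_mul_of_lt {m : ℤ} {A : PowerSeries ℤ} (B : PowerSeries ℤ) {N : ℕ}
    (hA : ∀ j < N, m ∣ A.coeff j) : ∀ j < N, m ∣ (A * B).coeff j := by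
  intro j hj
  rw [PowerSeries.coeff_mul]
  refine Finset.dvd_sum fun x hx => ?_
  have hx1 : x.1 ≤ j := by
    have := Finset.HasAntidiagonal.mem_antidiagonal.mp hx
    omega
  exact Dvd.dvd.mul_right (hA x.1 (lt_of_le_of_lt hx1 hj)) _

theorem dvd_coeff_mul {m : ℤ} {A : PowerSeries ℤ} (B : PowerSeries ℤ)
    (hA : ∀ j, m ∣ A.coeff j) : ∀ j, m ∣ (A * B).coeff j := fun j =>
  dvd_coeff_mul_of_lt B (N := j + 1) (fun i _ => hA i) j (Nat.lt_succ_self j)

/-- `Δ = q * unit` in `ℤ⟦q⟧`. -/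
theorem exists_deltaInt_unit :
    ∃ U : (PowerSeries ℤ)ˣ, deltaInt = PowerSeries.X * (U : PowerSeries ℤ) := by
  have h0 : PowerSeries.constantCoeff deltaInt = 0 := by
    rw [← PowerSeries.coeff_zero_eq_constantCoeff_apply]; exact deltaInt_coeff_zero
  obtain ⟨V, hV⟩ := PowerSeries.X_dvd_iff.mpr h0
  have h1 : PowerSeries.constantCoeff V = 1 := by
    have h := deltaInt_coeff_one
    rw [hV, show (1 : ℕ) = 0 + 1 from rfl, PowerSeries.coeff_succ_X_mul] at h
    simpa using h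
  have hu : IsUnit V := PowerSeries.isUnit_iff_constantCoeff.mpr (by rw [h1]; exact isUnit_one)
  exact ⟨hu.unit, by rw [hV, IsUnit.unit_spec]⟩

theorem toC_deltaInt_ne_zero : toC deltaInt ≠ 0 := by
  intro h
  have h1 := congrArg (PowerSeries.coeff 1) h
  rw [coeff_toC, deltaInt_coeff_one] at h1
  simp at h1

theorem eq_zero_of_qExpansion_zero_form {k : ℤ} (H : ModularForm 𝒮ℒ k) (h0 : H = 0)
    (P : PowerSeries ℤ) (hP : qExpansion 1 H = toC P) : P = 0 := by
  have h1 : toC P = 0 := by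
    rw [← hP, h0]
    exact qExpansion_zero 1
  exact toC_injective (by rw [h1, map_zero])

theorem levelOne_neg_int {k : ℤ} (hk : k < 0) (H : ModularForm 𝒮ℒ k) (P : PowerSeries ℤ)
    (hP : qExpansion 1 H = toC P) : P = 0 :=
  eq_zero_of_qExpansion_zero_form H
    (by ext z; simpa using congrFun (ModularFormClass.levelOne_neg_weight_eq_zero hk H) z) P hP

/-- **Level-one Sturm bound modulo `m`** (integer power series version). -/
theorem levelOne_sturm_mod_int {k : ℤ} (H : ModularForm 𝒮ℒ k) (P : PowerSeries ℤ)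
    (hP : qExpansion 1 H = toC P) (m : ℤ)
    (hlow : ∀ n : ℕ, (12 * n : ℤ) ≤ k → m ∣ P.coeff n) : ∀ n : ℕ, m ∣ P.coeff n := by
  induction' hn : k.toNat using Nat.strong_induction_on with N ih generalizing k H P
  have hzero : H = 0 → ∀ n, m ∣ P.coeff n := by
    intro h0 n
    rw [eq_zero_of_qExpansion_zero_form H h0 P hP]
    simp
  rcases lt_or_ge k 0 with hk | hk
  · intro n
    rw [levelOne_neg_int hk H P hP]
    simp
  rcases Int.even_or_odd k with hev | hodd
  swap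
  · exact hzero (ModularForm.levelOne_odd_weight_eq_zero hodd H)
  by_cases h2 : k = 2
  · subst h2
    exact hzero (rank_zero_iff_forall_zero.mp ModularForm.levelOne_weight_two_rank_zero H)
  obtain ⟨a, b, hab⟩ : ∃ a b : ℕ, (4 * a + 6 * b : ℤ) = k := by
    obtain ⟨r, hr⟩ := hev
    rcases Int.even_or_odd r with ⟨s, hs⟩ | ⟨s, hs⟩
    · exact ⟨s.toNat, 0, by omega⟩
    · exact ⟨(s - 1).toNat, 1, by omega⟩
  obtain ⟨M, hM, hMq⟩ := exists_monomialForm a b k hab
  obtain ⟨Mi, hMi⟩ : ∃ Mi : PowerSeries ℤ, Mi = E4int ^ a * E6int ^ b := ⟨_, rfl⟩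
  rw [← hMi] at hMq
  have hMi0 : Mi.coeff 0 = 1 := by
    have e4 : PowerSeries.constantCoeff E4int = 1 := by
      rw [← PowerSeries.coeff_zero_eq_constantCoeff_apply, coeff_E4int]; simp
    have e6 : PowerSeries.constantCoeff E6int = 1 := by
      rw [← PowerSeries.coeff_zero_eq_constantCoeff_apply, coeff_E6int]; simp
    rw [hMi, PowerSeries.coeff_zero_eq_constantCoeff_apply, map_mul, map_pow, map_pow, e4, e6]
    simp
  obtain ⟨a0, ha0⟩ : ∃ a0 : ℤ, a0 = P.coeff 0 := ⟨_, rfl⟩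
  have hm0 : m ∣ a0 := by
    rw [ha0]
    exact hlow 0 (by simpa using hk)
  obtain ⟨Q, hQ⟩ : ∃ Q : PowerSeries ℤ, Q = P - PowerSeries.C a0 * Mi := ⟨_, rfl⟩
  have hQ0 : PowerSeries.constantCoeff Q = 0 := by
    rw [← PowerSeries.coeff_zero_eq_constantCoeff_apply, hQ, map_sub, PowerSeries.coeff_C_mul,
      hMi0, ha0]
    ring
  obtain ⟨H1, hH1⟩ : ∃ H1 : ModularForm 𝒮ℒ k, H1 = H - (a0 : ℂ) • M := ⟨_, rfl⟩
  have hH1q : qExpansion 1 H1 = toC Q := by
    rw [hH1, FunLike.coe_sub, ModularForm.qExpansion_sub one_pos one_mem_strictPeriods_SL,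
      FunLike.coe_smul, ModularForm.qExpansion_smul one_pos one_mem_strictPeriods_SL, hP, hMq,
      hQ, map_sub, map_mul]
    congr 1
    ext n
    rw [PowerSeries.coeff_smul, show toC (PowerSeries.C a0) = PowerSeries.C (a0 : ℂ) from
      PowerSeries.map_C _ _, PowerSeries.coeff_C_mul]
    rfl
  have hc0 : (qExpansion 1 H1).coeff 0 = 0 := by
    rw [hH1q, coeff_toC, PowerSeries.coeff_zero_eq_constantCoeff_apply, hQ0]
    simp
  have hfac := ModularForm.qExpansion_eq_qExpansion_discriminant_mul H1 hc0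
  obtain ⟨H', hH'⟩ : ∃ H' : ModularForm 𝒮ℒ (k - 12),
      H' = CuspForm.discriminantEquiv (ModularForm.toCuspForm H1 hc0) := ⟨_, rfl⟩
  rw [← hH'] at hfac
  obtain ⟨U, hU⟩ := exists_deltaInt_unit
  obtain ⟨Q1, hQ1⟩ := PowerSeries.X_dvd_iff.mpr hQ0
  obtain ⟨P', hP'⟩ : ∃ P' : PowerSeries ℤ, P' = ↑U⁻¹ * Q1 := ⟨_, rfl⟩
  have hmul : deltaInt * P' = Q := by
    rw [hU, hP', hQ1]
    calc PowerSeries.X * ↑U * (↑U⁻¹ * Q1) = PowerSeries.X * ((↑U * ↑U⁻¹) * Q1) := by ring
      _ = PowerSeries.X * Q1 := by rw [Units.mul_inv, one_mul]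
  have hP'q : qExpansion 1 H' = toC P' := by
    have h1 : toC deltaInt * qExpansion 1 H' = toC deltaInt * toC P' := by
      rw [← map_mul, hmul, ← hH1q, hfac, qExpansion_discriminant]
    exact mul_left_cancel₀ toC_deltaInt_ne_zero h1
  have hQlow : ∀ n : ℕ, (12 * n : ℤ) ≤ k → m ∣ Q.coeff n := by
    intro n hn
    rw [hQ, map_sub, PowerSeries.coeff_C_mul]
    exact dvd_sub (hlow n hn) (Dvd.dvd.mul_right hm0 _)
  have hQ1low : ∀ j < (k / 12).toNat, m ∣ Q1.coeff j := by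
    intro j hj
    have h := hQlow (j + 1) (by push_cast; omega)
    rwa [hQ1, PowerSeries.coeff_succ_X_mul] at h
  have hP'low : ∀ n : ℕ, (12 * n : ℤ) ≤ k - 12 → m ∣ P'.coeff n := by
    intro n hn
    rw [hP', mul_comm]
    exact dvd_coeff_mul_of_lt _ hQ1low n (by omega)
  have hP'all : ∀ n, m ∣ P'.coeff n := by
    rcases lt_or_ge (k - 12) 0 with hk12 | hk12
    · intro n
      rw [levelOne_neg_int hk12 H' P' hP'q]
      simp
    · exact ih (k - 12).toNat (by omega) H' P' hP'q hP'low rfl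
  intro n
  have hdec : P = deltaInt * P' + PowerSeries.C a0 * Mi := by rw [hmul, hQ]; ring
  rw [hdec, map_add, PowerSeries.coeff_C_mul]
  refine dvd_add ?_ (Dvd.dvd.mul_right hm0 _)
  rw [mul_comm]
  exact dvd_coeff_mul _ hP'all n

/-- **Level-one Sturm bound modulo `m`** (complex coefficient version): if a level-one form of
weight `k` has an integral `q`-expansion whose coefficients `a_n`, `12 n ≤ k`, are divisible by
`m`, then all its coefficients are divisible by `m`. -/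
theorem levelOne_sturm_mod {k : ℤ} (H : ModularForm 𝒮ℒ k) (m : ℤ)
    (hint : ∀ n : ℕ, ∃ c : ℤ, (qExpansion 1 H).coeff n = (c : ℂ))
    (hlow : ∀ n : ℕ, (12 * n : ℤ) ≤ k → ∃ c : ℤ, (qExpansion 1 H).coeff n = (m : ℂ) * (c : ℂ)) :
    ∀ n : ℕ, ∃ c : ℤ, (qExpansion 1 H).coeff n = (m : ℂ) * (c : ℂ) := by
  choose c hc using hint
  have hP : qExpansion 1 H = toC (PowerSeries.mk c) := by
    ext n
    rw [coeff_toC, PowerSeries.coeff_mk, hc n]
  have key := levelOne_sturm_mod_int H (PowerSeries.mk c) hP m (by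
    intro n hn
    obtain ⟨d, hd⟩ := hlow n hn
    rw [PowerSeries.coeff_mk]
    refine ⟨d, ?_⟩
    have h := (hc n).symm.trans hd
    exact_mod_cast h)
  intro n
  obtain ⟨d, hd⟩ := key n
  rw [PowerSeries.coeff_mk] at hd
  exact ⟨d, by rw [hc n, hd]; push_cast; ring⟩

end

end Fermat.Agent.S16.LevelOne
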