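import Mathlib
import Fermat.Prelude.Def_ModularForm_HeckeOperator
import Fermat.Prelude.Def_FLTPrelim_Modularity
import Fermat.Prelude.Thm_UpperHalfPlane_qCoeff_heckeU
import Fermat.Prelude.Thm_UpperHalfPlane_qCoeff_heckeT
import Fermat.Prelude.Thm_UpperHalfPlane_eq_of_forall_qCoeff_eq
import Fermat.Prelude.Thm_CongruenceSubgroup_one_mem_strictPeriods_Gamma0
import Fermat.Prelude.Thm_ModularForm_periodic_heckeU_comp_ofComplex
import Fermat.Prelude.Thm_ModularForm_mdifferentiable_heckeU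
import Fermat.Prelude.Thm_ModularForm_isBoundedAtImInfty_heckeU
import Fermat.Prelude.Thm_ModularForm_periodic_heckeT_comp_ofComplex
import Fermat.Prelude.Thm_ModularForm_mdifferentiable_heckeT
import Fermat.Prelude.Thm_ModularForm_isBoundedAtImInfty_heckeT

/-!
# S16 package P3 (helper5021): Fricke operator `W_p` and the trace `Γ₀(p) → SL₂(ℤ)`

All declarations live in the namespace `Fermat.Agent.S16.Trace5021`; only Mathlib and the Prelude
are used.
-/

set_option autoImplicit false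

namespace Fermat.Agent.S16.Trace5021

open UpperHalfPlane ModularForm Filter Matrix.SpecialLinearGroup
open scoped MatrixGroups ModularForm Manifold Topology

noncomputable section

local notation "Γ₀(" N ")" => (CongruenceSubgroup.Gamma0 N : Subgroup (GL (Fin 2) ℝ))

/-- The Fricke matrix `W_p = [[0, -1], [p, 0]]` (the identity when `p = 0`). -/
def fricke (p : ℕ) : GL (Fin 2) ℝ :=
  if hp : p = 0 then 1 else
    Matrix.GeneralLinearGroup.mkOfDetNeZero !![0, -1; (p : ℝ), 0]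
      (by rw [Matrix.det_fin_two_of]; simpa using hp)

theorem val_fricke {p : ℕ} (hp : p ≠ 0) :
    ((fricke p : GL (Fin 2) ℝ) : Matrix (Fin 2) (Fin 2) ℝ) = !![0, -1; (p : ℝ), 0] := by
  simp [fricke, hp]

theorem det_fricke {p : ℕ} (hp : p ≠ 0) : ((fricke p).det : ℝ) = p := by
  rw [Matrix.GeneralLinearGroup.val_det_apply, val_fricke hp, Matrix.det_fin_two_of]
  ring

theorem det_fricke_pos {p : ℕ} (hp : p ≠ 0) : 0 < ((fricke p).det : ℝ) := by
  rw [det_fricke hp]; exact_mod_cast Nat.pos_of_ne_zero hp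

theorem σ_fricke {p : ℕ} (hp : p ≠ 0) : UpperHalfPlane.σ (fricke p) = .refl ℝ ℂ := by
  rw [UpperHalfPlane.σ, if_pos (det_fricke_pos hp)]

theorem denom_fricke {p : ℕ} (hp : p ≠ 0) (τ : ℍ) :
    UpperHalfPlane.denom (fricke p) τ = (p : ℂ) * τ := by
  simp [UpperHalfPlane.denom, val_fricke hp]

theorem coe_fricke_smul {p : ℕ} (hp : p ≠ 0) (τ : ℍ) :
    ((fricke p • τ : ℍ) : ℂ) = -1 / ((p : ℂ) * τ) := by
  rw [UpperHalfPlane.coe_smul_of_det_pos (det_fricke_pos hp)]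
  simp [UpperHalfPlane.num, UpperHalfPlane.denom, val_fricke hp]

theorem slash_fricke_apply (k : ℤ) {p : ℕ} (hp : p ≠ 0) (f : ℍ → ℂ) (τ : ℍ) :
    (f ∣[k] fricke p) τ = (p : ℂ) ^ (k - 1) * ((p : ℂ) * τ) ^ (-k) * f (fricke p • τ) := by
  rw [ModularForm.slash_apply, σ_fricke hp, det_fricke hp, denom_fricke hp]
  simp only [ContinuousAlgEquiv.refl_apply, Nat.abs_cast, Complex.ofReal_natCast]
  ring

/-- Conjugating `Γ₀(p)` by the Fricke matrix. -/
def frickeConj (p : ℕ) (g : SL(2, ℤ)) (c' : ℤ) (hc : g 1 0 = p * c') : SL(2, ℤ) :=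
  ⟨!![g 1 1, -c'; -(p : ℤ) * g 0 1, g 0 0], by
    have h := g.det_coe
    rw [Matrix.det_fin_two] at h
    rw [Matrix.det_fin_two_of]
    rw [hc] at h
    linarith⟩

theorem mapGL_apply (g : SL(2, ℤ)) (i j : Fin 2) :
    ((mapGL ℝ g : GL (Fin 2) ℝ) : Matrix (Fin 2) (Fin 2) ℝ) i j = ((g i j : ℤ) : ℝ) := rfl

theorem frickeConj_apply_00 (p : ℕ) (g : SL(2, ℤ)) (c' : ℤ) (hc : g 1 0 = p * c') :
    frickeConj p g c' hc 0 0 = g 1 1 := rfl
theorem frickeConj_apply_01 (p : ℕ) (g : SL(2, ℤ)) (c' : ℤ) (hc : g 1 0 = p * c') :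
    frickeConj p g c' hc 0 1 = -c' := rfl
theorem frickeConj_apply_10 (p : ℕ) (g : SL(2, ℤ)) (c' : ℤ) (hc : g 1 0 = p * c') :
    frickeConj p g c' hc 1 0 = -(p : ℤ) * g 0 1 := rfl
theorem frickeConj_apply_11 (p : ℕ) (g : SL(2, ℤ)) (c' : ℤ) (hc : g 1 0 = p * c') :
    frickeConj p g c' hc 1 1 = g 0 0 := rfl

theorem frickeConj_mem (p : ℕ) (g : SL(2, ℤ)) (c' : ℤ) (hc : g 1 0 = p * c') :
    frickeConj p g c' hc ∈ CongruenceSubgroup.Gamma0 p := by
  rw [CongruenceSubgroup.Gamma0_mem, frickeConj_apply_10]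
  simp

theorem fricke_mul_mapGL {p : ℕ} (hp : p ≠ 0) (g : SL(2, ℤ)) (c' : ℤ) (hc : g 1 0 = p * c') :
    fricke p * mapGL ℝ g = mapGL ℝ (frickeConj p g c' hc) * fricke p := by
  apply Matrix.GeneralLinearGroup.ext
  intro i j
  have hc' : ((g 1 0 : ℤ) : ℝ) = (p : ℝ) * (c' : ℝ) := by
    exact_mod_cast congrArg (Int.cast : ℤ → ℝ) hc
  simp only [Matrix.GeneralLinearGroup.coe_mul, val_fricke hp]
  fin_cases i <;> fin_cases j <;>
    simp [Matrix.mul_apply, Fin.sum_univ_two, frickeConj_apply_00,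
      frickeConj_apply_01, frickeConj_apply_10, frickeConj_apply_11, hc', mul_comm]

/-- `Γ₀(p)` is stable under conjugation by the Fricke matrix. -/
theorem fricke_conj_mem {p : ℕ} (hp : p ≠ 0) {γ : GL (Fin 2) ℝ} (hγ : γ ∈ Γ₀(p)) :
    fricke p * γ * (fricke p)⁻¹ ∈ Γ₀(p) := by
  obtain ⟨g, hg, rfl⟩ := Subgroup.mem_map.mp hγ
  rw [CongruenceSubgroup.Gamma0_mem] at hg
  obtain ⟨c', hc⟩ : ∃ c', g 1 0 = p * c' := by
    rw [ZMod.intCast_zmod_eq_zero_iff_dvd] at hg
    exact hg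
  rw [fricke_mul_mapGL hp g c' hc, mul_inv_cancel_right]
  exact Subgroup.mem_map.mpr ⟨_, frickeConj_mem p g c' hc, rfl⟩

open ConjAct Pointwise in
theorem conj_fricke_le {p : ℕ} (hp : p ≠ 0) : toConjAct (fricke p) • Γ₀(p) ≤ Γ₀(p) := by
  intro x hx
  rw [Subgroup.mem_pointwise_smul_iff_inv_smul_mem, ← ConjAct.toConjAct_inv,
    ConjAct.toConjAct_smul, inv_inv] at hx
  have := fricke_conj_mem hp hx
  simpa [mul_assoc] using this

/-- The Fricke involution `f ↦ f ∣[k] W_p` on `M_k(Γ₀(p))`. -/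
def wForm (p : ℕ) [NeZero p] {k : ℤ} (f : ModularForm Γ₀(p) k) : ModularForm Γ₀(p) k where
  toFun := ⇑f ∣[k] fricke p
  slash_action_eq' γ hγ := by
    have h := fricke_conj_mem (NeZero.ne p) hγ
    rw [← SlashAction.slash_mul,
      show fricke p * γ = (fricke p * γ * (fricke p)⁻¹) * fricke p by group,
      SlashAction.slash_mul, SlashInvariantForm.slash_action_eqn f _ h]
  holo' := (ModularFormClass.holo f).slash k (fricke p)
  bdd_at_cusps' {c} hc γ hγ := by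
    rw [← SlashAction.slash_mul, ← OnePoint.isBoundedAt_infty_iff,
      ← OnePoint.IsBoundedAt.smul_iff]
    apply ModularFormClass.bdd_at_cusps f
    have h1 := (hc.smul (fricke p)).mono (conj_fricke_le (NeZero.ne p))
    simpa [mul_smul, hγ] using h1

@[simp] theorem coe_wForm (p : ℕ) [NeZero p] {k : ℤ} (f : ModularForm Γ₀(p) k) :
    ⇑(wForm p f) = ⇑f ∣[k] fricke p := rfl

/-! ### The trace function -/

/-- `f ∣[k] (S T^m)`. -/
def stTerm (k : ℤ) (f : ℍ → ℂ) (m : ℤ) : ℍ → ℂ :=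
  f ∣[k] (ModularGroup.S * ModularGroup.T ^ m)

/-- Invariance under `Γ₀(p)` (as a subgroup of `SL(2, ℤ)`). -/
def Inv0 (p : ℕ) (k : ℤ) (f : ℍ → ℂ) : Prop :=
  ∀ γ ∈ CongruenceSubgroup.Gamma0 p, f ∣[k] γ = f

theorem inv0_of_modularForm {p : ℕ} {k : ℤ} (f : ModularForm Γ₀(p) k) : Inv0 p k f :=
  fun γ hγ => SlashInvariantForm.slash_action_eqn f (mapGL ℝ γ) ⟨γ, hγ, rfl⟩

theorem slash_eq_of_mul_inv_mem {p : ℕ} {k : ℤ} {f : ℍ → ℂ} (hf : Inv0 p k f) {g g' : SL(2, ℤ)}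
    (h : g * g'⁻¹ ∈ CongruenceSubgroup.Gamma0 p) : f ∣[k] g = f ∣[k] g' := by
  have h1 : g = (g * g'⁻¹) * g' := by group
  conv_lhs => rw [h1]
  rw [SlashAction.slash_mul, hf _ h]

theorem entry_ST_add (m n : ℤ) :
    (ModularGroup.S * ModularGroup.T ^ (m + n) * (ModularGroup.S * ModularGroup.T ^ m)⁻¹ :
      SL(2, ℤ)) 1 0 = -n := by
  simp [Matrix.SpecialLinearGroup.coe_mul, ModularGroup.coe_S, ModularGroup.coe_T_zpow,
    Matrix.SpecialLinearGroup.coe_inv, Matrix.adjugate_fin_two, Matrix.mul_apply,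
    Fin.sum_univ_two]

theorem entry_STS (j j' : ℤ) :
    (ModularGroup.S * ModularGroup.T ^ j * ModularGroup.S *
      (ModularGroup.S * ModularGroup.T ^ j')⁻¹ : SL(2, ℤ)) 1 0 = j * j' + 1 := by
  simp [Matrix.SpecialLinearGroup.coe_mul, ModularGroup.coe_S, ModularGroup.coe_T_zpow,
    Matrix.SpecialLinearGroup.coe_inv, Matrix.adjugate_fin_two, Matrix.mul_apply,
    Fin.sum_univ_two]

theorem entry_SS : (ModularGroup.S * ModularGroup.S : SL(2, ℤ)) 1 0 = 0 := by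
  simp [Matrix.SpecialLinearGroup.coe_mul, ModularGroup.coe_S, Matrix.mul_apply,
    Fin.sum_univ_two]

theorem T_mem_Gamma0 (p : ℕ) : ModularGroup.T ∈ CongruenceSubgroup.Gamma0 p := by
  rw [CongruenceSubgroup.Gamma0_mem]
  simp [ModularGroup.T]

theorem stTerm_add_mul {p : ℕ} {k : ℤ} {f : ℍ → ℂ} (hf : Inv0 p k f) (m n : ℤ) :
    stTerm k f (m + p * n) = stTerm k f m := by
  apply slash_eq_of_mul_inv_mem hf
  rw [CongruenceSubgroup.Gamma0_mem, entry_ST_add]
  simp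

theorem stTerm_slash_T (k : ℤ) (f : ℍ → ℂ) (m : ℤ) :
    (stTerm k f m) ∣[k] ModularGroup.T = stTerm k f (m + 1) := by
  rw [stTerm, stTerm, ← SlashAction.slash_mul, mul_assoc, ← zpow_add_one]

theorem stTerm_slash_S {p : ℕ} {k : ℤ} {f : ℍ → ℂ} (hf : Inv0 p k f) (j j' : ℤ)
    (h : (p : ℤ) ∣ j * j' + 1) :
    (stTerm k f j) ∣[k] ModularGroup.S = stTerm k f j' := by
  rw [stTerm, stTerm, ← SlashAction.slash_mul]
  apply slash_eq_of_mul_inv_mem hf
  rw [CongruenceSubgroup.Gamma0_mem, entry_STS]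
  exact (ZMod.intCast_zmod_eq_zero_iff_dvd _ p).mpr h

theorem stTerm_zero (k : ℤ) (f : ℍ → ℂ) : stTerm k f 0 = f ∣[k] ModularGroup.S := by
  rw [stTerm, zpow_zero, mul_one]

theorem stTerm_zero_slash_S {p : ℕ} {k : ℤ} {f : ℍ → ℂ} (hf : Inv0 p k f) :
    (stTerm k f 0) ∣[k] ModularGroup.S = f := by
  rw [stTerm_zero, ← SlashAction.slash_mul]
  apply hf
  rw [CongruenceSubgroup.Gamma0_mem, entry_SS]
  simp

/-- The trace function `f + ∑_{j<p} f ∣ S T^j`. -/
def trFun (p : ℕ) (k : ℤ) (f : ℍ → ℂ) : ℍ → ℂ :=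
  f + ∑ j ∈ Finset.range p, stTerm k f (j : ℤ)

theorem trFun_slash_T {p : ℕ} {k : ℤ} {f : ℍ → ℂ} (hf : Inv0 p k f) :
    (trFun p k f) ∣[k] ModularGroup.T = trFun p k f := by
  have h1 := Finset.sum_range_succ (fun j : ℕ => stTerm k f (j : ℤ)) p
  have h2 := Finset.sum_range_succ' (fun j : ℕ => stTerm k f (j : ℤ)) p
  have h3 : stTerm k f (p : ℤ) = stTerm k f 0 := by
    simpa using stTerm_add_mul hf 0 1
  rw [trFun, SlashAction.add_slash, SlashAction.sum_slash, hf _ (T_mem_Gamma0 p)]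
  congr 1
  simp only [stTerm_slash_T]
  simp only [Nat.cast_add, Nat.cast_one, Nat.cast_zero] at h2
  rw [h1, h3] at h2
  exact add_right_cancel h2.symm

theorem sum_range_eq_sum_zmod (p : ℕ) [NeZero p] {M : Type*} [AddCommMonoid M] (F : ℕ → M) :
    ∑ j ∈ Finset.range p, F j = ∑ a : ZMod p, F a.val := by
  symm
  apply Finset.sum_bij (fun a _ => a.val)
  · intro a _
    exact Finset.mem_range.mpr (ZMod.val_lt a)
  · intro a _ b _ h
    exact ZMod.val_injective p h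
  · intro j hj
    exact ⟨(j : ZMod p), Finset.mem_univ _, ZMod.val_cast_of_lt (Finset.mem_range.mp hj)⟩
  · intro a _
    rfl

theorem trFun_slash_S {p : ℕ} [Fact p.Prime] {k : ℤ} {f : ℍ → ℂ} (hf : Inv0 p k f) :
    (trFun p k f) ∣[k] ModularGroup.S = trFun p k f := by
  have : NeZero p := ⟨(Fact.out : p.Prime).ne_zero⟩
  have key : ∀ a : ZMod p, a ≠ 0 →
      (stTerm k f ((a.val : ℕ) : ℤ)) ∣[k] ModularGroup.S = stTerm k f (((-a⁻¹).val : ℕ) : ℤ) := by
    intro a ha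
    apply stTerm_slash_S hf
    rw [← ZMod.intCast_zmod_eq_zero_iff_dvd]
    push_cast
    rw [ZMod.natCast_zmod_val, ZMod.natCast_zmod_val, mul_neg, mul_inv_cancel₀ ha]
    ring
  rw [trFun, SlashAction.add_slash, SlashAction.sum_slash,
    sum_range_eq_sum_zmod p (fun j : ℕ => stTerm k f (j : ℤ) ∣[k] ModularGroup.S),
    sum_range_eq_sum_zmod p (fun j : ℕ => stTerm k f (j : ℤ)),
    ← Finset.add_sum_erase Finset.univ _ (Finset.mem_univ (0 : ZMod p)),
    ← Finset.add_sum_erase Finset.univ (fun a : ZMod p => stTerm k f ((a.val : ℕ) : ℤ))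
      (Finset.mem_univ (0 : ZMod p))]
  simp only [ZMod.val_zero, Nat.cast_zero]
  rw [stTerm_zero_slash_S hf, ← stTerm_zero]
  have hsum : ∑ a ∈ Finset.univ.erase (0 : ZMod p),
      (stTerm k f ((a.val : ℕ) : ℤ)) ∣[k] ModularGroup.S =
      ∑ a ∈ Finset.univ.erase (0 : ZMod p), stTerm k f ((a.val : ℕ) : ℤ) := by
    rw [Finset.sum_congr rfl (fun a ha => key a (Finset.ne_of_mem_erase ha))]
    refine Finset.sum_nbij' (fun a => -a⁻¹) (fun a => -a⁻¹) ?_ ?_ ?_ ?_ ?_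
    · intro a ha
      have ha0 := Finset.ne_of_mem_erase ha
      exact Finset.mem_erase.mpr ⟨by simpa using ha0, Finset.mem_univ _⟩
    · intro a ha
      have ha0 := Finset.ne_of_mem_erase ha
      exact Finset.mem_erase.mpr ⟨by simpa using ha0, Finset.mem_univ _⟩
    · intro a _
      simp
    · intro a _
      simp
    · intro a _
      rfl
  rw [hsum]
  abel

theorem isBoundedAtImInfty_sum {ι : Type*} (s : Finset ι) {F : ι → ℍ → ℂ}
    (h : ∀ i ∈ s, IsBoundedAtImInfty (F i)) : IsBoundedAtImInfty (∑ i ∈ s, F i) := by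
  classical
  induction s using Finset.induction_on with
  | empty => simpa using zero_form_isBoundedAtImInfty
  | insert i t hi ih =>
    rw [Finset.sum_insert hi]
    exact (h i (Finset.mem_insert_self i t)).add
      (ih fun j hj => h j (Finset.mem_insert_of_mem hj))

theorem mdifferentiable_sum {ι : Type*} (s : Finset ι) {F : ι → ℍ → ℂ}
    (h : ∀ i ∈ s, MDiff (F i)) : MDiff (∑ i ∈ s, F i) := by
  classical
  induction s using Finset.induction_on with
  | empty =>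
    rw [Finset.sum_empty]
    exact (mdifferentiable_const : MDiff (fun _ : ℍ => (0 : ℂ)))
  | insert i t hi ih =>
    rw [Finset.sum_insert hi]
    exact (h i (Finset.mem_insert_self i t)).add
      (ih fun j hj => h j (Finset.mem_insert_of_mem hj))

theorem trFun_isBoundedAtImInfty {p : ℕ} [NeZero p] {k : ℤ} (f : ModularForm Γ₀(p) k) :
    IsBoundedAtImInfty (trFun p k f) :=
  (ModularFormClass.bdd_at_infty f).add
    (isBoundedAtImInfty_sum _ fun _ _ => ModularFormClass.bdd_at_infty_slash f _)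

/-- The trace of a modular form on `Γ₀(p)` to level one. -/
def traceForm (p : ℕ) [Fact p.Prime] {k : ℤ} (f : ModularForm Γ₀(p) k) : ModularForm 𝒮ℒ k where
  toFun := trFun p k f
  slash_action_eq' A hA := by
    obtain ⟨A, rfl⟩ := hA
    exact SlashInvariantForm.slash_action_generators_SL2Z
      (trFun_slash_S (inv0_of_modularForm f)) (trFun_slash_T (inv0_of_modularForm f)) A
  holo' := (ModularFormClass.holo f).add
    (mdifferentiable_sum _ fun j _ => (ModularFormClass.holo f).slash k _)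
  bdd_at_cusps' {c} hc := by
    have : NeZero p := ⟨(Fact.out : p.Prime).ne_zero⟩
    rw [Subgroup.IsArithmetic.isCusp_iff_isCusp_SL2Z] at hc
    rw [OnePoint.isBoundedAt_iff_forall_SL2Z hc]
    intro γ _
    rw [SlashInvariantForm.slash_action_generators_SL2Z
      (trFun_slash_S (inv0_of_modularForm f)) (trFun_slash_T (inv0_of_modularForm f))]
    exact trFun_isBoundedAtImInfty f

theorem coe_traceForm (p : ℕ) [Fact p.Prime] {k : ℤ} (f : ModularForm Γ₀(p) k) :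
    ⇑(traceForm p f) = trFun p k f := rfl

/-! ### The trace in terms of `heckeU` and the Fricke operator -/

theorem entries_ST (j : ℤ) :
    (ModularGroup.S * ModularGroup.T ^ j : SL(2, ℤ)) 0 0 = 0 ∧
    (ModularGroup.S * ModularGroup.T ^ j : SL(2, ℤ)) 0 1 = -1 ∧
    (ModularGroup.S * ModularGroup.T ^ j : SL(2, ℤ)) 1 0 = 1 ∧
    (ModularGroup.S * ModularGroup.T ^ j : SL(2, ℤ)) 1 1 = j := by
  simp [Matrix.SpecialLinearGroup.coe_mul, ModularGroup.coe_S, ModularGroup.coe_T_zpow,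
    Matrix.mul_apply, Fin.sum_univ_two]

theorem slash_fricke_heckeMatrix (k : ℤ) {p : ℕ} (hp : p ≠ 0) (f : ℍ → ℂ) (j : ℕ) :
    (f ∣[k] fricke p) ∣[k] heckeMatrix p j = (p : ℂ) ^ (k - 2) • stTerm k f (j : ℤ) := by
  have hp' : (p : ℂ) ≠ 0 := by exact_mod_cast hp
  obtain ⟨e00, e01, e10, e11⟩ := entries_ST (j : ℤ)
  ext τ
  rw [slash_heckeMatrix_apply k hp, slash_fricke_apply k hp, Pi.smul_apply, stTerm,
    SL_slash_apply]
  have hpt : (p : ℂ) * ((heckeMatrix p j • τ : ℍ) : ℂ) = τ + j := by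
    rw [coe_heckeMatrix_smul hp]
    field_simp
  have hpoint : fricke p • (heckeMatrix p j • τ) =
      (ModularGroup.S * ModularGroup.T ^ (j : ℤ)) • τ := by
    apply UpperHalfPlane.ext
    rw [coe_fricke_smul hp, hpt, coe_specialLinearGroup_apply, e00, e01, e10, e11]
    simp
  have hden : denom (toGL ((Matrix.SpecialLinearGroup.map (Int.castRingHom ℝ))
      (ModularGroup.S * ModularGroup.T ^ (j : ℤ)))) τ = τ + j := by
    refine (ModularGroup.denom_apply _ _).trans ?_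
    rw [e10, e11]
    simp
  rw [hpt, hpoint, hden, smul_eq_mul]
  have h2 : (p : ℂ) ^ (k - 2) = (p : ℂ)⁻¹ * (p : ℂ) ^ (k - 1) := by
    rw [← zpow_neg_one, ← zpow_add₀ hp']
    congr 1
    ring
  rw [h2]
  ring

theorem trFun_eq (k : ℤ) {p : ℕ} (hp : p ≠ 0) (f : ℍ → ℂ) :
    trFun p k f = f + (p : ℂ) ^ (2 - k) • heckeU k p (f ∣[k] fricke p) := by
  have hp' : (p : ℂ) ≠ 0 := by exact_mod_cast hp
  rw [trFun, heckeU_def, Finset.smul_sum]
  congr 1
  refine Finset.sum_congr rfl fun j _ => ?_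
  rw [slash_fricke_heckeMatrix k hp, smul_smul, ← zpow_add₀ hp']
  simp

/-! ### `q`-expansions -/

open ModularFormClass in
/-- A function on the upper half plane that is holomorphic, `1`-periodic and bounded at `i∞`. -/
structure Nice (f : ℍ → ℂ) : Prop where
  per : Function.Periodic (f ∘ UpperHalfPlane.ofComplex) (1 : ℂ)
  hol : MDiff f
  bdd : IsBoundedAtImInfty f

theorem Nice.analytic {f : ℍ → ℂ} (hf : Nice f) : AnalyticAt ℂ (cuspFunction 1 f) 0 :=
  analyticAt_cuspFunction_zero one_pos (by simpa using hf.per) hf.hol hf.bdd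

theorem Nice.add {f g : ℍ → ℂ} (hf : Nice f) (hg : Nice g) : Nice (f + g) where
  per := fun x => by
    have h1 := hf.per x
    have h2 := hg.per x
    simp only [Function.comp_apply, Pi.add_apply] at h1 h2 ⊢
    rw [h1, h2]
  hol := hf.hol.add hg.hol
  bdd := hf.bdd.add hg.bdd

theorem Nice.smul {f : ℍ → ℂ} (c : ℂ) (hf : Nice f) : Nice (c • f) where
  per := fun x => by
    have h1 := hf.per x
    simp only [Function.comp_apply, Pi.smul_apply] at h1 ⊢
    rw [h1]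
  hol := by
    have h : c • f = (fun _ : ℍ => c) * f := by ext x; simp
    rw [h]
    exact (mdifferentiable_const : MDiff (fun _ : ℍ => c)).mul hf.hol
  bdd := by
    have h : c • f = (fun _ : ℍ => c) * f := by ext x; simp
    rw [h]
    exact (Filter.const_boundedAtFilter _ c).mul hf.bdd

theorem Nice.heckeU {f : ℍ → ℂ} (hf : Nice f) (k : ℤ) (p : ℕ) : Nice (heckeU k p f) where
  per := ModularForm.periodic_heckeU_comp_ofComplex hf.per k p
  hol := ModularForm.mdifferentiable_heckeU hf.hol k p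
  bdd := ModularForm.isBoundedAtImInfty_heckeU hf.bdd k p

theorem nice_SL {k : ℤ} (F : ModularForm 𝒮ℒ k) : Nice F where
  per := by
    simpa using SlashInvariantFormClass.periodic_comp_ofComplex F one_mem_strictPeriods_SL
  hol := F.holo'
  bdd := ModularFormClass.bdd_at_infty F

theorem nice_Gamma0 {N : ℕ} [NeZero N] {k : ℤ} (F : ModularForm Γ₀(N) k) : Nice F where
  per := by
    simpa using SlashInvariantFormClass.periodic_comp_ofComplex F
      (CongruenceSubgroup.one_mem_strictPeriods_Gamma0 N)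
  hol := F.holo'
  bdd := ModularFormClass.bdd_at_infty F

open ModularFormClass in
theorem qCoeff_add {f g : ℍ → ℂ} (hf : Nice f) (hg : Nice g) (n : ℕ) :
    qCoeff (f + g) n = qCoeff f n + qCoeff g n := by
  simp only [qCoeff, qExpansion_add hf.analytic hg.analytic, map_add]

open ModularFormClass in
theorem qCoeff_smul {f : ℍ → ℂ} (c : ℂ) (hf : Nice f) (n : ℕ) :
    qCoeff (c • f) n = c * qCoeff f n := by
  simp only [qCoeff, qExpansion_smul hf.analytic c, PowerSeries.coeff_smul, smul_eq_mul]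

open ModularFormClass in
/-- `q`-expansion of the trace: `a_n(Tr f) = a_n(f) + p^(2-k) a_{np}(f | W)`. -/
theorem qCoeff_traceForm (p : ℕ) [Fact p.Prime] {k : ℤ} (f : ModularForm Γ₀(p) k) (n : ℕ) :
    qCoeff (traceForm p f) n =
      qCoeff f n + (p : ℂ) ^ (2 - k) * qCoeff (wForm p f) (n * p) := by
  have hp : p ≠ 0 := (Fact.out : p.Prime).ne_zero
  have : NeZero p := ⟨hp⟩
  have hW : Nice (⇑f ∣[k] fricke p) := nice_Gamma0 (wForm p f)
  rw [coe_traceForm, trFun_eq k hp, qCoeff_add (nice_Gamma0 f) ((hW.heckeU k p).smul _),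
    qCoeff_smul _ (hW.heckeU k p), UpperHalfPlane.qCoeff_heckeU hW.per hW.hol hW.bdd k hp,
    coeffHeckeU_apply, coe_wForm]

/-! ### Algebraic properties of the Fricke operator -/

theorem slash_fricke_fricke (k : ℤ) {p : ℕ} (hp : p ≠ 0) (f : ℍ → ℂ) :
    (f ∣[k] fricke p) ∣[k] fricke p = ((p : ℂ) ^ (2 * k - 2) * (-(p : ℂ)) ^ (-k)) • f := by
  have hp' : (p : ℂ) ≠ 0 := by exact_mod_cast hp
  ext τ
  have hτ : (τ : ℂ) ≠ 0 := ne_zero τ
  rw [slash_fricke_apply k hp, slash_fricke_apply k hp, Pi.smul_apply, smul_eq_mul]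
  have h1 : (p : ℂ) * ((fricke p • τ : ℍ) : ℂ) = -1 / τ := by
    rw [coe_fricke_smul hp]
    field_simp
  have h2 : fricke p • (fricke p • τ) = τ := by
    apply UpperHalfPlane.ext
    rw [coe_fricke_smul hp, h1]
    field_simp
  rw [h1, h2]
  have h3 : ((p : ℂ) * τ) ^ (-k) * (-1 / (τ : ℂ)) ^ (-k) = (-(p : ℂ)) ^ (-k) := by
    rw [← mul_zpow]
    congr 1
    field_simp
  have h4 : (p : ℂ) ^ (2 * k - 2) = (p : ℂ) ^ (k - 1) * (p : ℂ) ^ (k - 1) := by
    rw [← zpow_add₀ hp']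
    congr 1
    ring
  rw [h4, ← h3]
  ring

theorem wForm_wForm (p : ℕ) [NeZero p] {k : ℤ} (f : ModularForm Γ₀(p) k) :
    wForm p (wForm p f) = ((p : ℂ) ^ (2 * k - 2) * (-(p : ℂ)) ^ (-k)) • f := by
  apply DFunLike.coe_injective
  rw [coe_wForm, coe_wForm, slash_fricke_fricke k (NeZero.ne p)]
  rfl

theorem wForm_wForm_two (p : ℕ) [NeZero p] (f : ModularForm Γ₀(p) 2) :
    wForm p (wForm p f) = f := by
  have hp' : (p : ℂ) ≠ 0 := by exact_mod_cast NeZero.ne p
  rw [wForm_wForm]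
  have : (p : ℂ) ^ (2 * (2 : ℤ) - 2) * (-(p : ℂ)) ^ (-(2 : ℤ)) = 1 := by
    norm_num
  rw [this, one_smul]

theorem wForm_add (p : ℕ) [NeZero p] {k : ℤ} (f g : ModularForm Γ₀(p) k) :
    wForm p (f + g) = wForm p f + wForm p g := by
  apply DFunLike.coe_injective
  simp only [coe_wForm, FunLike.coe_add, SlashAction.add_slash]

theorem wForm_smul (p : ℕ) [NeZero p] {k : ℤ} (c : ℂ) (f : ModularForm Γ₀(p) k) :
    wForm p (c • f) = c • wForm p f := by
  apply DFunLike.coe_injective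
  simp only [coe_wForm, FunLike.coe_smul, ModularForm.smul_slash, σ_fricke (NeZero.ne p),
    ContinuousAlgEquiv.refl_apply]

theorem wForm_mul (p : ℕ) [NeZero p] {k l : ℤ} (f : ModularForm Γ₀(p) k)
    (g : ModularForm Γ₀(p) l) :
    wForm p (f.mul g) = (p : ℂ) • (wForm p f).mul (wForm p g) := by
  apply DFunLike.coe_injective
  rw [coe_wForm, ModularForm.coe_mul, ModularForm.mul_slash, det_fricke (NeZero.ne p)]
  ext τ
  simp

/-! ### Weight two: `f | W = - U_p f` -/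

theorem traceForm_two_eq_zero (p : ℕ) [Fact p.Prime] (f : ModularForm Γ₀(p) 2) :
    traceForm p f = 0 :=
  rank_zero_iff_forall_zero.mp ModularForm.levelOne_weight_two_rank_zero _

open ModularFormClass in
theorem qCoeff_zero_fun (n : ℕ) : qCoeff (0 : ℍ → ℂ) n = 0 := by
  simp [qCoeff, qExpansion_zero]

open ModularFormClass in
/-- In weight two, `a_n(f | W) = - a_{np}(f)`. -/
theorem qCoeff_wForm_two (p : ℕ) [Fact p.Prime] (f : ModularForm Γ₀(p) 2) (n : ℕ) :
    qCoeff (wForm p f) n = -qCoeff f (n * p) := by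
  have h := qCoeff_traceForm p (wForm p f) n
  rw [traceForm_two_eq_zero, wForm_wForm_two] at h
  have h0 : qCoeff (⇑(0 : ModularForm 𝒮ℒ 2)) n = 0 := qCoeff_zero_fun n
  rw [h0] at h
  simp only [sub_self, zpow_zero, one_mul] at h
  linear_combination -h

/-! ### Level one forms at level `p`: restriction and `V_p` -/

theorem Gamma0_le_SL (p : ℕ) : Γ₀(p) ≤ 𝒮ℒ := by
  rintro _ ⟨γ, -, rfl⟩
  exact ⟨γ, rfl⟩

/-- A level one form, viewed as a form on `Γ₀(p)`. -/
def restrictForm (p : ℕ) {k : ℤ} (G : ModularForm 𝒮ℒ k) : ModularForm Γ₀(p) k where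
  toFun := G
  slash_action_eq' γ hγ := G.slash_action_eq' γ (Gamma0_le_SL p hγ)
  holo' := G.holo'
  bdd_at_cusps' hc := G.bdd_at_cusps' (hc.mono (Gamma0_le_SL p))

@[simp] theorem coe_restrictForm (p : ℕ) {k : ℤ} (G : ModularForm 𝒮ℒ k) :
    ⇑(restrictForm p G) = ⇑G := rfl

theorem fricke_eq {p : ℕ} (hp : p ≠ 0) :
    fricke p = mapGL ℝ ModularGroup.S * heckeDiagMatrix p := by
  apply Matrix.GeneralLinearGroup.ext
  intro i j
  simp only [Matrix.GeneralLinearGroup.coe_mul, val_fricke hp, val_heckeDiagMatrix hp]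
  fin_cases i <;> fin_cases j <;>
    simp [Matrix.mul_apply, Fin.sum_univ_two, ModularGroup.coe_S]

theorem slash_fricke_levelOne {p : ℕ} (hp : p ≠ 0) {k : ℤ} (G : ModularForm 𝒮ℒ k) :
    ⇑G ∣[k] fricke p = ⇑G ∣[k] heckeDiagMatrix p := by
  have hS : ⇑G ∣[k] (mapGL ℝ ModularGroup.S) = ⇑G :=
    G.slash_action_eq' _ ⟨ModularGroup.S, rfl⟩
  rw [fricke_eq hp, SlashAction.slash_mul, hS]

/-- `V_p G (τ) = G (p τ)` as a modular form on `Γ₀(p)`. -/
def vForm (p : ℕ) [NeZero p] {k : ℤ} (G : ModularForm 𝒮ℒ k) : ModularForm Γ₀(p) k :=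
  ((p : ℂ) ^ (1 - k)) • wForm p (restrictForm p G)

theorem coe_vForm (p : ℕ) [NeZero p] {k : ℤ} (G : ModularForm 𝒮ℒ k) :
    ⇑(vForm p G) = ((p : ℂ) ^ (1 - k)) • (⇑G ∣[k] heckeDiagMatrix p) := by
  rw [vForm, FunLike.coe_smul, coe_wForm, coe_restrictForm, slash_fricke_levelOne (NeZero.ne p)]

theorem vForm_apply (p : ℕ) [NeZero p] {k : ℤ} (G : ModularForm 𝒮ℒ k) (τ : ℍ) :
    vForm p G τ = G (heckeDiagMatrix p • τ) := by
  have hp' : (p : ℂ) ≠ 0 := by exact_mod_cast NeZero.ne p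
  rw [coe_vForm, Pi.smul_apply, slash_heckeDiagMatrix_apply k (NeZero.ne p), smul_eq_mul,
    ← mul_assoc, ← zpow_add₀ hp']
  simp

theorem wForm_restrictForm (p : ℕ) [NeZero p] {k : ℤ} (G : ModularForm 𝒮ℒ k) :
    wForm p (restrictForm p G) = ((p : ℂ) ^ (k - 1)) • vForm p G := by
  have hp' : (p : ℂ) ≠ 0 := by exact_mod_cast NeZero.ne p
  rw [vForm, smul_smul, ← zpow_add₀ hp']
  simp

theorem wForm_vForm (p : ℕ) [NeZero p] {k : ℤ} (hk : Even k) (G : ModularForm 𝒮ℒ k) :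
    wForm p (vForm p G) = ((p : ℂ)⁻¹) • restrictForm p G := by
  have hp' : (p : ℂ) ≠ 0 := by exact_mod_cast NeZero.ne p
  rw [vForm, wForm_smul, wForm_wForm, smul_smul]
  congr 1
  rw [Even.neg_zpow hk.neg, ← zpow_add₀ hp', ← zpow_add₀ hp', ← zpow_neg_one]
  congr 1
  ring

open ModularFormClass in
/-- `q`-expansion of `G ∣[k] diag(p, 1)`. -/
theorem qCoeff_slash_heckeDiag (p : ℕ) [NeZero p] {k : ℤ} (G : ModularForm 𝒮ℒ k) (n : ℕ) :
    qCoeff (⇑G ∣[k] heckeDiagMatrix p) n =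
      if p ∣ n then (p : ℂ) ^ (k - 1) * qCoeff G (n / p) else 0 := by
  have hp : p ≠ 0 := NeZero.ne p
  have hG : Nice (⇑G) := nice_SL G
  have hD : Nice (⇑G ∣[k] heckeDiagMatrix p) := by
    rw [← slash_fricke_levelOne hp]
    exact nice_Gamma0 (wForm p (restrictForm p G))
  have h1 := UpperHalfPlane.qCoeff_heckeT hG.per hG.hol hG.bdd k hp n
  have h2 := UpperHalfPlane.qCoeff_heckeU hG.per hG.hol hG.bdd k hp n
  rw [heckeT_eq_heckeU_add, qCoeff_add (hG.heckeU k p) hD, h2, coeffHeckeT_apply,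
    coeffHeckeU_apply] at h1
  exact add_left_cancel h1

open ModularFormClass in
/-- `q`-expansion of `V_p G`: `a_n(V_p G) = a_{n/p}(G)` if `p ∣ n`, and `0` otherwise. -/
theorem qCoeff_vForm (p : ℕ) [NeZero p] {k : ℤ} (G : ModularForm 𝒮ℒ k) (n : ℕ) :
    qCoeff (vForm p G) n = if p ∣ n then qCoeff G (n / p) else 0 := by
  have hp : p ≠ 0 := NeZero.ne p
  have hp' : (p : ℂ) ≠ 0 := by exact_mod_cast hp
  have hD : Nice (⇑G ∣[k] heckeDiagMatrix p) := by
    rw [← slash_fricke_levelOne hp]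
    exact nice_Gamma0 (wForm p (restrictForm p G))
  rw [coe_vForm, qCoeff_smul _ hD, qCoeff_slash_heckeDiag]
  split_ifs with h
  · rw [← mul_assoc, ← zpow_add₀ hp']
    simp
  · simp

/-! ### Cusp forms: vanishing at both cusps -/

theorem entry_mul_ST_inv (γ : SL(2, ℤ)) (j : ℤ) :
    (γ * (ModularGroup.S * ModularGroup.T ^ j)⁻¹ : SL(2, ℤ)) 1 0 = γ 1 0 * j - γ 1 1 := by
  simp [Matrix.SpecialLinearGroup.coe_mul, ModularGroup.coe_S, ModularGroup.coe_T_zpow,
    Matrix.SpecialLinearGroup.coe_inv, Matrix.adjugate_fin_two, Matrix.mul_apply,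
    Fin.sum_univ_two]
  ring

/-- Coset decomposition `SL₂(ℤ) = Γ₀(p) ∪ ⋃_j Γ₀(p) S T^j`. -/
theorem exists_decomp (p : ℕ) [Fact p.Prime] (γ : SL(2, ℤ)) :
    γ ∈ CongruenceSubgroup.Gamma0 p ∨
      ∃ j : ℕ, γ * (ModularGroup.S * ModularGroup.T ^ (j : ℤ))⁻¹ ∈ CongruenceSubgroup.Gamma0 p := by
  by_cases h : ((γ 1 0 : ℤ) : ZMod p) = 0
  · exact Or.inl (CongruenceSubgroup.Gamma0_mem.mpr h)
  · refine Or.inr ⟨(((γ 1 1 : ℤ) : ZMod p) * ((γ 1 0 : ℤ) : ZMod p)⁻¹).val, ?_⟩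
    rw [CongruenceSubgroup.Gamma0_mem, entry_mul_ST_inv]
    push_cast
    rw [ZMod.natCast_zmod_val, mul_comm (((γ 1 1 : ℤ) : ZMod p)), ← mul_assoc,
      mul_inv_cancel₀ h, one_mul, sub_self]

theorem stTerm_eq (k : ℤ) {p : ℕ} (hp : p ≠ 0) (f : ℍ → ℂ) (j : ℕ) :
    stTerm k f (j : ℤ) = (p : ℂ) ^ (2 - k) • ((f ∣[k] fricke p) ∣[k] heckeMatrix p j) := by
  have hp' : (p : ℂ) ≠ 0 := by exact_mod_cast hp
  rw [slash_fricke_heckeMatrix k hp, smul_smul, ← zpow_add₀ hp']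
  simp

theorem isZeroAt_of_isZeroAtImInfty (p : ℕ) [Fact p.Prime] {k : ℤ} (f : ModularForm Γ₀(p) k)
    (h0 : IsZeroAtImInfty f) (hW : IsZeroAtImInfty (wForm p f)) {c : OnePoint ℝ}
    (hc : IsCusp c Γ₀(p)) : c.IsZeroAt f k := by
  have hp : p ≠ 0 := (Fact.out : p.Prime).ne_zero
  rw [Subgroup.IsArithmetic.isCusp_iff_isCusp_SL2Z] at hc
  rw [OnePoint.isZeroAt_iff_forall_SL2Z hc]
  intro γ _
  rcases exists_decomp p γ with h | ⟨j, h⟩
  · rw [inv0_of_modularForm f γ h]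
    exact h0
  · rw [slash_eq_of_mul_inv_mem (inv0_of_modularForm f) h]
    have h1 := stTerm_eq k hp (⇑f) j
    rw [stTerm] at h1
    rw [h1]
    have h2 : IsZeroAtImInfty ((⇑f ∣[k] fricke p) ∣[k] heckeMatrix p j) := by
      apply IsZeroAtImInfty.slash
      · simp [val_heckeMatrix hp]
      · exact hW
    exact h2.smul _

/-- A modular form on `Γ₀(p)` vanishing at `i∞` together with its Fricke transform is a cusp
form. -/
def toCuspForm (p : ℕ) [Fact p.Prime] {k : ℤ} (f : ModularForm Γ₀(p) k)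
    (h0 : IsZeroAtImInfty f) (hW : IsZeroAtImInfty (wForm p f)) : CuspForm Γ₀(p) k :=
  { f with zero_at_cusps' := fun hc => isZeroAt_of_isZeroAtImInfty p f h0 hW hc }

@[simp] theorem coe_toCuspForm (p : ℕ) [Fact p.Prime] {k : ℤ} (f : ModularForm Γ₀(p) k)
    (h0 : IsZeroAtImInfty f) (hW : IsZeroAtImInfty (wForm p f)) :
    ⇑(toCuspForm p f h0 hW) = ⇑f := rfl

open ModularFormClass in
theorem isZeroAtImInfty_of_qCoeff_zero {N : ℕ} [NeZero N] {k : ℤ} (f : ModularForm Γ₀(N) k)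
    (h : qCoeff f 0 = 0) : IsZeroAtImInfty f := by
  apply ModularForm.isZeroAtImInfty_of_valueAtInfty_eq_zero f
  rwa [← qExpansion_coeff_zero one_pos
    (ModularFormClass.analyticAt_cuspFunction_zero f one_pos
      (CongruenceSubgroup.one_mem_strictPeriods_Gamma0 N))
    (SlashInvariantFormClass.periodic_comp_ofComplex f
      (CongruenceSubgroup.one_mem_strictPeriods_Gamma0 N))]

open ModularFormClass in
/-- A weight two modular form on `Γ₀(p)` whose constant term at `i∞` vanishes is a cusp form. -/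
theorem exists_cuspForm_two (p : ℕ) [Fact p.Prime] (f : ModularForm Γ₀(p) 2)
    (h : qCoeff f 0 = 0) : ∃ g : CuspForm Γ₀(p) 2, (⇑g : ℍ → ℂ) = ⇑f := by
  have hW : qCoeff (wForm p f) 0 = 0 := by
    rw [qCoeff_wForm_two, zero_mul, h, neg_zero]
  exact ⟨toCuspForm p f (isZeroAtImInfty_of_qCoeff_zero f h)
    (isZeroAtImInfty_of_qCoeff_zero (wForm p f) hW), rfl⟩

end

end Fermat.Agent.S16.Trace5021
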