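import Fermat.Agent.S16.CaseC1378
import Fermat.Agent.S16.Trace5021
import Fermat.Agent.S16.LevelOne

/-!
# S16, upper bound, case (C): `p ≡ 7 mod 8` — concrete version

Instantiation of `caseC_abstract` with
* the level-one toolkit `Fermat.Agent.S16.LevelOne` (P2), and
* the Fricke operator / trace toolkit `Fermat.Agent.S16.Trace5021` (P3).

Main results: `caseC` and `caseC_noUnit`: for a prime `p ≡ 7 mod 8` there is no
`F ∈ M₂(Γ₀(p))` whose `q`-expansion is integral with odd constant term and all higher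
coefficients divisible by `8`.
-/

set_option autoImplicit false

open UpperHalfPlane ModularForm PowerSeries
open scoped MatrixGroups ModularForm Manifold

namespace Fermat.Agent.S16.CaseC1378

open Fermat.Agent.S16.Trace5021 Fermat.Agent.S16.LevelOne

noncomputable section

local notation "Γ₀(" N ")" => (CongruenceSubgroup.Gamma0 N : Subgroup (GL (Fin 2) ℝ))

/-- `P` is the `q`-expansion of a level one modular form of weight `k`. -/
def M1c (k : ℤ) (P : ℂ⟦X⟧) : Prop := ∃ G : ModularForm 𝒮ℒ k, qExpansion 1 G = P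

/-- `P` is the `q`-expansion of some `Φ ∈ M_k(Γ₀(p))` and `P'` is the `q`-expansion of
`τ ↦ (Φ ∣[k] S)(p τ) = p^(1-k) • (Φ ∣[k] W_p)`. -/
def Relc (p : ℕ) [NeZero p] (k : ℤ) (P P' : ℂ⟦X⟧) : Prop :=
  ∃ Φ : ModularForm Γ₀(p) k, qExpansion 1 Φ = P ∧
    ((p : ℂ) ^ (1 - k)) • qExpansion 1 (wForm p Φ) = P'

theorem qExpansion_vForm (p : ℕ) [NeZero p] {k : ℤ} (G : ModularForm 𝒮ℒ k) :
    qExpansion 1 (vForm p G) = expand p (NeZero.ne p) (qExpansion 1 G) := by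
  ext n
  rw [coeff_expand]
  exact qCoeff_vForm p G n

theorem qExpansion_smul_Gamma0 (p : ℕ) {k : ℤ} (c : ℂ) (Φ : ModularForm Γ₀(p) k) :
    qExpansion 1 (⇑(c • Φ) : ℍ → ℂ) = c • qExpansion 1 Φ :=
  ModularForm.qExpansion_smul one_pos (CongruenceSubgroup.one_mem_strictPeriods_Gamma0 p) c Φ

theorem qExpansion_add_Gamma0 (p : ℕ) {k : ℤ} (Φ Ψ : ModularForm Γ₀(p) k) :
    qExpansion 1 (⇑(Φ + Ψ) : ℍ → ℂ) = qExpansion 1 Φ + qExpansion 1 Ψ :=
  ModularForm.qExpansion_add one_pos (CongruenceSubgroup.one_mem_strictPeriods_Gamma0 p) Φ Ψ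

theorem qExpansion_mul_Gamma0 (p : ℕ) {k l : ℤ} (Φ : ModularForm Γ₀(p) k)
    (Ψ : ModularForm Γ₀(p) l) :
    qExpansion 1 (Φ.mul Ψ) = qExpansion 1 Φ * qExpansion 1 Ψ :=
  ModularForm.qExpansion_mul one_pos (CongruenceSubgroup.one_mem_strictPeriods_Gamma0 p) Φ Ψ

theorem m1c_smul (k : ℤ) (c : ℂ) (P : ℂ⟦X⟧) (h : M1c k P) : M1c k (c • P) := by
  obtain ⟨G, rfl⟩ := h
  exact ⟨c • G, ModularForm.qExpansion_smul one_pos one_mem_strictPeriods_SL c G⟩

theorem m1c_sturm (k : ℤ) (g : ℤ⟦X⟧) (h : M1c k (map (Int.castRingHom ℂ) g))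
    (hlow : ∀ i : ℕ, 12 * (i : ℤ) ≤ k → Even (coeff i g)) : ∀ i : ℕ, Even (coeff i g) := by
  obtain ⟨G, hG⟩ := h
  intro i
  rw [even_iff_two_dvd]
  exact levelOne_sturm_mod_int G g hG 2 (fun n hn => even_iff_two_dvd.mp (hlow n hn)) i

section Rel

variable (p : ℕ) [NeZero p]

theorem relc_restrict {k : ℤ} (G : ModularForm 𝒮ℒ k) :
    Relc p k (qExpansion 1 G) (expand p (NeZero.ne p) (qExpansion 1 G)) := by
  have hp' : (p : ℂ) ≠ 0 := by exact_mod_cast NeZero.ne p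
  refine ⟨restrictForm p G, rfl, ?_⟩
  rw [wForm_restrictForm, qExpansion_smul_Gamma0, smul_smul, ← zpow_add₀ hp', qExpansion_vForm]
  simp

theorem relc_one : Relc p 0 1 1 := by
  have h := relc_restrict p (1 : ModularForm 𝒮ℒ 0)
  have h1 : qExpansion 1 (1 : ModularForm 𝒮ℒ 0) = 1 := ModularForm.qExpansion_one
  rw [h1, map_one] at h
  exact h

theorem relc_add (k : ℤ) (P P' Q Q' : ℂ⟦X⟧) (h1 : Relc p k P P') (h2 : Relc p k Q Q') :
    Relc p k (P + Q) (P' + Q') := by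
  obtain ⟨Φ, rfl, rfl⟩ := h1
  obtain ⟨Ψ, rfl, rfl⟩ := h2
  refine ⟨Φ + Ψ, qExpansion_add_Gamma0 p Φ Ψ, ?_⟩
  rw [wForm_add, qExpansion_add_Gamma0, smul_add]

theorem relc_smul (k : ℤ) (c : ℂ) (P P' : ℂ⟦X⟧) (h1 : Relc p k P P') :
    Relc p k (c • P) (c • P') := by
  obtain ⟨Φ, rfl, rfl⟩ := h1
  refine ⟨c • Φ, qExpansion_smul_Gamma0 p c Φ, ?_⟩
  rw [wForm_smul, qExpansion_smul_Gamma0, smul_comm]

theorem relc_mul (k l : ℤ) (P P' Q Q' : ℂ⟦X⟧) (h1 : Relc p k P P') (h2 : Relc p l Q Q') :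
    Relc p (k + l) (P * Q) (P' * Q') := by
  have hp' : (p : ℂ) ≠ 0 := by exact_mod_cast NeZero.ne p
  obtain ⟨Φ, rfl, rfl⟩ := h1
  obtain ⟨Ψ, rfl, rfl⟩ := h2
  refine ⟨Φ.mul Ψ, qExpansion_mul_Gamma0 p Φ Ψ, ?_⟩
  rw [wForm_mul, qExpansion_smul_Gamma0, qExpansion_mul_Gamma0, smul_smul, smul_mul_smul_comm]
  congr 1
  rw [← zpow_add₀ hp', ← zpow_add_one₀ hp']
  congr 1
  ring

theorem relc_vForm {k : ℤ} (hk : Even k) (G : ModularForm 𝒮ℒ k) :
    Relc p k (expand p (NeZero.ne p) (qExpansion 1 G))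
      (((p : ℂ) ^ (-k)) • qExpansion 1 G) := by
  have hp' : (p : ℂ) ≠ 0 := by exact_mod_cast NeZero.ne p
  refine ⟨vForm p G, qExpansion_vForm p G, ?_⟩
  rw [wForm_vForm p hk, qExpansion_smul_Gamma0, smul_smul, ← zpow_neg_one, ← zpow_add₀ hp']
  congr 2
  ring

end Rel

section Prime

variable (p : ℕ) [Fact p.Prime]

theorem relc_two (P P' : ℂ⟦X⟧)
    (h : haveI : NeZero p := ⟨(Fact.out : p.Prime).ne_zero⟩; Relc p 2 P P') :
    P' = (-(p : ℂ)⁻¹) • Uop p P := by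
  have : NeZero p := ⟨(Fact.out : p.Prime).ne_zero⟩
  obtain ⟨Φ, rfl, rfl⟩ := h
  ext n
  have h1 : (qExpansion 1 (wForm p Φ)).coeff n = -(qExpansion 1 Φ).coeff (n * p) :=
    qCoeff_wForm_two p Φ n
  rw [coeff_smul, coeff_smul, coeff_Uop, h1, mul_comm n p]
  norm_num

theorem relc_trace (k : ℤ) (P P' : ℂ⟦X⟧)
    (h : haveI : NeZero p := ⟨(Fact.out : p.Prime).ne_zero⟩; Relc p k P P') :
    M1c k (P + (p : ℂ) • Uop p P') := by
  have : NeZero p := ⟨(Fact.out : p.Prime).ne_zero⟩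
  have hp' : (p : ℂ) ≠ 0 := by exact_mod_cast NeZero.ne p
  obtain ⟨Φ, rfl, rfl⟩ := h
  refine ⟨traceForm p Φ, ?_⟩
  ext n
  have h1 : (qExpansion 1 (traceForm p Φ)).coeff n =
      (qExpansion 1 Φ).coeff n + (p : ℂ) ^ (2 - k) * (qExpansion 1 (wForm p Φ)).coeff (n * p) :=
    qCoeff_traceForm p Φ n
  rw [h1, map_add, coeff_smul, coeff_Uop, coeff_smul, mul_comm p n, smul_eq_mul, smul_eq_mul,
    ← mul_assoc]
  congr 2
  rw [← zpow_one_add₀ hp']
  congr 1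
  ring

end Prime

/-- **Case (C), concrete form.** For a prime `p ≡ 7 mod 8` there is no weight two modular form on
`Γ₀(p)` whose `q`-expansion has integer coefficients and is `≡ 1 mod 8`. -/
theorem caseC (p : ℕ) [Fact p.Prime] (hp8 : p % 8 = 7) (F : ModularForm Γ₀(p) 2) (P : ℤ⟦X⟧)
    (hF : qExpansion 1 F = map (Int.castRingHom ℂ) P) (hP : ∃ c, P = 1 + 8 * c) : False := by
  have hp : p.Prime := Fact.out
  have : NeZero p := ⟨hp.ne_zero⟩
  obtain ⟨U, hU⟩ := exists_deltaInt_unit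
  have hU1 : constantCoeff (U : ℤ⟦X⟧) = 1 := by
    have h := deltaInt_coeff_one
    rw [hU, show (1 : ℕ) = 0 + 1 from rfl, PowerSeries.coeff_succ_X_mul] at h
    simpa using h
  have hΔq : qExpansion 1 (CuspForm.toModularFormₗ CuspForm.discriminant : ModularForm 𝒮ℒ 12)
      = toC deltaInt := qExpansion_discriminant
  refine caseC_abstract p hp hp8 M1c (Relc p) E4int E6int deltaInt m1c_smul m1c_sturm
    (relc_one p) (relc_add p) (relc_smul p) (relc_mul p) ?_ ?_ ?_ (relc_two p) (relc_trace p)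
    ⟨15 * sig3, ?_⟩ ⟨-63 * sig5, ?_⟩ E4int_pow_three_sub ⟨U, hU, hU1⟩ P
    (((p : ℂ) ^ (1 - 2 : ℤ)) • qExpansion 1 (wForm p F)) ⟨F, hF, rfl⟩ hP
  · have h := relc_restrict p E₄
    rwa [qExpansion_E4] at h
  · have h := relc_restrict p E₆
    rwa [qExpansion_E6] at h
  · have h := relc_vForm p (by decide : Even (12 : ℤ))
      (CuspForm.toModularFormₗ CuspForm.discriminant : ModularForm 𝒮ℒ 12)
    rw [hΔq] at h
    have e : (p : ℂ) ^ (-12 : ℤ) = ((p : ℂ)⁻¹) ^ 12 := by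
      rw [zpow_neg, inv_pow]; norm_cast
    rwa [e] at h
  · unfold E4int; ring
  · unfold E6int; ring

/-- **Case (C)** in coefficientwise form: for a prime `p ≡ 7 mod 8` there is no weight two modular
form on `Γ₀(p)` with integral `q`-expansion, odd constant term and all higher coefficients
divisible by `8`. -/
theorem caseC_noUnit (p : ℕ) [Fact p.Prime] (hp8 : p % 8 = 7) (F : ModularForm Γ₀(p) 2) (c : ℤ)
    (hc : ¬ (2 : ℤ) ∣ c) (h0 : (qExpansion 1 F).coeff 0 = (c : ℂ))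
    (hn : ∀ n : ℕ, 1 ≤ n → ∃ d : ℤ, (qExpansion 1 F).coeff n = (((2 : ℤ) ^ 3 * d : ℤ) : ℂ)) :
    False := by
  choose! d hd using hn
  have hc8 : c * c = 1 + 8 * (c * c / 8) := by
    have h1 : c % 8 = 1 ∨ c % 8 = 3 ∨ c % 8 = 5 ∨ c % 8 = 7 := by omega
    have h2 : c * c % 8 = 1 := by
      rcases h1 with h | h | h | h <;> simp [Int.mul_emod, h]
    omega
  refine caseC p hp8 ((c : ℂ) • F)
    (1 + 8 * PowerSeries.mk fun n => if n = 0 then c * c / 8 else c * d n) ?_ ⟨_, rfl⟩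
  rw [qExpansion_smul_Gamma0]
  ext n
  rw [coeff_smul, coeff_map]
  have e8 : (8 : ℤ⟦X⟧) = C (8 : ℤ) := by simp
  rw [map_add (coeff n), coeff_one, e8, coeff_C_mul, coeff_mk]
  by_cases h : n = 0
  · subst h
    rw [h0, if_pos rfl, if_pos rfl, ← hc8]
    simp
  · rw [hd n (Nat.one_le_iff_ne_zero.mpr h), if_neg h, if_neg h]
    simp only [eq_intCast, smul_eq_mul]
    push_cast
    ring

end

end Fermat.Agent.S16.CaseC1378
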