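import Fermat.Agent.S16.CaseCAlg1378

/-!
# S16, upper bound, case (C): `p ≡ 7 mod 8`, no weight-2 form `≡ 1 mod 8` — abstract version

The argument of `origin/helper503:notes/S16_route_helper503.md` §1(C) /
`origin/helper5130:notes/S16_route_helper5130.md` (C), written purely in terms of formal
power series and two abstract predicates:

* `M1 k P`   : `P` is the `q`-expansion of a level-one modular form of weight `k`;
* `Rel k P P'`: there is a form `Φ` of weight `k` on `Γ₀(p)` with `q`-expansion `P` such that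
  `τ ↦ (Φ ∣[k] S)(p τ)` has `q`-expansion `P'`.
-/

open PowerSeries

namespace Fermat.Agent.S16.CaseC1378

section Uop
variable {R : Type*} [CommRing R]

/-- The operator `U_p` on power series: `∑ aₙ qⁿ ↦ ∑ a_{pn} qⁿ`. -/
noncomputable def Uop (p : ℕ) : R⟦X⟧ →ₗ[R] R⟦X⟧ where
  toFun P := PowerSeries.mk fun n => PowerSeries.coeff (p * n) P
  map_add' P Q := by ext n; simp
  map_smul' c P := by ext n; simp

@[simp] lemma coeff_Uop (p n : ℕ) (P : R⟦X⟧) : coeff n (Uop p P) = coeff (p * n) P := by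
  simp [Uop]

lemma Uop_one {p : ℕ} (hp : p ≠ 0) : Uop p (1 : R⟦X⟧) = 1 := by
  ext n; simp [coeff_one, hp]

lemma map_Uop {S : Type*} [CommRing S] (f : R →+* S) (p : ℕ) (P : R⟦X⟧) :
    map f (Uop p P) = Uop p (map f P) := by
  ext n; simp

end Uop

lemma two_eq_zero_zmod2 : (2 : (ZMod 2)⟦X⟧) = 0 := by
  have h : ((2 : ZMod 2)) = 0 := by decide
  rw [← map_ofNat (PowerSeries.C (R := ZMod 2)) 2]
  simp [h]

lemma natCast_zmod2_of_odd {p : ℕ} (hodd : Odd p) : ((p : ℕ) : (ZMod 2)⟦X⟧) = 1 := by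
  have h : ((p : ZMod 2)) = 1 := (ZMod.natCast_eq_one_iff_odd).mpr hodd
  rw [← map_natCast (PowerSeries.C (R := ZMod 2)) p, h, map_one]

lemma even_iff_zmod2 (a : ℤ) : Even a ↔ ((a : ZMod 2)) = 0 := by
  rw [even_iff_two_dvd]
  exact ((ZMod.intCast_zmod_eq_zero_iff_dvd a 2)).symm

/-- The mod `2` computation of the low coefficients of the trace form. -/
lemma mod2_coeffs (p : ℕ) (hp2 : 2 ≤ p) (hp0 : p ≠ 0) (hodd : Odd p) (Δ u y t yh t' : ℤ⟦X⟧)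
    (hΔ : Δ = X * u) (hu : constantCoeff u = 1)
    (hy : y = Δ + 2 * t)
    (hyh : yh = (p : ℤ⟦X⟧) ^ 6 * expand p hp0 Δ + 2 * t') :
    (∀ i, i ≤ 3 * p → Even (coeff i ((p : ℤ⟦X⟧) ^ (24 * p - 1) * y ^ (3 * p) *
        (expand p hp0 Δ) ^ p + Uop p (yh ^ (3 * p) * Δ ^ p)))) ∧
      ¬ Even (coeff (3 * p + 1) ((p : ℤ⟦X⟧) ^ (24 * p - 1) * y ^ (3 * p) *
        (expand p hp0 Δ) ^ p + Uop p (yh ^ (3 * p) * Δ ^ p))) := by
  set ψ := map (Int.castRingHom (ZMod 2)) with hψ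
  set ub := ψ u with hub
  have hub0 : constantCoeff ub = 1 := by
    rw [hub, hψ, ← coeff_zero_eq_constantCoeff_apply, coeff_map, coeff_zero_eq_constantCoeff_apply,
      hu]
    simp
  have hψΔ : ψ Δ = X * ub := by rw [hΔ, map_mul, hψ, map_X]
  have hψy : ψ y = X * ub := by
    rw [hy, map_add, map_mul, hψΔ, map_ofNat, two_eq_zero_zmod2, zero_mul, add_zero]
  have hψp : ψ (p : ℤ⟦X⟧) = 1 := by rw [map_natCast]; exact natCast_zmod2_of_odd hodd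
  have hψVΔ : ψ (expand p hp0 Δ) = X ^ p * expand p hp0 ub := by
    rw [hψ, map_expand, ← hψ, hψΔ, map_mul, expand_X]
  have hψyh : ψ yh = X ^ p * expand p hp0 ub := by
    rw [hyh, map_add, map_mul, map_mul, map_pow, hψp, hψVΔ, map_ofNat, two_eq_zero_zmod2]
    ring
  set w1 := ub ^ (3 * p) * (expand p hp0 ub) ^ p with hw1
  set w2 := (expand p hp0 ub) ^ (3 * p) * ub ^ p with hw2
  have hw2c : constantCoeff w2 = 1 := by
    rw [hw2, map_mul, map_pow, map_pow, constantCoeff_expand, hub0]; simp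
  have key : ψ ((p : ℤ⟦X⟧) ^ (24 * p - 1) * y ^ (3 * p) *
        (expand p hp0 Δ) ^ p + Uop p (yh ^ (3 * p) * Δ ^ p))
      = X ^ (3 * p + p * p) * w1 + Uop p (X ^ (3 * p * p + p) * w2) := by
    rw [map_add, map_mul, map_mul, map_pow, map_pow, map_pow, hψp, hψy, hψVΔ, hψ, map_Uop, ← hψ,
      map_mul, map_pow, map_pow, hψyh, hψΔ]
    congr 1
    · rw [hw1]; ring
    · congr 1; rw [hw2]; ring
  have hc : ∀ i, ((coeff i ((p : ℤ⟦X⟧) ^ (24 * p - 1) * y ^ (3 * p) *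
        (expand p hp0 Δ) ^ p + Uop p (yh ^ (3 * p) * Δ ^ p)) : ℤ) : ZMod 2)
      = coeff i (X ^ (3 * p + p * p) * w1 + Uop p (X ^ (3 * p * p + p) * w2)) := by
    intro i
    rw [← key, hψ, coeff_map]; rfl
  have hpp : 1 ≤ p * p := Nat.mul_pos (by omega) (by omega)
  constructor
  · intro i hi
    rw [even_iff_zmod2, hc, map_add, coeff_X_pow_mul', coeff_Uop, coeff_X_pow_mul']
    have h1 : ¬ (3 * p + p * p ≤ i) := by omega
    have h2 : ¬ (3 * p * p + p ≤ p * i) := by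
      have : p * i ≤ p * (3 * p) := Nat.mul_le_mul_left p hi
      have e : p * (3 * p) = 3 * p * p := by ring
      omega
    rw [if_neg h1, if_neg h2, add_zero]
  · rw [even_iff_zmod2, hc, map_add, coeff_X_pow_mul', coeff_Uop, coeff_X_pow_mul']
    have h1 : ¬ (3 * p + p * p ≤ 3 * p + 1) := by
      have : 2 * p ≤ p * p := Nat.mul_le_mul_right p hp2
      omega
    have e : p * (3 * p + 1) = 3 * p * p + p := by ring
    have h2 : (3 * p * p + p ≤ p * (3 * p + 1)) := by omega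
    rw [if_neg h1, if_pos h2, e, Nat.sub_self, coeff_zero_eq_constantCoeff_apply, hw2c]
    simp

lemma rel_pow (Rel : ℤ → ℂ⟦X⟧ → ℂ⟦X⟧ → Prop) (hRel_one : Rel 0 1 1)
    (hRel_mul : ∀ (k l : ℤ) (P P' Q Q' : ℂ⟦X⟧), Rel k P P' → Rel l Q Q' →
      Rel (k + l) (P * Q) (P' * Q'))
    (k : ℤ) (P P' : ℂ⟦X⟧) (h : Rel k P P') (n : ℕ) : Rel ((n : ℤ) * k) (P ^ n) (P' ^ n) := by
  induction n with
  | zero => simpa using hRel_one
  | succ n ih =>
    have := hRel_mul _ _ _ _ _ _ ih h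
    rw [pow_succ, pow_succ]
    have e : ((n + 1 : ℕ) : ℤ) * k = (n : ℤ) * k + k := by push_cast; ring
    rw [e]
    exact this

lemma two_torsion_free_int_powerSeries (x : ℤ⟦X⟧) (hx : 2 * x = 0) : x = 0 := by
  ext n
  have := congrArg (coeff n) hx
  rw [two_mul, map_add, map_zero] at this
  rw [map_zero]
  omega

/-- **Case (C), abstract form.**  Let `p ≡ 7 mod 8` be a prime.  Assume
* `M1 k P`: "`P` is the `q`-expansion of a level one modular form of weight `k`";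
* `Rel k P P'`: "`P` is the `q`-expansion of some `Φ ∈ M_k(Γ₀(p))` and `P'` is the `q`-expansion
  of `τ ↦ (Φ ∣[k] S)(p τ)`",
with the listed formal properties.  Then there is no weight `2` form on `Γ₀(p)` whose
`q`-expansion has integer coefficients and is `≡ 1 mod 8`. -/
theorem caseC_abstract (p : ℕ) (hp : p.Prime) (hp8 : p % 8 = 7)
    (M1 : ℤ → ℂ⟦X⟧ → Prop) (Rel : ℤ → ℂ⟦X⟧ → ℂ⟦X⟧ → Prop)
    (E4 E6 Δ : ℤ⟦X⟧)
    (hM1_smul : ∀ (k : ℤ) (c : ℂ) (P : ℂ⟦X⟧), M1 k P → M1 k (c • P))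
    (hW : ∀ (k : ℤ) (g : ℤ⟦X⟧), M1 k (map (Int.castRingHom ℂ) g) →
      (∀ i : ℕ, 12 * (i : ℤ) ≤ k → Even (coeff i g)) → ∀ i : ℕ, Even (coeff i g))
    (hRel_one : Rel 0 1 1)
    (hRel_add : ∀ (k : ℤ) (P P' Q Q' : ℂ⟦X⟧), Rel k P P' → Rel k Q Q' →
      Rel k (P + Q) (P' + Q'))
    (hRel_smul : ∀ (k : ℤ) (c : ℂ) (P P' : ℂ⟦X⟧), Rel k P P' → Rel k (c • P) (c • P'))
    (hRel_mul : ∀ (k l : ℤ) (P P' Q Q' : ℂ⟦X⟧), Rel k P P' → Rel l Q Q' →
      Rel (k + l) (P * Q) (P' * Q'))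
    (hRel_E4 : Rel 4 (map (Int.castRingHom ℂ) E4)
      (expand p hp.ne_zero (map (Int.castRingHom ℂ) E4)))
    (hRel_E6 : Rel 6 (map (Int.castRingHom ℂ) E6)
      (expand p hp.ne_zero (map (Int.castRingHom ℂ) E6)))
    (hRel_VΔ : Rel 12 (expand p hp.ne_zero (map (Int.castRingHom ℂ) Δ))
      (((p : ℂ)⁻¹) ^ 12 • map (Int.castRingHom ℂ) Δ))
    (hRel_two : ∀ P P' : ℂ⟦X⟧, Rel 2 P P' → P' = (-(p : ℂ)⁻¹) • Uop p P)
    (hTr : ∀ (k : ℤ) (P P' : ℂ⟦X⟧), Rel k P P' → M1 k (P + (p : ℂ) • Uop p P'))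
    (hE4 : ∃ a, E4 = 1 + 16 * a) (hE6 : ∃ b, E6 = 1 + 8 * b)
    (hΔ : E4 ^ 3 - E6 ^ 2 = 1728 * Δ) (hΔ' : ∃ u, Δ = X * u ∧ constantCoeff u = 1)
    (F : ℤ⟦X⟧) (F' : ℂ⟦X⟧) (hF : Rel 2 (map (Int.castRingHom ℂ) F) F')
    (hF8 : ∃ c, F = 1 + 8 * c) : False := by
  have hp0 : p ≠ 0 := hp.ne_zero
  have hpC : (p : ℂ) ≠ 0 := Nat.cast_ne_zero.mpr hp0
  have hp2 : 2 ≤ p := hp.two_le
  have hodd : Odd p := by rw [Nat.odd_iff]; omega
  obtain ⟨a, hE4a⟩ := hE4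
  obtain ⟨b, hE6b⟩ := hE6
  obtain ⟨u, hΔu, hu⟩ := hΔ'
  obtain ⟨c, hFc⟩ := hF8
  -- Lemma Y, first application
  obtain ⟨y, t, hy256, hyt⟩ :=
    lemmaY two_torsion_free_int_powerSeries F E4 E6 Δ a b c hΔ hE4a hE6b hFc
  -- the series `U_p F`
  have hfh8 : Uop p F = 1 + 8 * Uop p c := by
    rw [hFc, map_add, Uop_one hp0]
    congr 1
    have e : (8 : ℤ⟦X⟧) * c = (8 : ℤ) • c := by rw [zsmul_eq_mul]; norm_num
    rw [e, map_smul, zsmul_eq_mul]; norm_num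
  obtain ⟨j, hj⟩ : ∃ j, p = 8 * j + 7 := ⟨p / 8, by omega⟩
  have hpJ : (p : ℤ⟦X⟧) = 8 * (j : ℤ⟦X⟧) + 7 := by rw [hj]; push_cast; ring
  have hVE4 : expand p hp0 E4 = 1 + 16 * expand p hp0 a := by
    rw [hE4a, map_add, map_one, map_mul, map_ofNat]
  have hVE6 : expand p hp0 E6 = 1 + 8 * expand p hp0 b := by
    rw [hE6b, map_add, map_one, map_mul, map_ofNat]
  have hVrel : (expand p hp0 E4) ^ 3 - (expand p hp0 E6) ^ 2 = 1728 * expand p hp0 Δ := by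
    rw [← map_pow, ← map_pow, ← map_sub, hΔ, map_mul, map_ofNat]
  -- Lemma Y, second application
  obtain ⟨yh, t', hyh256, hyht⟩ := lemmaY two_torsion_free_int_powerSeries (Uop p F)
    ((p : ℤ⟦X⟧) ^ 2 * expand p hp0 E4) (-(p : ℤ⟦X⟧) ^ 3 * expand p hp0 E6)
    ((p : ℤ⟦X⟧) ^ 6 * expand p hp0 Δ)
    ((4 * (j : ℤ⟦X⟧) ^ 2 + 7 * j + 3) + expand p hp0 a
      + 16 * (4 * (j : ℤ⟦X⟧) ^ 2 + 7 * j + 3) * expand p hp0 a)
    (-(64 * (j : ℤ⟦X⟧) ^ 3 + 168 * (j : ℤ⟦X⟧) ^ 2 + 147 * j + 43) + expand p hp0 b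
      + 8 * (-(64 * (j : ℤ⟦X⟧) ^ 3 + 168 * (j : ℤ⟦X⟧) ^ 2 + 147 * j + 43)) * expand p hp0 b)
    (Uop p c)
    (by linear_combination ((p : ℤ⟦X⟧) ^ 6) * hVrel)
    (by rw [hVE4, hpJ]; ring)
    (by rw [hVE6, hpJ]; ring)
    hfh8
  -- notation
  set ι := map (Int.castRingHom ℂ) with hι
  set e4 := ι E4 with he4
  set e6 := ι E6 with he6
  set f := ι F with hf
  set d := ι Δ with hd
  set g := ι (Uop p F) with hg
  set Cp : ℂ⟦X⟧ := C (p : ℂ) with hCp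
  set I : ℂ⟦X⟧ := C ((256 : ℂ)⁻¹) with hI
  have hI256 : (256 : ℂ⟦X⟧) * I = 1 := by
    rw [hI, ← map_ofNat (C (R := ℂ)) 256, ← map_mul]
    simp
  have hιp : ι (p : ℤ⟦X⟧) = Cp := by
    rw [map_natCast, hCp, map_natCast]
  have hιV : ∀ P : ℤ⟦X⟧, ι (expand p hp0 P) = expand p hp0 (ι P) := fun P => map_expand p hp0 _ P
  -- `F'` in terms of `g`
  have hg2 : g = Uop p f := by rw [hg, hf, hι, map_Uop]
  have hCpF' : Cp * F' = -g := by
    rw [hRel_two _ _ hF, hg2, smul_eq_C_mul, hCp, ← mul_assoc, ← map_mul,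
      mul_neg, mul_inv_cancel₀ hpC, map_neg, map_one, neg_one_mul]
  -- the images of the two `256 * _` identities
  have h1 : (256 : ℂ⟦X⟧) * ι y = e4 ^ 2 + 10 * e4 * f ^ 2 - 8 * e6 * f - 3 * f ^ 4 := by
    have := congrArg ι hy256
    simpa [map_mul, map_sub, map_add, map_pow, map_ofNat] using this
  have h2 : (256 : ℂ⟦X⟧) * ι yh = (Cp ^ 2 * expand p hp0 e4) ^ 2
      + 10 * (Cp ^ 2 * expand p hp0 e4) * g ^ 2 - 8 * (-Cp ^ 3 * expand p hp0 e6) * g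
      - 3 * g ^ 4 := by
    have := congrArg ι hyh256
    simpa [map_mul, map_sub, map_add, map_pow, map_ofNat, map_neg, hιp, hιV] using this
  -- relations in weight 8
  have rFF : Rel 4 (f * f) (F' * F') :=
    (show (2 : ℤ) + 2 = 4 by norm_num) ▸ hRel_mul 2 2 _ _ _ _ hF hF
  have r1 : Rel 8 (e4 * e4) (expand p hp0 e4 * expand p hp0 e4) :=
    (show (4 : ℤ) + 4 = 8 by norm_num) ▸ hRel_mul 4 4 _ _ _ _ hRel_E4 hRel_E4
  have r2 : Rel 8 (e4 * (f * f)) (expand p hp0 e4 * (F' * F')) :=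
    (show (4 : ℤ) + 4 = 8 by norm_num) ▸ hRel_mul 4 4 _ _ _ _ hRel_E4 rFF
  have r3 : Rel 8 (e6 * f) (expand p hp0 e6 * F') :=
    (show (6 : ℤ) + 2 = 8 by norm_num) ▸ hRel_mul 6 2 _ _ _ _ hRel_E6 hF
  have r4 : Rel 8 ((f * f) * (f * f)) ((F' * F') * (F' * F')) :=
    (show (4 : ℤ) + 4 = 8 by norm_num) ▸ hRel_mul 4 4 _ _ _ _ rFF rFF
  have rY := hRel_smul 8 ((p : ℂ) ^ 4 * (256 : ℂ)⁻¹) _ _
    (hRel_add _ _ _ _ _ (hRel_add _ _ _ _ _ (hRel_add _ _ _ _ _ r1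
      (hRel_smul _ (10 : ℂ) _ _ r2)) (hRel_smul _ (-8 : ℂ) _ _ r3)) (hRel_smul _ (-3 : ℂ) _ _ r4))
  have hY1 : ((p : ℂ) ^ 4 * (256 : ℂ)⁻¹) • (e4 * e4 + (10 : ℂ) • (e4 * (f * f))
      + (-8 : ℂ) • (e6 * f) + (-3 : ℂ) • ((f * f) * (f * f))) = ι ((p : ℤ⟦X⟧) ^ 4 * y) := by
    rw [map_mul, map_pow, hιp]
    simp only [smul_eq_C_mul, map_mul, map_pow, map_neg, map_ofNat, ← hCp, ← hI]
    linear_combination (-(Cp ^ 4 * I)) * h1 + (Cp ^ 4 * ι y) * hI256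
  have hg' : g = -(Cp * F') := by rw [hCpF', neg_neg]
  have hY2 : ((p : ℂ) ^ 4 * (256 : ℂ)⁻¹) • (expand p hp0 e4 * expand p hp0 e4
      + (10 : ℂ) • (expand p hp0 e4 * (F' * F'))
      + (-8 : ℂ) • (expand p hp0 e6 * F') + (-3 : ℂ) • ((F' * F') * (F' * F'))) = ι yh := by
    simp only [smul_eq_C_mul, map_mul, map_pow, map_neg, map_ofNat, ← hCp, ← hI]
    rw [hg'] at h2
    linear_combination (-I) * h2 + (ι yh) * hI256
  rw [hY1, hY2] at rY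
  -- the relation for `V Δ`
  have rVΔ : Rel 12 (((p : ℂ) ^ 12) • expand p hp0 d) d := by
    have := hRel_smul 12 ((p : ℂ) ^ 12) _ _ hRel_VΔ
    rwa [smul_smul, ← mul_pow, mul_inv_cancel₀ hpC, one_pow, one_smul] at this
  -- the big product
  have rΦ := hRel_mul _ _ _ _ _ _ (rel_pow Rel hRel_one hRel_mul 8 _ _ rY (3 * p))
    (rel_pow Rel hRel_one hRel_mul 12 _ _ rVΔ p)
  have hM := hM1_smul _ ((p : ℂ)⁻¹) _ (hTr _ _ _ rΦ)
  -- identify with an integral series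
  have hΞ : (p : ℂ)⁻¹ • ((ι ((p : ℤ⟦X⟧) ^ 4 * y)) ^ (3 * p) * (((p : ℂ) ^ 12) • expand p hp0 d) ^ p
      + (p : ℂ) • Uop p ((ι yh) ^ (3 * p) * d ^ p))
      = ι ((p : ℤ⟦X⟧) ^ (24 * p - 1) * y ^ (3 * p) * (expand p hp0 Δ) ^ p
        + Uop p (yh ^ (3 * p) * Δ ^ p)) := by
    rw [smul_add, smul_smul, inv_mul_cancel₀ hpC, one_smul, map_add, hι, map_Uop, ← hι]
    congr 1
    · simp only [map_mul, map_pow, hιp, hιV]
      rw [← hd]
      simp only [smul_eq_C_mul, map_pow, ← hCp]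
      have hinv : C ((p : ℂ)⁻¹) * Cp = 1 := by
        rw [hCp, ← map_mul, inv_mul_cancel₀ hpC, map_one]
      have e24 : 24 * p = (24 * p - 1) + 1 := by omega
      have : Cp ^ (24 * p) = Cp ^ (24 * p - 1) * Cp := by
        conv_lhs => rw [e24]
        rw [pow_succ]
      have e2 : (Cp ^ 4 * ι y) ^ (3 * p) * (Cp ^ 12 * expand p hp0 d) ^ p
          = Cp ^ (24 * p) * (ι y ^ (3 * p) * expand p hp0 d ^ p) := by ring
      rw [e2, this]
      linear_combination (Cp ^ (24 * p - 1) * (ι y ^ (3 * p) * expand p hp0 d ^ p)) * hinv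
    · congr 1
      rw [map_mul, map_pow, map_pow]
  rw [hΞ] at hM
  obtain ⟨hev, hodd'⟩ := mod2_coeffs p hp2 hp0 hodd Δ u y t yh t' hΔu hu hyt hyht
  refine hodd' (hW _ _ hM ?_ _)
  intro i hi
  apply hev
  push_cast at hi
  omega

end Fermat.Agent.S16.CaseC1378
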