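import Mathlib

/-!
# S16, upper bound, case (C) (`p ≡ 7 mod 8`, modulus `8`): the pure algebra lemma ("Lemma Y")

If `e4 ^ 3 - e6 ^ 2 = 1728 * d`, `e4 ≡ 1 mod 16`, `e6 ≡ 1 mod 8`, `f ≡ 1 mod 8` in a commutative
ring without `2`-torsion, then `y := (e4 ^ 2 + 10 * e4 * f ^ 2 - 8 * e6 * f - 3 * f ^ 4) / 256`
exists and `y ≡ d mod 2`.
-/

namespace Fermat.Agent.S16.CaseC1378

/-- **Lemma Y.** -/
theorem lemmaY {S : Type*} [CommRing S] (h2 : ∀ x : S, 2 * x = 0 → x = 0)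
    (f e4 e6 d a b c : S)
    (hrel : e4 ^ 3 - e6 ^ 2 = 1728 * d)
    (h4 : e4 = 1 + 16 * a) (h6 : e6 = 1 + 8 * b) (hf : f = 1 + 8 * c) :
    ∃ y t : S, 256 * y = e4 ^ 2 + 10 * e4 * f ^ 2 - 8 * e6 * f - 3 * f ^ 4 ∧ y = d + 2 * t := by
  have c2 : ∀ x y : S, 2 * x = 2 * y → x = y := by
    intro x y h
    have := h2 (x - y) (by linear_combination h)
    linear_combination this
  have c4 : ∀ x y : S, 4 * x = 4 * y → x = y := by
    intro x y h
    exact c2 _ _ (c2 _ _ (by linear_combination h))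
  have c16 : ∀ x y : S, 16 * x = 16 * y → x = y := by
    intro x y h
    exact c4 _ _ (c4 _ _ (by linear_combination h))
  subst h4 h6 hf
  set A : S := c + 4 * c ^ 2 - a with hA
  set B : S := 3 * c + 24 * c ^ 2 + 64 * c ^ 3 - b with hB
  set f : S := 1 + 8 * c with hf
  have R1 : f ^ 3 * (B - 3 * f * A) = 108 * d - 48 * f ^ 2 * A ^ 2 + 256 * A ^ 3 + 4 * B ^ 2 := by
    apply c16
    linear_combination hrel
  set c' : S := c * (3 + 24 * c + 64 * c ^ 2) with hc'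
  set C : S := 27 * d - 12 * f ^ 2 * A ^ 2 + 64 * A ^ 3 + B ^ 2 - 2 * c' * (B - 3 * f * A) with hC
  have R4 : 4 * C = B - 3 * f * A := by
    linear_combination (-1 : S) * R1
  have R2 : f ^ 3 * C = 27 * d - 3 * f ^ 2 * A ^ 2 + 64 * A ^ 3 + 16 * C ^ 2 + 24 * f * A * C := by
    apply c4
    linear_combination R1 + (f ^ 3 - 4 * (4 * C + 3 * f * A) - 4 * B) * R4
  refine ⟨A ^ 2 + f * C, 13 * d + 12 * f * A * C + 32 * A ^ 3 + 8 * C ^ 2 - f ^ 2 * A ^ 2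
    - (8 * c + 32 * c ^ 2) * (A ^ 2 + f * C), ?_, ?_⟩
  · linear_combination (64 * f) * R4
  · linear_combination R2

end Fermat.Agent.S16.CaseC1378
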