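import Fermat.Agent.S23.Stabilizer

/-!
# The weight 2 Eisenstein series of level `N` (helper3294)

`eisFun N z = N * E₂(N z) - E₂(z)` is a modular form of weight 2 on `Γ₀(N)`
(`eisForm N : ModularForm (Gamma0 N) 2`), with q-expansion
`(N - 1) + 24 * ∑_{m ≥ 1} (σ(m) - N σ(m/N) [N ∣ m]) q^m`;
for `N = p` prime the `m`-th coefficient (`m ≥ 1`) is `24 * ∑_{d ∣ m, p ∤ d} d`.
-/

set_option autoImplicit false

open UpperHalfPlane ModularForm CongruenceSubgroup EisensteinSeries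
open scoped MatrixGroups ModularForm Manifold

namespace Fermat.Agent.S16.Eis2

noncomputable section

/-- `N E₂(N z) - E₂(z)`. -/
def eisFun (N : ℕ) : ℍ → ℂ := E2 ∣[(2 : ℤ)] ModularForm.heckeDiagMatrix N - E2

lemma eisFun_apply (N : ℕ) [NeZero N] (z : ℍ) :
    eisFun N z = N * E2 (ModularForm.heckeDiagMatrix N • z) - E2 z := by
  simp [eisFun, ModularForm.slash_heckeDiagMatrix_apply 2 (NeZero.ne N)]

lemma SL_slash_eq (k : ℤ) (f : ℍ → ℂ) (γ : SL(2, ℤ)) :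
    f ∣[k] γ = f ∣[k] (Matrix.SpecialLinearGroup.mapGL ℝ γ) := rfl

lemma mapGL_apply (g : SL(2, ℤ)) (i j : Fin 2) :
    (Matrix.SpecialLinearGroup.mapGL ℝ g).1 i j = ((g.1 i j : ℤ) : ℝ) := rfl

/-- For `γ ∈ Γ₀(N)`: `diag(N,1) γ = γ' diag(N,1)` with `γ' ∈ SL(2,ℤ)` explicit. -/
lemma exists_conj (N : ℕ) [NeZero N] (γ : SL(2, ℤ)) (hγ : γ ∈ Gamma0 N) :
    ∃ γ' : SL(2, ℤ), γ.1 1 0 = N * γ'.1 1 0 ∧ γ'.1 1 1 = γ.1 1 1 ∧
      ModularForm.heckeDiagMatrix N * Matrix.SpecialLinearGroup.mapGL ℝ γ =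
        Matrix.SpecialLinearGroup.mapGL ℝ γ' * ModularForm.heckeDiagMatrix N := by
  have hN0 : N ≠ 0 := NeZero.ne N
  rw [CongruenceSubgroup.Gamma0_mem] at hγ
  obtain ⟨c', hc'⟩ := (ZMod.intCast_zmod_eq_zero_iff_dvd _ N).mp hγ
  have hdet : γ.1 0 0 * γ.1 1 1 - γ.1 0 1 * γ.1 1 0 = 1 := by
    have := γ.2
    rwa [Matrix.det_fin_two] at this
  let γ' : SL(2, ℤ) := ⟨!![γ.1 0 0, N * γ.1 0 1; c', γ.1 1 1], by
    rw [Matrix.det_fin_two_of]
    rw [hc'] at hdet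
    linarith⟩
  have h00 : γ'.1 0 0 = γ.1 0 0 := rfl
  have h01 : γ'.1 0 1 = N * γ.1 0 1 := rfl
  have h10 : γ'.1 1 0 = c' := rfl
  have h11 : γ'.1 1 1 = γ.1 1 1 := rfl
  refine ⟨γ', by rw [h10, hc'], h11, ?_⟩
  apply Matrix.GeneralLinearGroup.ext
  intro i j
  rw [Matrix.GeneralLinearGroup.coe_mul, Matrix.GeneralLinearGroup.coe_mul,
    ModularForm.val_heckeDiagMatrix hN0]
  simp only [Matrix.mul_apply, Fin.sum_univ_two, mapGL_apply]
  fin_cases i <;> fin_cases j <;>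
    simp [h00, h01, h10, h11, hc'] <;> ring

lemma denom_mapGL (γ : SL(2, ℤ)) (z : ℍ) :
    denom (Matrix.SpecialLinearGroup.mapGL ℝ γ) z = (γ.1 1 0 : ℂ) * z + (γ.1 1 1 : ℂ) := by
  simp [denom, mapGL_apply]

lemma D2_apply (γ : SL(2, ℤ)) (z : ℍ) :
    D2 γ z = 2 * Real.pi * Complex.I * (γ.1 1 0 : ℂ) / ((γ.1 1 0 : ℂ) * z + (γ.1 1 1 : ℂ)) := by
  rw [← denom_mapGL]
  rfl

/-- `D₂ γ' ∣[2] diag(N,1) = D₂ γ` when `diag(N,1) γ = γ' diag(N,1)`. -/
lemma D2_slash_heckeDiag (N : ℕ) [NeZero N] (γ γ' : SL(2, ℤ)) (h10 : γ.1 1 0 = N * γ'.1 1 0)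
    (h11 : γ'.1 1 1 = γ.1 1 1) :
    D2 γ' ∣[(2 : ℤ)] ModularForm.heckeDiagMatrix N = D2 γ := by
  ext z
  rw [ModularForm.slash_heckeDiagMatrix_apply 2 (NeZero.ne N), D2_apply, D2_apply,
    ModularForm.coe_heckeDiagMatrix_smul (NeZero.ne N), h10, h11]
  push_cast
  have hden : (γ'.1 1 0 : ℂ) * ((N : ℂ) * z) + (γ.1 1 1 : ℂ) =
      (N : ℂ) * (γ'.1 1 0 : ℂ) * z + (γ.1 1 1 : ℂ) := by ring
  rw [hden]
  norm_num
  ring

/-- `Γ₀(N)`-invariance of `N E₂(N z) - E₂(z)`. -/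
lemma eisFun_slash (N : ℕ) [NeZero N] (γ : SL(2, ℤ)) (hγ : γ ∈ Gamma0 N) :
    eisFun N ∣[(2 : ℤ)] (Matrix.SpecialLinearGroup.mapGL ℝ γ) = eisFun N := by
  obtain ⟨γ', h10, h11, hmat⟩ := exists_conj N γ hγ
  have h1 : (E2 ∣[(2 : ℤ)] ModularForm.heckeDiagMatrix N) ∣[(2 : ℤ)]
      (Matrix.SpecialLinearGroup.mapGL ℝ γ) =
      E2 ∣[(2 : ℤ)] ModularForm.heckeDiagMatrix N - (1 / (2 * riemannZeta 2)) • D2 γ := by
    rw [← SlashAction.slash_mul, hmat, SlashAction.slash_mul, ← SL_slash_eq, E2_slash_action,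
      sub_eq_add_neg, SlashAction.add_slash, SlashAction.neg_slash, ModularForm.smul_slash,
      D2_slash_heckeDiag N γ γ' h10 h11, ModularForm.σ_heckeDiagMatrix, ← sub_eq_add_neg]
    rfl
  have h2 : E2 ∣[(2 : ℤ)] (Matrix.SpecialLinearGroup.mapGL ℝ γ) =
      E2 - (1 / (2 * riemannZeta 2)) • D2 γ := by
    rw [← SL_slash_eq, E2_slash_action]
  rw [eisFun, sub_eq_add_neg, SlashAction.add_slash, SlashAction.neg_slash, h1, h2]
  abel

lemma isBoundedAtImInfty_D2 (g : SL(2, ℤ)) : IsBoundedAtImInfty (D2 g) := by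
  rw [UpperHalfPlane.isBoundedAtImInfty_iff]
  refine ⟨2 * Real.pi, 1, fun z hz => ?_⟩
  rw [D2_apply]
  by_cases hc : g.1 1 0 = 0
  · simp [hc]
    positivity
  · have hden : ‖(g.1 1 0 : ℂ)‖ ≤ ‖(g.1 1 0 : ℂ) * z + (g.1 1 1 : ℂ)‖ := by
      have him : ((g.1 1 0 : ℂ) * z + (g.1 1 1 : ℂ)).im = (g.1 1 0 : ℝ) * z.im := by simp
      calc ‖(g.1 1 0 : ℂ)‖ = |(g.1 1 0 : ℝ)| := by simp
        _ ≤ |(g.1 1 0 : ℝ)| * z.im := le_mul_of_one_le_right (abs_nonneg _) hz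
        _ = |((g.1 1 0 : ℂ) * z + (g.1 1 1 : ℂ)).im| := by
            rw [him, abs_mul, abs_of_pos z.im_pos]
        _ ≤ ‖(g.1 1 0 : ℂ) * z + (g.1 1 1 : ℂ)‖ := Complex.abs_im_le_norm _
    have hpos : 0 < ‖(g.1 1 0 : ℂ)‖ := by simpa using hc
    rw [norm_div, div_le_iff₀ (lt_of_lt_of_le hpos hden)]
    calc ‖2 * ↑Real.pi * Complex.I * (g.1 1 0 : ℂ)‖ = 2 * Real.pi * ‖(g.1 1 0 : ℂ)‖ := by
          simp [abs_of_pos Real.pi_pos]
      _ ≤ 2 * Real.pi * ‖(g.1 1 0 : ℂ) * z + (g.1 1 1 : ℂ)‖ := by gcongr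

lemma isBoundedAtImInfty_E2_slash (g : SL(2, ℤ)) : IsBoundedAtImInfty (E2 ∣[(2 : ℤ)] g) := by
  rw [E2_slash_action, sub_eq_add_neg]
  exact isBoundedAtImInfty_E2.add ((isBoundedAtImInfty_D2 g).const_smul_left _).neg_left

lemma isBoundedAtImInfty_eisFun_slash (N : ℕ) [NeZero N] (δ : SL(2, ℤ)) :
    IsBoundedAtImInfty (eisFun N ∣[(2 : ℤ)] δ) := by
  obtain ⟨g, β, a, d, ha, hd, had, hβ00, hβ10, hβ11, hmat, -⟩ :=
    Fermat.Agent.S23.Stabilizer.exists_hermite N δ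
  have h1 : (E2 ∣[(2 : ℤ)] ModularForm.heckeDiagMatrix N) ∣[(2 : ℤ)]
      (Matrix.SpecialLinearGroup.mapGL ℝ δ) = (E2 ∣[(2 : ℤ)] g) ∣[(2 : ℤ)] β := by
    rw [← SlashAction.slash_mul, hmat, SlashAction.slash_mul, ← SL_slash_eq]
  have h2 : eisFun N ∣[(2 : ℤ)] δ = (E2 ∣[(2 : ℤ)] g) ∣[(2 : ℤ)] β + -(E2 ∣[(2 : ℤ)] δ) := by
    rw [eisFun, sub_eq_add_neg, SL_slash_eq, SlashAction.add_slash, SlashAction.neg_slash, h1,
      ← SL_slash_eq]
  rw [h2]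
  exact ((isBoundedAtImInfty_E2_slash g).slash 2 hβ10).add (isBoundedAtImInfty_E2_slash δ).neg_left

/-- The weight 2 Eisenstein series `N E₂(N z) - E₂(z)` as a modular form on `Γ₀(N)`. -/
def eisForm (N : ℕ) [NeZero N] : ModularForm (Gamma0 N : Subgroup (GL (Fin 2) ℝ)) 2 where
  toFun := eisFun N
  slash_action_eq' := by
    rintro γ ⟨γ₀, hγ₀, rfl⟩
    exact eisFun_slash N γ₀ hγ₀
  holo' := (E2_mdifferentiable.slash 2 _).sub E2_mdifferentiable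
  bdd_at_cusps' := by
    intro c hc
    have hc' : IsCusp c 𝒮ℒ := hc.mono (by rintro _ ⟨γ, -, rfl⟩; exact ⟨γ, rfl⟩)
    rw [OnePoint.isBoundedAt_iff_forall_SL2Z hc']
    intro γ _
    exact isBoundedAtImInfty_eisFun_slash N γ

@[simp] lemma coe_eisForm (N : ℕ) [NeZero N] : ⇑(eisForm N) = eisFun N := rfl

/-- The q-expansion coefficients of `E₂`. -/
def e2Coeff (m : ℕ) : ℂ := if m = 0 then 1 else -24 * (ArithmeticFunction.sigma 1 m : ℂ)

/-- The q-expansion coefficients of `N E₂(N z) - E₂(z)`. -/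
def eisCoeff (N : ℕ) (m : ℕ) : ℂ :=
  (if N ∣ m then (N : ℂ) * e2Coeff (m / N) else 0) - e2Coeff m

lemma hasSum_E2 (z : ℍ) :
    HasSum (fun m : ℕ => e2Coeff m • Function.Periodic.qParam 1 (z : ℂ) ^ m) (E2 z) := by
  have h := hasSum_qExpansion_E2 z
  have hq : Function.Periodic.qParam 1 (z : ℂ) = Complex.exp (2 * Real.pi * Complex.I * z) := by
    simp [Function.Periodic.qParam]
  rw [hq]
  exact h

lemma qParam_heckeDiag (N : ℕ) [NeZero N] (τ : ℍ) :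
    Function.Periodic.qParam 1 ((ModularForm.heckeDiagMatrix N • τ : ℍ) : ℂ) =
      Function.Periodic.qParam 1 (τ : ℂ) ^ N := by
  rw [ModularForm.coe_heckeDiagMatrix_smul (NeZero.ne N)]
  simp only [Function.Periodic.qParam, ← Complex.exp_nat_mul]
  congr 1
  push_cast
  ring

lemma hasSum_eisFun (N : ℕ) [NeZero N] (z : ℍ) :
    HasSum (fun m : ℕ => eisCoeff N m • Function.Periodic.qParam 1 (z : ℂ) ^ m) (eisFun N z) := by
  have hN0 : N ≠ 0 := NeZero.ne N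
  have h1 := hasSum_E2 (ModularForm.heckeDiagMatrix N • z)
  rw [qParam_heckeDiag] at h1
  have h2 := h1.mul_left (N : ℂ)
  have hinj : Function.Injective (fun m : ℕ => N * m) :=
    fun a b h => Nat.eq_of_mul_eq_mul_left (Nat.pos_of_ne_zero hN0) h
  have key : ((fun m : ℕ => (if N ∣ m then (N : ℂ) * e2Coeff (m / N) else 0) •
          Function.Periodic.qParam 1 (z : ℂ) ^ m) ∘ fun m : ℕ => N * m) =
      fun i : ℕ => (N : ℂ) * (e2Coeff i • (Function.Periodic.qParam 1 (z : ℂ) ^ N) ^ i) := by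
    funext m
    simp only [Function.comp_apply, dvd_mul_right, if_true,
      Nat.mul_div_cancel_left m (Nat.pos_of_ne_zero hN0), smul_eq_mul, pow_mul]
    ring
  have h3 : HasSum (fun m : ℕ => (if N ∣ m then (N : ℂ) * e2Coeff (m / N) else 0) •
      Function.Periodic.qParam 1 (z : ℂ) ^ m)
      ((N : ℂ) * E2 (ModularForm.heckeDiagMatrix N • z)) := by
    rw [← hinj.hasSum_iff, key]
    · exact h2
    · intro x hx
      have : ¬ N ∣ x := fun ⟨k, hk⟩ => hx ⟨k, hk.symm⟩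
      simp [this]
  have h4 := h3.sub (hasSum_E2 z)
  have key2 : (fun m : ℕ => eisCoeff N m • Function.Periodic.qParam 1 (z : ℂ) ^ m) =
      fun b : ℕ => (if N ∣ b then (N : ℂ) * e2Coeff (b / N) else 0) •
        Function.Periodic.qParam 1 (z : ℂ) ^ b - e2Coeff b • Function.Periodic.qParam 1 (z : ℂ) ^ b := by
    funext m
    simp only [eisCoeff, sub_smul]
  rw [eisFun_apply, key2]
  exact h4

/-- The q-expansion of the level `N` weight 2 Eisenstein series. -/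
theorem qExpansion_eisForm_coeff (N : ℕ) [NeZero N] (m : ℕ) :
    (qExpansion 1 (eisForm N)).coeff m = eisCoeff N m := by
  have hΓ : (1 : ℝ) ∈ (Gamma0 N : Subgroup (GL (Fin 2) ℝ)).strictPeriods := by simp
  exact (ModularFormClass.qExpansion_coeff_unique (f := eisForm N) one_pos hΓ
    (c := eisCoeff N) (fun τ => hasSum_eisFun N τ) m).symm

lemma eisCoeff_zero (N : ℕ) [NeZero N] : eisCoeff N 0 = (N : ℂ) - 1 := by
  simp [eisCoeff, e2Coeff]

lemma eisCoeff_of_ne_zero (N : ℕ) [NeZero N] {m : ℕ} (hm : m ≠ 0) :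
    eisCoeff N m = 24 * ((ArithmeticFunction.sigma 1 m : ℂ) -
      (if N ∣ m then (N : ℂ) * (ArithmeticFunction.sigma 1 (m / N) : ℂ) else 0)) := by
  have hN0 : N ≠ 0 := NeZero.ne N
  by_cases hd : N ∣ m
  · have hq : m / N ≠ 0 := by
      obtain ⟨k, rfl⟩ := hd
      rw [Nat.mul_div_cancel_left k (Nat.pos_of_ne_zero hN0)]
      rintro rfl
      exact hm (by simp)
    simp only [eisCoeff, e2Coeff, hd, if_true, hm, hq, if_false]
    ring
  · simp only [eisCoeff, e2Coeff, hd, if_false, hm]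
    ring

/-- For `p` prime: `σ(m) - p σ(m/p) [p ∣ m]` is the sum of the divisors of `m` prime to `p`. -/
lemma sigma_sub_eq_sum_filter {p : ℕ} (hp : p.Prime) {m : ℕ} (hm : m ≠ 0) :
    ((ArithmeticFunction.sigma 1 m : ℕ) : ℤ) -
      (if p ∣ m then (p : ℤ) * (ArithmeticFunction.sigma 1 (m / p) : ℕ) else 0) =
      ∑ d ∈ m.divisors.filter (fun d => ¬ p ∣ d), (d : ℤ) := by
  have hsplit : (∑ d ∈ m.divisors, (d : ℤ)) =
      ∑ d ∈ m.divisors.filter (fun d => p ∣ d), (d : ℤ) +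
        ∑ d ∈ m.divisors.filter (fun d => ¬ p ∣ d), (d : ℤ) :=
    (Finset.sum_filter_add_sum_filter_not _ _ _).symm
  have hsig : ((ArithmeticFunction.sigma 1 m : ℕ) : ℤ) = ∑ d ∈ m.divisors, (d : ℤ) := by
    rw [ArithmeticFunction.sigma_one_apply]
    push_cast
    rfl
  rw [hsig, hsplit]
  by_cases hd : p ∣ m
  · obtain ⟨k, rfl⟩ := hd
    have hk : k ≠ 0 := by rintro rfl; exact hm (by simp)
    rw [if_pos (dvd_mul_right p k), Nat.mul_div_cancel_left k hp.pos,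
      ArithmeticFunction.sigma_one_apply]
    have himg : (p * k).divisors.filter (fun d => p ∣ d) = k.divisors.image (fun d => p * d) := by
      ext d
      simp only [Finset.mem_filter, Nat.mem_divisors, Finset.mem_image]
      constructor
      · rintro ⟨⟨hdk, -⟩, e, rfl⟩
        exact ⟨e, ⟨(Nat.mul_dvd_mul_iff_left hp.pos).mp hdk, hk⟩, rfl⟩
      · rintro ⟨e, ⟨hek, -⟩, rfl⟩
        exact ⟨⟨Nat.mul_dvd_mul_left p hek, Nat.mul_ne_zero hp.ne_zero hk⟩, dvd_mul_right p e⟩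
    rw [himg, Finset.sum_image (fun a _ b _ h => Nat.eq_of_mul_eq_mul_left hp.pos h)]
    push_cast
    rw [Finset.mul_sum]
    ring
  · rw [if_neg hd]
    have hempty : m.divisors.filter (fun d => p ∣ d) = ∅ := by
      ext d
      simp only [Finset.mem_filter, Nat.mem_divisors, Finset.notMem_empty, iff_false]
      rintro ⟨⟨hdm, -⟩, hpd⟩
      exact hd (hpd.trans hdm)
    rw [hempty]
    simp

/-- The sum of the divisors of `m` prime to `p` (the Eisenstein eigenvalue of `T_m` at level `p`). -/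
def sigmaP (p m : ℕ) : ℤ := ∑ d ∈ m.divisors.filter (fun d => ¬ p ∣ d), (d : ℤ)

theorem eisCoeff_prime {p : ℕ} [Fact p.Prime] {m : ℕ} (hm : m ≠ 0) :
    eisCoeff p m = 24 * (sigmaP p m : ℂ) := by
  have : NeZero p := ⟨(Fact.out : p.Prime).ne_zero⟩
  rw [eisCoeff_of_ne_zero p hm, sigmaP, ← sigma_sub_eq_sum_filter (Fact.out : p.Prime) hm]
  congr 1
  split_ifs <;> push_cast <;> ring

end

end Fermat.Agent.S16.Eis2
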