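import Mathlib
import Fermat.Prelude.Def_ModularForm_HeckeOperatorForms
import Fermat.Prelude.Thm_ModularFormClass_qCoeff_heckeT
import Fermat.Prelude.Thm_ModularForm_sturm_bound_Gamma0
import Fermat.Prelude.Thm_CongruenceSubgroup_one_mem_strictPeriods_Gamma0

/-!
# S16, package (A): the "Hecke trick"

No modular form `F` of weight 2 on `Γ₀(p)` with integral `q`-expansion is congruent to an
`ℓ`-adic unit constant modulo `ℓ^e` as soon as `v_ℓ(r² - 1) < e` for some auxiliary prime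
`r ∉ {p, ℓ}` (given one integral form `G` of level `p` which is not constant mod `ℓ`).
Consequences: `ℓ ≥ 5` (`r = 2`, `e = 1`), mod `9` (`r = 2`), mod `16` (`r = 3`).

Part 1 (`core`) is pure algebra on integer sequences; Part 2 instantiates it with the Prelude
Hecke operators `ModularForm.heckeTLin`, their `q`-coefficient formula and the Sturm bound.
-/

set_option autoImplicit false

open UpperHalfPlane CongruenceSubgroup
open scoped MatrixGroups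

namespace Fermat.Agent.S16.HeckeTrick6016

/-- Formal Hecke operator `T_r` (with `r^m`, `m = k - 1`) on integer coefficient sequences. -/
def heckeSeq (r m : ℕ) (a : ℕ → ℤ) : ℕ → ℤ :=
  fun n => a (n * r) + if r ∣ n then (r : ℤ) ^ m * a (n / r) else 0

/-- Formal `V_r^j` on integer coefficient sequences. -/
def vSeq (r j : ℕ) (g : ℕ → ℤ) : ℕ → ℤ :=
  fun n => if r ^ j ∣ n then g (n / r ^ j) else 0

theorem vSeq_zero (r : ℕ) (g : ℕ → ℤ) : vSeq r 0 g = g := by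
  funext n; simp [vSeq]

theorem heckeSeq_vSeq_succ {r : ℕ} (hr : 0 < r) (m j : ℕ) (g : ℕ → ℤ) (n : ℕ) :
    heckeSeq r m (vSeq r (j + 1) g) n = vSeq r j g n + (r : ℤ) ^ m * vSeq r (j + 2) g n := by
  unfold heckeSeq vSeq
  have h1 : (r ^ (j + 1) ∣ n * r) ↔ r ^ j ∣ n := by
    rw [pow_succ]; exact Nat.mul_dvd_mul_iff_right hr
  have h2 : n * r / r ^ (j + 1) = n / r ^ j := by
    rw [pow_succ]; exact Nat.mul_div_mul_right _ _ hr
  have h3 : (r ∣ n ∧ r ^ (j + 1) ∣ n / r) ↔ r ^ (j + 2) ∣ n := by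
    constructor
    · rintro ⟨⟨c, rfl⟩, h⟩
      rw [Nat.mul_div_cancel_left _ hr] at h
      rw [pow_succ, mul_comm]; exact Nat.mul_dvd_mul_left r h
    · intro h
      have hrn : r ∣ n := dvd_trans (dvd_pow_self r (by omega)) h
      refine ⟨hrn, ?_⟩
      obtain ⟨c, rfl⟩ := hrn
      rw [Nat.mul_div_cancel_left _ hr]
      rw [pow_succ, mul_comm] at h
      exact (Nat.mul_dvd_mul_iff_left hr).mp h
  have h4 : n / r / r ^ (j + 1) = n / r ^ (j + 2) := by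
    rw [Nat.div_div_eq_div_mul, pow_succ r (j + 1), mul_comm]
  by_cases hrn : r ∣ n
  · by_cases hj : r ^ (j + 1) ∣ n / r
    · have hj2 : r ^ (j + 2) ∣ n := h3.mp ⟨hrn, hj⟩
      have hj0 : r ^ j ∣ n := dvd_trans (pow_dvd_pow r (by omega)) hj2
      simp [h1, h2, hrn, hj, hj2, hj0, h4]
    · have hj2 : ¬ r ^ (j + 2) ∣ n := fun h => hj (h3.mpr h).2
      simp [h1, h2, hrn, hj, hj2]
  · have hj2 : ¬ r ^ (j + 2) ∣ n := fun h => hrn (h3.mpr h).1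
    simp [h1, h2, hrn, hj2]

section Core

variable {ℓ : ℕ} [Fact ℓ.Prime] {r m : ℕ}

/-- The family `Φ_j ≡ u_j V_r^j g (mod ℓ)` inside a `T_r`-stable group of sequences. -/
theorem exists_family (hr : 0 < r) (hrℓ : ((r : ℤ) : ZMod ℓ) ≠ 0)
    (M : AddSubgroup (ℕ → ℤ)) (hT : ∀ a ∈ M, heckeSeq r m a ∈ M) (g : ℕ → ℤ)
    (Φ₀ Φ₁ : ℕ → ℤ) (h₀ : Φ₀ ∈ M) (h₁ : Φ₁ ∈ M) (u₀ u₁ : ℤ)
    (hu₀ : ((u₀ : ℤ) : ZMod ℓ) ≠ 0) (hu₁ : ((u₁ : ℤ) : ZMod ℓ) ≠ 0)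
    (hc₀ : ∀ n, ((Φ₀ n : ℤ) : ZMod ℓ) = (u₀ : ZMod ℓ) * ((g n : ℤ) : ZMod ℓ))
    (hc₁ : ∀ n, ((Φ₁ n : ℤ) : ZMod ℓ) = (u₁ : ZMod ℓ) * ((vSeq r 1 g n : ℤ) : ZMod ℓ)) (j : ℕ) :
    (∃ Φ ∈ M, ∃ u : ℤ, ((u : ℤ) : ZMod ℓ) ≠ 0 ∧
        ∀ n, ((Φ n : ℤ) : ZMod ℓ) = (u : ZMod ℓ) * ((vSeq r j g n : ℤ) : ZMod ℓ)) ∧
    (∃ Φ ∈ M, ∃ u : ℤ, ((u : ℤ) : ZMod ℓ) ≠ 0 ∧
        ∀ n, ((Φ n : ℤ) : ZMod ℓ) = (u : ZMod ℓ) * ((vSeq r (j + 1) g n : ℤ) : ZMod ℓ)) := by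
  induction j with
  | zero =>
    exact ⟨⟨Φ₀, h₀, u₀, hu₀, by simpa [vSeq_zero] using hc₀⟩, ⟨Φ₁, h₁, u₁, hu₁, hc₁⟩⟩
  | succ j ih =>
    obtain ⟨⟨Φa, hΦa, ua, hua, hca⟩, ⟨Φb, hΦb, ub, hub, hcb⟩⟩ := ih
    refine ⟨⟨Φb, hΦb, ub, hub, hcb⟩, ?_⟩
    refine ⟨ua • heckeSeq r m Φb - ub • Φa,
      M.sub_mem (M.zsmul_mem (hT _ hΦb) _) (M.zsmul_mem hΦa _), ua * ub * (r : ℤ) ^ m, ?_, ?_⟩
    · push_cast
      exact mul_ne_zero (mul_ne_zero hua hub) (pow_ne_zero _ (by simpa using hrℓ))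
    · intro n
      have key := heckeSeq_vSeq_succ hr m j g n
      have hk : ((heckeSeq r m Φb n : ℤ) : ZMod ℓ)
          = (ub : ZMod ℓ) * ((heckeSeq r m (vSeq r (j + 1) g) n : ℤ) : ZMod ℓ) := by
        unfold heckeSeq
        by_cases hrn : r ∣ n
        · simp only [hrn, if_true]
          push_cast
          rw [hcb, hcb]; ring
        · simp only [hrn, if_false, add_zero]
          rw [hcb]
      simp only [Pi.sub_apply, Pi.smul_apply, smul_eq_mul]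
      push_cast
      rw [hk, key, hca]
      push_cast
      ring

/-- **Core of the Hecke trick.**  A `T_r`-stable group of integer sequences which is
determined by the first `B + 1` coefficients cannot contain `Φ₀ ≡ u₀ g` and `Φ₁ ≡ u₁ V_r g`
(mod `ℓ`, `u₀ u₁` units) if `g` is not constant mod `ℓ` in positive degrees. -/
theorem core (hr : 2 ≤ r) (hrℓ : ((r : ℤ) : ZMod ℓ) ≠ 0) (B : ℕ)
    (M : AddSubgroup (ℕ → ℤ)) (hT : ∀ a ∈ M, heckeSeq r m a ∈ M)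
    (hSturm : ∀ a ∈ M, (∀ n ≤ B, a n = 0) → a = 0)
    (g : ℕ → ℤ) (hg : ∃ n, 1 ≤ n ∧ ((g n : ℤ) : ZMod ℓ) ≠ 0)
    (Φ₀ Φ₁ : ℕ → ℤ) (h₀ : Φ₀ ∈ M) (h₁ : Φ₁ ∈ M) (u₀ u₁ : ℤ)
    (hu₀ : ((u₀ : ℤ) : ZMod ℓ) ≠ 0) (hu₁ : ((u₁ : ℤ) : ZMod ℓ) ≠ 0)
    (hc₀ : ∀ n, ((Φ₀ n : ℤ) : ZMod ℓ) = (u₀ : ZMod ℓ) * ((g n : ℤ) : ZMod ℓ))
    (hc₁ : ∀ n, ((Φ₁ n : ℤ) : ZMod ℓ) = (u₁ : ZMod ℓ) * ((vSeq r 1 g n : ℤ) : ZMod ℓ)) :
    False := by
  classical
  have hr0 : 0 < r := by omega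
  have fam := fun j => (exists_family hr0 hrℓ M hT g Φ₀ Φ₁ h₀ h₁ u₀ u₁ hu₀ hu₁ hc₀ hc₁ j).1
  choose Φ hΦM u hu hcong using fam
  -- linear dependence of `B + 2` vectors in `ℤ^(B+1)`
  let w : Fin (B + 2) → (Fin (B + 1) → ℤ) := fun j i => Φ j i
  have hdep : ¬ LinearIndependent ℤ w := by
    intro hli
    have := hli.fintype_card_le_finrank
    simp at this
  obtain ⟨c, hc, j₁, hj₁⟩ := Fintype.not_linearIndependent_iff.mp hdep
  obtain ⟨c', hc', hgcd⟩ := Finset.extract_gcd c (Finset.univ_nonempty (α := Fin (B + 2)))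
  set d := (Finset.univ : Finset (Fin (B + 2))).gcd c with hd
  have hd0 : d ≠ 0 := by
    intro h0
    rw [hd, Finset.gcd_eq_zero_iff] at h0
    exact hj₁ (h0 j₁ (Finset.mem_univ _))
  have hrel : ∑ j, c' j • w j = 0 := by
    have h1 : d • ∑ j, c' j • w j = 0 := by
      rw [Finset.smul_sum, ← hc]
      refine Finset.sum_congr rfl fun j _ => ?_
      rw [hc' j (Finset.mem_univ _), mul_smul]
    exact (smul_eq_zero.mp h1).resolve_left hd0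
  -- the combination vanishes identically by the Sturm hypothesis
  have hΨM : (∑ j : Fin (B + 2), c' j • Φ j) ∈ M :=
    M.sum_mem fun j _ => M.zsmul_mem (hΦM j) _
  have hΨ0 : (∑ j : Fin (B + 2), c' j • Φ j) = 0 := by
    refine hSturm _ hΨM fun n hn => ?_
    have := congrFun hrel ⟨n, by omega⟩
    simpa [w, Finset.sum_apply] using this
  -- not all `c'` vanish mod `ℓ`
  have hex : ∃ k, ∃ h : k < B + 2, ((c' ⟨k, h⟩ : ℤ) : ZMod ℓ) ≠ 0 := by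
    by_contra hall
    push Not at hall
    have hdvd : (ℓ : ℤ) ∣ (Finset.univ : Finset (Fin (B + 2))).gcd c' := by
      refine Finset.dvd_gcd fun j _ => ?_
      have := hall j.1 j.2
      exact (ZMod.intCast_zmod_eq_zero_iff_dvd _ _).mp this
    rw [hgcd] at hdvd
    have hℓ := (Fact.out : ℓ.Prime)
    have : (ℓ : ℤ) = 1 ∨ (ℓ : ℤ) = -1 := Int.isUnit_iff.mp (isUnit_of_dvd_one hdvd)
    have h2 := hℓ.two_le
    omega
  let k₀ := Nat.find hex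
  obtain ⟨hk₀, hck₀⟩ := Nat.find_spec hex
  let ν := Nat.find hg
  obtain ⟨hν1, hgν⟩ := Nat.find_spec hg
  -- evaluate at `N = r^k₀ * ν`
  have hN := congrFun hΨ0 (r ^ k₀ * ν)
  simp only [Finset.sum_apply, Pi.smul_apply, smul_eq_mul, Pi.zero_apply] at hN
  have hN' := congrArg (Int.cast : ℤ → ZMod ℓ) hN
  push_cast at hN'
  have hrpos : ∀ t, 0 < r ^ t := fun t => pow_pos hr0 t
  have hsingle : ∑ j : Fin (B + 2), ((c' j : ℤ) : ZMod ℓ) * ((Φ j (r ^ k₀ * ν) : ℤ) : ZMod ℓ)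
      = ((c' ⟨k₀, hk₀⟩ : ℤ) : ZMod ℓ) * ((Φ (⟨k₀, hk₀⟩ : Fin (B + 2)) (r ^ k₀ * ν) : ℤ) : ZMod ℓ) := by
    refine Finset.sum_eq_single (⟨k₀, hk₀⟩ : Fin (B + 2)) (fun j _ hj => ?_) (fun h => absurd (Finset.mem_univ _) h)
    rcases lt_or_gt_of_ne (fun h => hj (Fin.ext h) : (j : ℕ) ≠ k₀) with hlt | hgt
    · have := Nat.find_min hex hlt
      push Not at this
      rw [this j.2, zero_mul]
    · rw [hcong]
      have : ((vSeq r j g (r ^ k₀ * ν) : ℤ) : ZMod ℓ) = 0 := by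
        unfold vSeq
        split_ifs with hdv
        · obtain ⟨t, ht⟩ : ∃ t, (j : ℕ) = k₀ + t := ⟨j - k₀, by omega⟩
          have ht1 : 1 ≤ t := by omega
          rw [ht, pow_add] at hdv ⊢
          have hdv' : r ^ t ∣ ν := (Nat.mul_dvd_mul_iff_left (hrpos k₀)).mp hdv
          rw [Nat.mul_div_mul_left _ _ (hrpos k₀)]
          have hlt : ν / r ^ t < ν := by
            apply Nat.div_lt_self (by omega)
            calc 1 < r := by omega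
              _ = r ^ 1 := (pow_one r).symm
              _ ≤ r ^ t := Nat.pow_le_pow_right hr0 ht1
          have hpos : 1 ≤ ν / r ^ t := Nat.div_pos (Nat.le_of_dvd (by omega) hdv') (hrpos t)
          have := Nat.find_min hg hlt
          push Not at this
          exact this hpos
        · simp
      rw [this]; ring
  rw [hsingle, hcong] at hN'
  have hv : vSeq r k₀ g (r ^ k₀ * ν) = g ν := by
    unfold vSeq
    rw [if_pos (dvd_mul_right _ _), Nat.mul_div_cancel_left _ (hrpos k₀)]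
  rw [hv] at hN'
  exact mul_ne_zero hck₀ (mul_ne_zero (hu _) hgν) hN'

end Core



variable {N : ℕ}

/-- `f` has integer `q`-expansion coefficients given by the sequence `a`. -/
def HasCoeffs {k : ℤ} (f : ModularForm (Gamma0 N) k) (a : ℕ → ℤ) : Prop :=
  ∀ n, (qExpansion 1 f).coeff n = (a n : ℂ)

theorem hΓ (N : ℕ) : (1 : ℝ) ∈ ((Gamma0 N : Subgroup SL(2, ℤ)) : Subgroup (GL (Fin 2) ℝ)).strictPeriods :=
  CongruenceSubgroup.one_mem_strictPeriods_Gamma0 N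

theorem HasCoeffs.zero {k : ℤ} : HasCoeffs (0 : ModularForm (Gamma0 N) k) 0 := by
  intro n
  have : qExpansion 1 (⇑(0 : ModularForm (Gamma0 N) k)) = 0 := by
    rw [FunLike.coe_zero]; exact qExpansion_zero 1
  rw [this]; simp

theorem HasCoeffs.add {k : ℤ} {f g : ModularForm (Gamma0 N) k} {a b : ℕ → ℤ}
    (hf : HasCoeffs f a) (hg : HasCoeffs g b) : HasCoeffs (f + g) (a + b) := by
  intro n
  have : qExpansion 1 (⇑(f + g)) = qExpansion 1 f + qExpansion 1 g := by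
    rw [FunLike.coe_add]; exact ModularForm.qExpansion_add one_pos (hΓ N) f g
  rw [this, map_add, hf n, hg n]; simp

theorem HasCoeffs.neg {k : ℤ} {f : ModularForm (Gamma0 N) k} {a : ℕ → ℤ}
    (hf : HasCoeffs f a) : HasCoeffs (-f) (-a) := by
  intro n
  have : qExpansion 1 (⇑(-f)) = -qExpansion 1 f := by
    rw [FunLike.coe_neg]; exact ModularForm.qExpansion_neg one_pos (hΓ N) f
  rw [this, map_neg, hf n]; simp

theorem HasCoeffs.sub {k : ℤ} {f g : ModularForm (Gamma0 N) k} {a b : ℕ → ℤ}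
    (hf : HasCoeffs f a) (hg : HasCoeffs g b) : HasCoeffs (f - g) (a - b) := by
  rw [sub_eq_add_neg, sub_eq_add_neg]; exact hf.add hg.neg

theorem HasCoeffs.smul {k : ℤ} {f : ModularForm (Gamma0 N) k} {a : ℕ → ℤ}
    (hf : HasCoeffs f a) (c : ℂ) (b : ℕ → ℤ) (hb : ∀ n, c * (a n : ℂ) = (b n : ℂ)) :
    HasCoeffs (c • f) b := by
  intro n
  have : qExpansion 1 (⇑(c • f)) = c • qExpansion 1 f := by
    rw [FunLike.coe_smul]; exact ModularForm.qExpansion_smul one_pos (hΓ N) c f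
  rw [this, map_smul, hf n, smul_eq_mul, hb n]

/-- Cauchy product of integer sequences. -/
def conv (a b : ℕ → ℤ) : ℕ → ℤ :=
  fun n => ∑ x ∈ Finset.HasAntidiagonal.antidiagonal n, a x.1 * b x.2

theorem HasCoeffs.mul {k₁ k₂ : ℤ} {f : ModularForm (Gamma0 N) k₁} {g : ModularForm (Gamma0 N) k₂}
    {a b : ℕ → ℤ} (hf : HasCoeffs f a) (hg : HasCoeffs g b) : HasCoeffs (f.mul g) (conv a b) := by
  intro n
  rw [ModularForm.qExpansion_mul one_pos (hΓ N) f g, PowerSeries.coeff_mul]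
  simp only [conv]
  push_cast
  exact Finset.sum_congr rfl fun x _ => by rw [hf, hg]

theorem HasCoeffs.heckeT {k : ℤ} {m : ℕ} (hk : k - 1 = m) {r : ℕ} (hr : r.Prime) (hrN : ¬ r ∣ N)
    {f : ModularForm (Gamma0 N) k} {a : ℕ → ℤ} (hf : HasCoeffs f a) :
    HasCoeffs (ModularForm.heckeTLin k hr hrN f) (heckeSeq r m a) := by
  intro n
  have h1 := ModularFormClass.qCoeff_heckeT (k := k) f (hΓ N) hr.ne_zero n
  rw [ModularFormClass.qCoeff, ModularForm.coeffHeckeT_apply] at h1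
  rw [ModularForm.coe_heckeTLin_apply, h1, ModularFormClass.qCoeff, ModularFormClass.qCoeff,
    hf (n * r), hf (n / r), hk, zpow_natCast]
  simp only [heckeSeq]
  split_ifs <;> push_cast <;> rfl

theorem HasCoeffs.eq_zero_of_sturm [NeZero N] {k : ℤ} {f : ModularForm (Gamma0 N) k} {a : ℕ → ℤ}
    (hf : HasCoeffs f a) (h : ∀ n ≤ (k * (Gamma0 N).index).toNat / 12, a n = 0) : a = 0 := by
  have hf0 : f = 0 := ModularForm.sturm_bound_Gamma0 N f fun n hn => by rw [hf n, h n hn]; simp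
  funext n
  have := hf n
  rw [hf0] at this
  have h0 : qExpansion 1 (⇑(0 : ModularForm (Gamma0 N) k)) = 0 := by
    rw [FunLike.coe_zero]; exact qExpansion_zero 1
  rw [h0] at this
  simpa using this.symm


/-- The group of coefficient sequences of integral weight-`k` forms on `Γ₀(N)`. -/
def seqGroup (N : ℕ) (k : ℤ) : AddSubgroup (ℕ → ℤ) where
  carrier := {a | ∃ f : ModularForm (Gamma0 N) k, HasCoeffs f a}
  zero_mem' := ⟨0, HasCoeffs.zero⟩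
  add_mem' := by rintro a b ⟨f, hf⟩ ⟨g, hg⟩; exact ⟨f + g, hf.add hg⟩
  neg_mem' := by rintro a ⟨f, hf⟩; exact ⟨-f, hf.neg⟩

theorem conv_sub_dvd {a g : ℕ → ℤ} {D : ℤ} (ha : ∀ i, 1 ≤ i → D ∣ a i) (n : ℕ) :
    D ∣ conv a g n - a 0 * g n := by
  unfold conv
  rw [Finset.Nat.sum_antidiagonal_eq_sum_range_succ (fun i j => a i * g j) n,
    Finset.sum_range_succ']
  simp only [Nat.sub_zero]
  rw [add_sub_cancel_right]
  exact Finset.dvd_sum fun i _ => Dvd.dvd.mul_right (ha (i + 1) (by omega)) _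

theorem key_cong {a g : ℕ → ℤ} {D : ℤ} (ha : ∀ i, 1 ≤ i → D ∣ a i) (r w : ℕ) (n : ℕ) :
    D ∣ (heckeSeq r (w + 2) (conv a g) n - conv a (heckeSeq r w g) n)
        - a 0 * ((r : ℤ) ^ w * ((r : ℤ) ^ 2 - 1)) * (if r ∣ n then g (n / r) else 0) := by
  have h1 := conv_sub_dvd ha (g := g) (n * r)
  have h2 := conv_sub_dvd ha (g := g) (n / r)
  have h3 := conv_sub_dvd ha (g := heckeSeq r w g) n
  by_cases hrn : r ∣ n
  · have e : (heckeSeq r (w + 2) (conv a g) n - conv a (heckeSeq r w g) n)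
        - a 0 * ((r : ℤ) ^ w * ((r : ℤ) ^ 2 - 1)) * (if r ∣ n then g (n / r) else 0)
        = (conv a g (n * r) - a 0 * g (n * r)) + (r : ℤ) ^ (w + 2) * (conv a g (n / r) - a 0 * g (n / r))
          - (conv a (heckeSeq r w g) n - a 0 * heckeSeq r w g n) := by
      simp only [heckeSeq, if_pos hrn]; ring
    rw [e]
    exact dvd_sub (dvd_add h1 (Dvd.dvd.mul_left h2 _)) h3
  · have e : (heckeSeq r (w + 2) (conv a g) n - conv a (heckeSeq r w g) n)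
        - a 0 * ((r : ℤ) ^ w * ((r : ℤ) ^ 2 - 1)) * (if r ∣ n then g (n / r) else 0)
        = (conv a g (n * r) - a 0 * g (n * r))
          - (conv a (heckeSeq r w g) n - a 0 * heckeSeq r w g n) := by
      simp only [heckeSeq, if_neg hrn]; ring
    rw [e]
    exact dvd_sub h1 h3

/-- **Hecke trick (A).**  Let `F` be a weight-2 form on `Γ₀(p)` with integer `q`-coefficients
`a`, with `ℓ ∤ a 0` and `ℓ^e ∣ a n` for all `n ≥ 1`, where `v_ℓ(r² - 1) < e` for a prime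
`r ∉ {p, ℓ}`.  Then there is no form `G` of level `p` and weight `w + 1 ≥ 1` with integer
coefficients `g` which is non-constant mod `ℓ` (some `g n`, `n ≥ 1`, prime to `ℓ`). -/
theorem no_unit_congruence (p : ℕ) [Fact p.Prime] {ℓ r e w : ℕ} (hℓ : ℓ.Prime) (hr : r.Prime)
    (hrp : r ≠ p) (hrℓ : r ≠ ℓ) (he : ¬ ℓ ^ e ∣ r ^ 2 - 1)
    (F : ModularForm (Gamma0 p) 2) (a : ℕ → ℤ) (hF : HasCoeffs F a) (hc : ¬ (ℓ : ℤ) ∣ a 0)
    (ha : ∀ n, 1 ≤ n → (ℓ : ℤ) ^ e ∣ a n)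
    (G : ModularForm (Gamma0 p) ((w : ℤ) + 1)) (g : ℕ → ℤ) (hG : HasCoeffs G g)
    (hg : ∃ n, 1 ≤ n ∧ ¬ (ℓ : ℤ) ∣ g n) : False := by
  have : Fact ℓ.Prime := ⟨hℓ⟩
  have : NeZero p := ⟨(Fact.out : p.Prime).ne_zero⟩
  have hℓ0 : (ℓ : ℤ) ≠ 0 := by exact_mod_cast hℓ.ne_zero
  have hrp' : ¬ r ∣ p := fun h => hrp ((Nat.prime_dvd_prime_iff_eq hr Fact.out).mp h)
  -- the forms
  have hFG : HasCoeffs (F.mul G) (conv a g) := hF.mul hG
  have hTG : HasCoeffs (ModularForm.heckeTLin ((w : ℤ) + 1) hr hrp' G) (heckeSeq r w g) :=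
    hG.heckeT (by ring) hr hrp'
  have hk : (2 + ((w : ℤ) + 1)) - 1 = ((w + 2 : ℕ) : ℤ) := by push_cast; ring
  have hTFG : HasCoeffs (ModularForm.heckeTLin (2 + ((w : ℤ) + 1)) hr hrp' (F.mul G))
      (heckeSeq r (w + 2) (conv a g)) := hFG.heckeT hk hr hrp'
  have hΨ := hTFG.sub (hF.mul hTG)
  -- `r² - 1 = ℓ^v * s`
  have hr2 : r ^ 2 - 1 ≠ 0 := by
    have := hr.two_le
    have : 2 ^ 2 ≤ r ^ 2 := Nat.pow_le_pow_left this 2
    omega
  obtain ⟨v, s, hs, hrs⟩ := Nat.exists_eq_pow_mul_and_not_dvd hr2 ℓ hℓ.ne_one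
  have hve : v < e := by
    by_contra hcon
    exact he (hrs ▸ Dvd.dvd.mul_right (pow_dvd_pow ℓ (not_lt.mp hcon)) s)
  have hrsZ : (r : ℤ) ^ 2 - 1 = (ℓ : ℤ) ^ v * (s : ℤ) := by
    have h1 : 1 ≤ r ^ 2 := Nat.one_le_pow _ _ hr.pos
    have : ((r ^ 2 - 1 : ℕ) : ℤ) = ((ℓ ^ v * s : ℕ) : ℤ) := by rw [hrs]
    rw [Nat.cast_sub h1] at this
    push_cast at this
    exact this
  set Ψs : ℕ → ℤ := heckeSeq r (w + 2) (conv a g) - conv a (heckeSeq r w g) with hΨs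
  set V : ℕ → ℤ := fun n => if r ∣ n then g (n / r) else 0 with hV
  set u₁ : ℤ := a 0 * (r : ℤ) ^ w * (s : ℤ) with hu₁
  have hkey : ∀ n, (ℓ : ℤ) ^ e ∣ Ψs n - (ℓ : ℤ) ^ v * (u₁ * V n) := by
    intro n
    have := key_cong ha r w (g := g) n
    rw [hrsZ] at this
    have e2 : Ψs n - (ℓ : ℤ) ^ v * (u₁ * V n)
        = (heckeSeq r (w + 2) (conv a g) n - conv a (heckeSeq r w g) n)
          - a 0 * ((r : ℤ) ^ w * ((ℓ : ℤ) ^ v * (s : ℤ))) * (if r ∣ n then g (n / r) else 0) := by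
      simp only [hΨs, hV, hu₁, Pi.sub_apply]; ring
    rw [e2]; exact this
  have hdiv : ∀ n, ∃ ψ : ℤ, Ψs n = (ℓ : ℤ) ^ v * ψ := by
    intro n
    have h1 : (ℓ : ℤ) ^ v ∣ Ψs n - (ℓ : ℤ) ^ v * (u₁ * V n) :=
      dvd_trans (pow_dvd_pow _ hve.le) (hkey n)
    have h2 : (ℓ : ℤ) ^ v ∣ Ψs n := (dvd_sub_left (Dvd.intro _ rfl)).mp h1
    exact h2
  choose ψ hψ using hdiv
  have hψcong : ∀ n, (ℓ : ℤ) ∣ ψ n - u₁ * V n := by
    intro n
    have h1 : (ℓ : ℤ) ^ (v + 1) ∣ Ψs n - (ℓ : ℤ) ^ v * (u₁ * V n) :=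
      dvd_trans (pow_dvd_pow _ (by omega)) (hkey n)
    rw [hψ n, ← mul_sub, pow_succ] at h1
    exact (mul_dvd_mul_iff_left (pow_ne_zero v hℓ0)).mp h1
  have hΦ₁ : HasCoeffs ((((ℓ : ℂ) ^ v)⁻¹) • (ModularForm.heckeTLin (2 + ((w : ℤ) + 1)) hr hrp' (F.mul G)
      - F.mul (ModularForm.heckeTLin ((w : ℤ) + 1) hr hrp' G))) ψ := by
    refine hΨ.smul _ ψ fun n => ?_
    have hℓC : ((ℓ : ℂ) ^ v) ≠ 0 := pow_ne_zero _ (by exact_mod_cast hℓ.ne_zero)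
    have : ((Ψs n : ℤ) : ℂ) = (ℓ : ℂ) ^ v * (ψ n : ℂ) := by rw [hψ n]; push_cast; ring
    rw [this]
    field_simp
  -- apply the core
  have hev : 1 ≤ e := by omega
  have hrℓ' : ((r : ℤ) : ZMod ℓ) ≠ 0 := by
    rw [Ne, ZMod.intCast_zmod_eq_zero_iff_dvd]
    intro h
    have h' : ℓ ∣ r := by exact_mod_cast h
    exact hrℓ ((Nat.prime_dvd_prime_iff_eq hℓ hr).mp h').symm
  have ha0 : ((a 0 : ℤ) : ZMod ℓ) ≠ 0 := by
    rw [Ne, ZMod.intCast_zmod_eq_zero_iff_dvd]; exact hc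
  have hsℓ : ((s : ℤ) : ZMod ℓ) ≠ 0 := by
    rw [Ne, ZMod.intCast_zmod_eq_zero_iff_dvd]
    intro h; exact hs (by exact_mod_cast h)
  refine core (ℓ := ℓ) (r := r) (m := w + 2) hr.two_le hrℓ'
    (((2 + ((w : ℤ) + 1)) * (Gamma0 p).index).toNat / 12)
    (seqGroup p (2 + ((w : ℤ) + 1))) ?_ ?_ g ?_ (conv a g) ψ ⟨_, hFG⟩ ⟨_, hΦ₁⟩ (a 0) u₁ ha0 ?_ ?_ ?_
  · rintro b ⟨f, hf⟩
    exact ⟨_, hf.heckeT hk hr hrp'⟩
  · rintro b ⟨f, hf⟩ hb
    exact hf.eq_zero_of_sturm hb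
  · obtain ⟨n, hn, hgn⟩ := hg
    exact ⟨n, hn, by rw [Ne, ZMod.intCast_zmod_eq_zero_iff_dvd]; exact hgn⟩
  · rw [hu₁]; push_cast
    exact mul_ne_zero (mul_ne_zero ha0 (pow_ne_zero _ (by simpa using hrℓ'))) (by simpa using hsℓ)
  · intro n
    have h1 : (ℓ : ℤ) ∣ conv a g n - a 0 * g n :=
      dvd_trans (dvd_pow_self _ (by omega)) (conv_sub_dvd ha n)
    have := (ZMod.intCast_zmod_eq_zero_iff_dvd _ ℓ).mpr h1
    push_cast at this
    exact sub_eq_zero.mp this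
  · intro n
    have := (ZMod.intCast_zmod_eq_zero_iff_dvd _ ℓ).mpr (hψcong n)
    push_cast at this
    have hVn : vSeq r 1 g n = V n := by simp [vSeq, hV]
    rw [hVn]
    exact sub_eq_zero.mp this

/-- **Package (A), final form.**  Let `F` be a weight-2 form on `Γ₀(p)` whose `q`-expansion
has integer coefficients `a n`, with `ℓ ∤ a 0` and `ℓ^e ∣ a n` for all `n ≥ 1`.  If `ℓ ≥ 5`
and `e ≥ 1`, or `ℓ = 3` and `e ≥ 2`, or `ℓ = 2` and `e ≥ 4`, this is impossible as soon as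
there is one form `G` of level `p` and weight `k ≥ 1` with integer coefficients `g n`, not all
of the `g n` (`n ≥ 1`) divisible by `ℓ`  (e.g. a cusp form with `g 1 ≡ 1`, or `Δ`). -/
theorem hecke_trick (p : ℕ) [Fact p.Prime] {ℓ e : ℕ} (hℓ : ℓ.Prime)
    (hcase : (5 ≤ ℓ ∧ 1 ≤ e) ∨ (ℓ = 3 ∧ 2 ≤ e) ∨ (ℓ = 2 ∧ 4 ≤ e))
    (F : ModularForm (Gamma0 p) 2) (a : ℕ → ℤ)
    (hF : ∀ n, (qExpansion 1 F).coeff n = (a n : ℂ)) (hc : ¬ (ℓ : ℤ) ∣ a 0)
    (ha : ∀ n, 1 ≤ n → (ℓ : ℤ) ^ e ∣ a n)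
    {k : ℤ} (hk : 1 ≤ k) (G : ModularForm (Gamma0 p) k) (g : ℕ → ℤ)
    (hG : ∀ n, (qExpansion 1 G).coeff n = (g n : ℂ))
    (hg : ∃ n, 1 ≤ n ∧ ¬ (ℓ : ℤ) ∣ g n) : False := by
  obtain ⟨w, rfl⟩ : ∃ w : ℕ, k = (w : ℤ) + 1 := ⟨(k - 1).toNat, by omega⟩
  have h2 : Nat.Prime 2 := Nat.prime_two
  have h3 : Nat.Prime 3 := Nat.prime_three
  have h5 : Nat.Prime 5 := by norm_num
  have hp : p.Prime := Fact.out
  -- it suffices to find the auxiliary prime `r`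
  suffices h : ∃ r : ℕ, r.Prime ∧ r ≠ p ∧ r ≠ ℓ ∧ ¬ ℓ ^ e ∣ r ^ 2 - 1 by
    obtain ⟨r, hr, hrp, hrℓ, he⟩ := h
    exact no_unit_congruence p hℓ hr hrp hrℓ he F a hF hc ha G g hG hg
  have hpow : ∀ e₀, e₀ ≤ e → ℓ ^ e₀ ∣ ℓ ^ e := fun e₀ h => pow_dvd_pow ℓ h
  rcases hcase with ⟨hℓ5, he1⟩ | ⟨rfl, he2⟩ | ⟨rfl, he4⟩
  · have hnd : ∀ M : ℕ, 0 < M → M < 5 → ¬ ℓ ^ e ∣ M := by
      intro M hM0 hM5 hdvd
      have h0 : ℓ ∣ ℓ ^ e := dvd_pow_self ℓ (by omega)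
      have h1 : ℓ ∣ M := dvd_trans h0 hdvd
      have := Nat.le_of_dvd hM0 h1
      omega
    by_cases hp2 : p = 2
    · refine ⟨3, h3, by omega, by omega, ?_⟩
      intro hdvd
      have h0 : ℓ ∣ ℓ ^ e := dvd_pow_self ℓ (by omega)
      have h8 : ℓ ^ e ∣ 2 ^ 3 := by norm_num at hdvd ⊢; exact hdvd
      have h1 : ℓ ∣ 2 ^ 3 := dvd_trans h0 h8
      have h2' := Nat.le_of_dvd (by norm_num) (hℓ.dvd_of_dvd_pow h1)
      omega
    · exact ⟨2, h2, fun h => hp2 h.symm, by omega, hnd _ (by norm_num) (by norm_num)⟩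
  · by_cases hp2 : p = 2
    · refine ⟨5, h5, by omega, by omega, ?_⟩
      intro hdvd
      have : 3 ^ 2 ∣ 5 ^ 2 - 1 := dvd_trans (hpow 2 he2) hdvd
      norm_num at this
    · refine ⟨2, h2, fun h => hp2 h.symm, by omega, ?_⟩
      intro hdvd
      have : 3 ^ 2 ∣ 2 ^ 2 - 1 := dvd_trans (hpow 2 he2) hdvd
      norm_num at this
  · by_cases hp3 : p = 3
    · refine ⟨5, h5, by omega, by omega, ?_⟩
      intro hdvd
      have : 2 ^ 4 ∣ 5 ^ 2 - 1 := dvd_trans (hpow 4 he4) hdvd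
      norm_num at this
    · refine ⟨3, h3, fun h => hp3 h.symm, by omega, ?_⟩
      intro hdvd
      have : 2 ^ 4 ∣ 3 ^ 2 - 1 := dvd_trans (hpow 4 he4) hdvd
      norm_num at this

end Fermat.Agent.S16.HeckeTrick6016
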