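import Mathlib
import Fermat.Prelude.Def_ModularForm_HeckeOperatorForms
import Fermat.Prelude.Thm_ModularFormClass_qCoeff_heckeU
import Fermat.Prelude.Thm_CongruenceSubgroup_one_mem_strictPeriods_Gamma0

/-!
# Trace from `Γ₀(p)` to level one, Fricke involution (S16, helper4314)
-/

set_option autoImplicit false

open UpperHalfPlane ModularForm CongruenceSubgroup
open scoped MatrixGroups ModularForm Manifold

namespace Fermat.Agent.S16.Trace

noncomputable section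

/-- `Φ` is invariant under the weight `k` slash action of `Γ₀(N)`. -/
def IsInv (N : ℕ) (k : ℤ) (Φ : ℍ → ℂ) : Prop :=
  ∀ γ : SL(2, ℤ), γ ∈ Gamma0 N → Φ ∣[k] γ = Φ

lemma isInv_of_slashInvariant {N : ℕ} {k : ℤ} {F : Type*} [FunLike F ℍ ℂ]
    [SlashInvariantFormClass F (Gamma0 N : Subgroup (GL (Fin 2) ℝ)) k] (f : F) :
    IsInv N k ⇑f := by
  intro γ hγ
  rw [ModularForm.SL_slash]
  exact SlashInvariantFormClass.slash_action_eq f _ ⟨γ, hγ, rfl⟩

/-- Two elements of `SL(2,ℤ)` with proportional bottom rows mod `N` act in the same way. -/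
lemma slash_eq_of_row {N : ℕ} {k : ℤ} {Φ : ℍ → ℂ} (hΦ : IsInv N k Φ) (g₁ g₂ : SL(2, ℤ))
    (h : (N : ℤ) ∣ g₁.1 1 0 * g₂.1 1 1 - g₁.1 1 1 * g₂.1 1 0) : Φ ∣[k] g₁ = Φ ∣[k] g₂ := by
  have hmem : g₁ * g₂⁻¹ ∈ Gamma0 N := by
    rw [Gamma0_mem]
    have : (g₁ * g₂⁻¹).1 1 0 = g₁.1 1 0 * g₂.1 1 1 - g₁.1 1 1 * g₂.1 1 0 := by
      rw [Matrix.SpecialLinearGroup.coe_mul, Matrix.SpecialLinearGroup.coe_inv,
        Matrix.adjugate_fin_two, Matrix.mul_apply, Fin.sum_univ_two]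
      simp
      ring
    change (((g₁ * g₂⁻¹).1 1 0 : ℤ) : ZMod N) = 0
    rw [this, ZMod.intCast_zmod_eq_zero_iff_dvd]
    exact h
  have h2 : g₁ = (g₁ * g₂⁻¹) * g₂ := by group
  rw [h2, SlashAction.slash_mul, hΦ _ hmem]

/-- The coset representative `S T^j` of `Γ₀(p) \ SL(2,ℤ)`. -/
def stRep (j : ℤ) : SL(2, ℤ) := ModularGroup.S * ModularGroup.T ^ j

lemma stRep_val (j : ℤ) : (stRep j).1 = !![0, -1; 1, j] := by
  rw [stRep, Matrix.SpecialLinearGroup.coe_mul, ModularGroup.coe_S, ModularGroup.coe_T_zpow]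
  simp

@[simp] lemma stRep_10 (j : ℤ) : (stRep j).1 1 0 = 1 := by simp [stRep_val]

@[simp] lemma stRep_11 (j : ℤ) : (stRep j).1 1 1 = j := by simp [stRep_val]

lemma stRep_mul_T (j : ℤ) : stRep j * ModularGroup.T = stRep (j + 1) := by
  rw [stRep, stRep, mul_assoc, zpow_add_one]

lemma stRep_mul_S_val (j : ℤ) : (stRep j * ModularGroup.S).1 = !![-1, 0; j, -1] := by
  rw [Matrix.SpecialLinearGroup.coe_mul, stRep_val, ModularGroup.coe_S]
  simp

/-- The trace function `Φ + ∑_{j < p} Φ ∣ S T^j`. -/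
def traceFun (k : ℤ) (p : ℕ) (Φ : ℍ → ℂ) : ℍ → ℂ :=
  Φ + ∑ j ∈ Finset.range p, Φ ∣[k] stRep (j : ℤ)

lemma traceFun_slash_T {p : ℕ} {k : ℤ} {Φ : ℍ → ℂ} (hΦ : IsInv p k Φ) :
    traceFun k p Φ ∣[k] ModularGroup.T = traceFun k p Φ := by
  have hT : Φ ∣[k] ModularGroup.T = Φ := by
    apply hΦ
    rw [Gamma0_mem]
    simp [ModularGroup.coe_T]
  have hp : Φ ∣[k] stRep (p : ℤ) = Φ ∣[k] stRep ((0 : ℕ) : ℤ) := by
    apply slash_eq_of_row hΦ
    simp
  rw [traceFun, SlashAction.add_slash, SlashAction.sum_slash, hT]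
  congr 1
  have h1 : ∀ j ∈ Finset.range p, (Φ ∣[k] stRep (j : ℤ)) ∣[k] ModularGroup.T =
      Φ ∣[k] stRep ((j + 1 : ℕ) : ℤ) := by
    intro j _
    rw [← SlashAction.slash_mul, stRep_mul_T]
    push_cast
    rfl
  rw [Finset.sum_congr rfl h1]
  have e1 := Finset.sum_range_succ' (fun j : ℕ => Φ ∣[k] stRep (j : ℤ)) p
  have e2 := Finset.sum_range_succ (fun j : ℕ => Φ ∣[k] stRep (j : ℤ)) p
  rw [e2, hp] at e1
  exact (add_right_cancel e1).symm

/-- Reindexing the sum over `j < p` by `ZMod p`. -/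
lemma sum_range_eq_sum_zmod {p : ℕ} [NeZero p] {M : Type*} [AddCommMonoid M] (G : ℕ → M) :
    ∑ j ∈ Finset.range p, G j = ∑ j : ZMod p, G j.val := by
  refine Finset.sum_nbij' (fun j => (j : ZMod p)) (fun j => j.val) ?_ ?_ ?_ ?_ ?_
  · intro j _; exact Finset.mem_univ _
  · intro j _; exact Finset.mem_range.mpr (ZMod.val_lt j)
  · intro j hj; exact ZMod.val_cast_of_lt (Finset.mem_range.mp hj)
  · intro j _; exact ZMod.natCast_zmod_val j
  · intro j hj; rw [ZMod.val_cast_of_lt (Finset.mem_range.mp hj)]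

lemma traceFun_slash_S {p : ℕ} [Fact p.Prime] {k : ℤ} {Φ : ℍ → ℂ} (hΦ : IsInv p k Φ) :
    traceFun k p Φ ∣[k] ModularGroup.S = traceFun k p Φ := by
  have : NeZero p := ⟨(Fact.out : p.Prime).ne_zero⟩
  set G : ZMod p → (ℍ → ℂ) := fun j => Φ ∣[k] stRep ((j.val : ℕ) : ℤ) with hG
  have hsum : ∑ j ∈ Finset.range p, Φ ∣[k] stRep (j : ℤ) = ∑ j : ZMod p, G j :=
    sum_range_eq_sum_zmod (fun j : ℕ => Φ ∣[k] stRep (j : ℤ))
  have hS0 : Φ ∣[k] ModularGroup.S = G 0 := by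
    apply slash_eq_of_row hΦ
    simp [ModularGroup.coe_S]
  have hG0 : G 0 ∣[k] ModularGroup.S = Φ := by
    rw [hG]
    simp only
    rw [← SlashAction.slash_mul]
    have := slash_eq_of_row hΦ (stRep ((ZMod.val (0 : ZMod p) : ℕ) : ℤ) * ModularGroup.S) 1 (by
      rw [stRep_mul_S_val]
      simp)
    rw [this, SlashAction.slash_one]
  have hGj : ∀ j ∈ (Finset.univ : Finset (ZMod p)).erase 0,
      G j ∣[k] ModularGroup.S = G (-j⁻¹) := by
    intro j hj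
    have hj0 : j ≠ 0 := (Finset.mem_erase.mp hj).1
    rw [hG]
    simp only
    rw [← SlashAction.slash_mul]
    apply slash_eq_of_row hΦ
    rw [stRep_mul_S_val]
    simp only [stRep_10, stRep_11, Matrix.cons_val', Matrix.cons_val_zero, Matrix.cons_val_one,
      Matrix.of_apply, Matrix.cons_val_fin_one]
    rw [← ZMod.intCast_zmod_eq_zero_iff_dvd]
    push_cast
    rw [ZMod.natCast_zmod_val, ZMod.natCast_zmod_val]
    field_simp
    ring
  rw [traceFun, hsum, SlashAction.add_slash, SlashAction.sum_slash,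
    ← Finset.add_sum_erase Finset.univ _ (Finset.mem_univ (0 : ZMod p)),
    ← Finset.add_sum_erase Finset.univ G (Finset.mem_univ (0 : ZMod p)), hG0, hS0,
    Finset.sum_congr rfl hGj]
  have hperm : ∑ j ∈ (Finset.univ : Finset (ZMod p)).erase 0, G (-j⁻¹) =
      ∑ j ∈ (Finset.univ : Finset (ZMod p)).erase 0, G j := by
    refine Finset.sum_nbij' (fun j => -j⁻¹) (fun j => -j⁻¹) ?_ ?_ ?_ ?_ ?_
    · intro j hj
      have hj0 : j ≠ 0 := (Finset.mem_erase.mp hj).1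
      exact Finset.mem_erase.mpr ⟨by simpa using hj0, Finset.mem_univ _⟩
    · intro j hj
      have hj0 : j ≠ 0 := (Finset.mem_erase.mp hj).1
      exact Finset.mem_erase.mpr ⟨by simpa using hj0, Finset.mem_univ _⟩
    · intro j hj
      simp
    · intro j hj
      simp
    · intro j hj
      rfl
  rw [hperm]
  abel

lemma traceFun_slash {p : ℕ} [Fact p.Prime] {k : ℤ} {Φ : ℍ → ℂ} (hΦ : IsInv p k Φ)
    (γ : SL(2, ℤ)) : traceFun k p Φ ∣[k] γ = traceFun k p Φ :=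
  SlashInvariantForm.slash_action_generators_SL2Z (traceFun_slash_S hΦ) (traceFun_slash_T hΦ) γ

/-- The trace of a modular form on `Γ₀(p)` as a modular form of level one. -/
def traceForm (p : ℕ) [Fact p.Prime] {k : ℤ}
    (Φ : ModularForm (Gamma0 p : Subgroup (GL (Fin 2) ℝ)) k) : ModularForm 𝒮ℒ k where
  toFun := traceFun k p Φ
  slash_action_eq' := by
    rintro _ ⟨γ, rfl⟩
    exact traceFun_slash (isInv_of_slashInvariant Φ) γ
  holo' := by
    refine (ModularFormClass.holo Φ).add (MDifferentiable.sum fun j _ => ?_)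
    rw [ModularForm.SL_slash]
    exact (ModularFormClass.holo Φ).slash k _
  bdd_at_cusps' := by
    intro c hc
    rw [OnePoint.isBoundedAt_iff_forall_SL2Z hc]
    intro γ _
    rw [traceFun_slash (isInv_of_slashInvariant Φ) γ, traceFun]
    refine (ModularFormClass.bdd_at_infty Φ).add ?_
    exact Finset.sum_induction _ IsBoundedAtImInfty (fun _ _ h1 h2 => h1.add h2)
      zero_form_isBoundedAtImInfty (fun j _ => ModularFormClass.bdd_at_infty_slash Φ (stRep j))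

@[simp] lemma coe_traceForm (p : ℕ) [Fact p.Prime] {k : ℤ}
    (Φ : ModularForm (Gamma0 p : Subgroup (GL (Fin 2) ℝ)) k) :
    ⇑(traceForm p Φ) = traceFun k p Φ := rfl

/-! ### The Fricke involution -/

lemma mapGL_apply (g : SL(2, ℤ)) (i j : Fin 2) :
    (Matrix.SpecialLinearGroup.mapGL ℝ g).1 i j = ((g.1 i j : ℤ) : ℝ) := rfl

lemma SL_slash_eq (k : ℤ) (f : ℍ → ℂ) (γ : SL(2, ℤ)) :
    f ∣[k] γ = f ∣[k] (Matrix.SpecialLinearGroup.mapGL ℝ γ) := rfl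

/-- The Fricke matrix `W = S · diag(p,1) = [[0,-1],[p,0]]`. -/
def frickeMat (p : ℕ) : GL (Fin 2) ℝ :=
  Matrix.SpecialLinearGroup.mapGL ℝ ModularGroup.S * ModularForm.heckeDiagMatrix p

lemma val_frickeMat {p : ℕ} (hp : p ≠ 0) :
    (frickeMat p).1 = !![0, -1; (p : ℝ), 0] := by
  rw [frickeMat, Matrix.GeneralLinearGroup.coe_mul, ModularForm.val_heckeDiagMatrix hp]
  ext i j
  fin_cases i <;> fin_cases j <;>
    simp [mapGL_apply, ModularGroup.coe_S, Matrix.mul_apply, Fin.sum_univ_two]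

/-- `Φ ∣ W`. -/
def frickeFun (k : ℤ) (p : ℕ) (Φ : ℍ → ℂ) : ℍ → ℂ := Φ ∣[k] frickeMat p

lemma frickeMat_mul_mapGL {p : ℕ} (hp : p ≠ 0) (γ : SL(2, ℤ)) (hγ : γ ∈ Gamma0 p) :
    ∃ γ' : SL(2, ℤ), γ' ∈ Gamma0 p ∧
      frickeMat p * Matrix.SpecialLinearGroup.mapGL ℝ γ =
        Matrix.SpecialLinearGroup.mapGL ℝ γ' * frickeMat p := by
  rw [Gamma0_mem] at hγ
  obtain ⟨c', hc'⟩ := (ZMod.intCast_zmod_eq_zero_iff_dvd _ p).mp hγ
  have hdet : γ.1 0 0 * γ.1 1 1 - γ.1 0 1 * γ.1 1 0 = 1 := by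
    have := γ.2
    rwa [Matrix.det_fin_two] at this
  let γ' : SL(2, ℤ) := ⟨!![γ.1 1 1, -c'; -(p * γ.1 0 1), γ.1 0 0], by
    rw [Matrix.det_fin_two_of]
    rw [hc'] at hdet
    linarith⟩
  have h00 : γ'.1 0 0 = γ.1 1 1 := rfl
  have h01 : γ'.1 0 1 = -c' := rfl
  have h10 : γ'.1 1 0 = -(p * γ.1 0 1) := rfl
  have h11 : γ'.1 1 1 = γ.1 0 0 := rfl
  refine ⟨γ', ?_, ?_⟩
  · rw [Gamma0_mem]
    change ((γ'.1 1 0 : ℤ) : ZMod p) = 0
    rw [h10]
    simp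
  · apply Matrix.GeneralLinearGroup.ext
    intro i j
    rw [Matrix.GeneralLinearGroup.coe_mul, Matrix.GeneralLinearGroup.coe_mul, val_frickeMat hp]
    simp only [Matrix.mul_apply, Fin.sum_univ_two, mapGL_apply]
    fin_cases i <;> fin_cases j <;>
      simp [h00, h01, h10, h11, hc'] <;> ring

lemma isInv_frickeFun {p : ℕ} (hp : p ≠ 0) {k : ℤ} {Φ : ℍ → ℂ} (hΦ : IsInv p k Φ) :
    IsInv p k (frickeFun k p Φ) := by
  intro γ hγ
  obtain ⟨γ', hγ', hmat⟩ := frickeMat_mul_mapGL hp γ hγ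
  rw [frickeFun, SL_slash_eq, ← SlashAction.slash_mul, hmat, SlashAction.slash_mul, ← SL_slash_eq,
    hΦ γ' hγ']

/-- The scalar matrix `c • 1`. -/
def scalarGL (c : ℝ) (hc : c ≠ 0) : GL (Fin 2) ℝ :=
  ModularForm.upperTriangularGL c 0 c (mul_ne_zero hc hc)

lemma slash_scalarGL (k : ℤ) (c : ℝ) (hc : c ≠ 0) (f : ℍ → ℂ) :
    f ∣[k] scalarGL c hc = (((c : ℂ) ^ 2) ^ (k - 1) * (c : ℂ) ^ (-k)) • f := by
  ext τ
  have hdet : (scalarGL c hc).det.val = c ^ 2 := by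
    rw [Matrix.GeneralLinearGroup.val_det_apply, scalarGL, ModularForm.val_upperTriangularGL,
      Matrix.det_fin_two_of]
    ring
  have hpos : 0 < (scalarGL c hc).det.val := by rw [hdet]; positivity
  have hsmul : scalarGL c hc • τ = τ := by
    ext
    rw [UpperHalfPlane.coe_smul_of_det_pos hpos]
    have hc' : (c : ℂ) ≠ 0 := by exact_mod_cast hc
    simp [UpperHalfPlane.num, UpperHalfPlane.denom, scalarGL, ModularForm.val_upperTriangularGL]
    field_simp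
  have hden : denom (scalarGL c hc) τ = c := by
    simp [UpperHalfPlane.denom, scalarGL, ModularForm.val_upperTriangularGL]
  rw [ModularForm.slash_apply, UpperHalfPlane.σ, if_pos hpos, hsmul, hdet, hden]
  simp only [ContinuousAlgEquiv.refl_apply, Pi.smul_apply, smul_eq_mul]
  rw [abs_of_pos (by positivity)]
  push_cast
  ring

lemma natCast_ne_zero_real {p : ℕ} (hp : p ≠ 0) : (p : ℝ) ≠ 0 := by exact_mod_cast hp

lemma frickeMat_mul_heckeMatrix {p : ℕ} (hp : p ≠ 0) (j : ℕ) :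
    frickeMat p * ModularForm.heckeMatrix p j =
      Matrix.SpecialLinearGroup.mapGL ℝ (stRep (j : ℤ)) * scalarGL p (natCast_ne_zero_real hp) := by
  apply Matrix.GeneralLinearGroup.ext
  intro a b
  rw [Matrix.GeneralLinearGroup.coe_mul, Matrix.GeneralLinearGroup.coe_mul, val_frickeMat hp,
    ModularForm.val_heckeMatrix hp, scalarGL, ModularForm.val_upperTriangularGL]
  simp only [Matrix.mul_apply, Fin.sum_univ_two, mapGL_apply, stRep_val]
  fin_cases a <;> fin_cases b <;> simp <;> ring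

lemma frickeMat_mul_frickeMat {p : ℕ} (hp : p ≠ 0) :
    frickeMat p * frickeMat p = scalarGL (-(p : ℝ)) (neg_ne_zero.mpr (natCast_ne_zero_real hp)) := by
  apply Matrix.GeneralLinearGroup.ext
  intro a b
  rw [Matrix.GeneralLinearGroup.coe_mul, val_frickeMat hp, scalarGL,
    ModularForm.val_upperTriangularGL]
  simp only [Matrix.mul_apply, Fin.sum_univ_two]
  fin_cases a <;> fin_cases b <;> simp

lemma scalar_const {p : ℕ} (hp : p ≠ 0) (k : ℤ) :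
    (((p : ℝ) : ℂ) ^ 2) ^ (k - 1) * ((p : ℝ) : ℂ) ^ (-k) = (p : ℂ) ^ (k - 2) := by
  have hp' : (p : ℂ) ≠ 0 := by exact_mod_cast hp
  rw [Complex.ofReal_natCast, ← zpow_natCast, ← zpow_mul, ← zpow_add₀ hp']
  congr 1
  push_cast
  ring

lemma frickeFun_slash_heckeMatrix {p : ℕ} (hp : p ≠ 0) (k : ℤ) (Φ : ℍ → ℂ) (j : ℕ) :
    frickeFun k p Φ ∣[k] ModularForm.heckeMatrix p j =
      ((p : ℂ) ^ (k - 2)) • (Φ ∣[k] stRep (j : ℤ)) := by
  rw [frickeFun, ← SlashAction.slash_mul, frickeMat_mul_heckeMatrix hp, SlashAction.slash_mul,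
    slash_scalarGL, scalar_const hp, ← SL_slash_eq]

lemma heckeU_frickeFun {p : ℕ} (hp : p ≠ 0) (k : ℤ) (Φ : ℍ → ℂ) :
    ModularForm.heckeU k p (frickeFun k p Φ) =
      ((p : ℂ) ^ (k - 2)) • ∑ j ∈ Finset.range p, Φ ∣[k] stRep (j : ℤ) := by
  rw [ModularForm.heckeU_def, Finset.smul_sum]
  exact Finset.sum_congr rfl fun j _ => frickeFun_slash_heckeMatrix hp k Φ j

/-- `Tr Φ = Φ + p^{2-k} U_p (Φ ∣ W)`. -/
theorem traceFun_eq {p : ℕ} (hp : p ≠ 0) (k : ℤ) (Φ : ℍ → ℂ) :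
    traceFun k p Φ = Φ + ((p : ℂ) ^ (2 - k)) • ModularForm.heckeU k p (frickeFun k p Φ) := by
  have hp' : (p : ℂ) ≠ 0 := by exact_mod_cast hp
  rw [heckeU_frickeFun hp, smul_smul, ← zpow_add₀ hp', show 2 - k + (k - 2) = 0 by ring, zpow_zero,
    one_smul, traceFun]

/-- `(Φ ∣ W) ∣ W = (-1)^k p^{k-2} Φ`. -/
lemma frickeFun_frickeFun {p : ℕ} (hp : p ≠ 0) (k : ℤ) (Φ : ℍ → ℂ) :
    frickeFun k p (frickeFun k p Φ) = (((p : ℂ) ^ 2) ^ (k - 1) * (-(p : ℂ)) ^ (-k)) • Φ := by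
  rw [frickeFun, frickeFun, ← SlashAction.slash_mul, frickeMat_mul_frickeMat hp, slash_scalarGL]
  push_cast
  rw [neg_sq]

lemma frickeFun_frickeFun_two {p : ℕ} (hp : p ≠ 0) (Φ : ℍ → ℂ) :
    frickeFun 2 p (frickeFun 2 p Φ) = Φ := by
  have hp' : (p : ℂ) ≠ 0 := by exact_mod_cast hp
  rw [frickeFun_frickeFun hp]
  have : ((p : ℂ) ^ 2) ^ ((2 : ℤ) - 1) * (-(p : ℂ)) ^ (-(2 : ℤ)) = 1 := by
    rw [show (2 : ℤ) - 1 = 1 by norm_num, zpow_one, zpow_neg, show (2 : ℤ) = ((2 : ℕ) : ℤ) by rfl,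
      zpow_natCast, neg_sq]
    exact mul_inv_cancel₀ (pow_ne_zero 2 hp')
  rw [this, one_smul]

/-! ### Behaviour at the cusps -/

lemma slash_cases {p : ℕ} [Fact p.Prime] {k : ℤ} {Ψ : ℍ → ℂ} (hΨ : IsInv p k Ψ) (δ : SL(2, ℤ)) :
    Ψ ∣[k] δ = Ψ ∨ ∃ j : ℕ, Ψ ∣[k] δ = Ψ ∣[k] stRep (j : ℤ) := by
  by_cases hδ : δ ∈ Gamma0 p
  · exact Or.inl (hΨ δ hδ)
  · right
    rw [Gamma0_mem] at hδ
    refine ⟨(((δ.1 1 1 : ℤ) : ZMod p) / ((δ.1 1 0 : ℤ) : ZMod p)).val,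
      slash_eq_of_row hΨ _ _ ?_⟩
    rw [stRep_10, stRep_11, ← ZMod.intCast_zmod_eq_zero_iff_dvd]
    push_cast
    rw [ZMod.natCast_zmod_val]
    field_simp
    ring

lemma mapGL_T_zpow_10 (j : ℤ) :
    (Matrix.SpecialLinearGroup.mapGL ℝ (ModularGroup.T ^ j)) 1 0 = 0 := by
  change (Matrix.SpecialLinearGroup.mapGL ℝ (ModularGroup.T ^ j)).1 1 0 = 0
  rw [mapGL_apply, ModularGroup.coe_T_zpow]
  simp

lemma slash_stRep (k : ℤ) (Ψ : ℍ → ℂ) (j : ℤ) :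
    Ψ ∣[k] stRep j = (Ψ ∣[k] ModularGroup.S) ∣[k]
      (Matrix.SpecialLinearGroup.mapGL ℝ (ModularGroup.T ^ j)) := by
  rw [stRep, SlashAction.slash_mul, SL_slash_eq k _ (ModularGroup.T ^ j)]

lemma isBoundedAtImInfty_slash_of {p : ℕ} [Fact p.Prime] {k : ℤ} {Ψ : ℍ → ℂ} (hΨ : IsInv p k Ψ)
    (h1 : IsBoundedAtImInfty Ψ) (h2 : IsBoundedAtImInfty (Ψ ∣[k] ModularGroup.S))
    (δ : SL(2, ℤ)) : IsBoundedAtImInfty (Ψ ∣[k] δ) := by
  rcases slash_cases hΨ δ with h | ⟨j, h⟩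
  · rw [h]; exact h1
  · rw [h, slash_stRep]
    exact h2.slash k (mapGL_T_zpow_10 _)

lemma isZeroAtImInfty_slash_of {p : ℕ} [Fact p.Prime] {k : ℤ} {Ψ : ℍ → ℂ} (hΨ : IsInv p k Ψ)
    (h1 : IsZeroAtImInfty Ψ) (h2 : IsZeroAtImInfty (Ψ ∣[k] ModularGroup.S))
    (δ : SL(2, ℤ)) : IsZeroAtImInfty (Ψ ∣[k] δ) := by
  rcases slash_cases hΨ δ with h | ⟨j, h⟩
  · rw [h]; exact h1
  · rw [h, slash_stRep]
    exact h2.slash k (mapGL_T_zpow_10 _)

lemma heckeDiagMatrix_10 {p : ℕ} (hp : p ≠ 0) : ModularForm.heckeDiagMatrix p 1 0 = 0 := by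
  change (ModularForm.heckeDiagMatrix p).1 1 0 = 0
  rw [ModularForm.val_heckeDiagMatrix hp]
  simp

lemma heckeMatrix_10 {p : ℕ} (hp : p ≠ 0) (j : ℕ) : ModularForm.heckeMatrix p j 1 0 = 0 := by
  change (ModularForm.heckeMatrix p j).1 1 0 = 0
  rw [ModularForm.val_heckeMatrix hp]
  simp

lemma frickeMat_mul_S_10 {p : ℕ} (hp : p ≠ 0) :
    (frickeMat p * Matrix.SpecialLinearGroup.mapGL ℝ ModularGroup.S) 1 0 = 0 := by
  change (frickeMat p * Matrix.SpecialLinearGroup.mapGL ℝ ModularGroup.S).1 1 0 = 0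
  rw [Matrix.GeneralLinearGroup.coe_mul, val_frickeMat hp]
  simp [Matrix.mul_apply, Fin.sum_univ_two, mapGL_apply, ModularGroup.coe_S]

lemma frickeFun_eq (k : ℤ) (p : ℕ) (Φ : ℍ → ℂ) :
    frickeFun k p Φ = (Φ ∣[k] ModularGroup.S) ∣[k] ModularForm.heckeDiagMatrix p := by
  rw [frickeFun, frickeMat, SlashAction.slash_mul, ← SL_slash_eq]

lemma frickeFun_slash_S (k : ℤ) (p : ℕ) (Φ : ℍ → ℂ) :
    frickeFun k p Φ ∣[k] ModularGroup.S =
      Φ ∣[k] (frickeMat p * Matrix.SpecialLinearGroup.mapGL ℝ ModularGroup.S) := by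
  rw [frickeFun, SL_slash_eq, ← SlashAction.slash_mul]

/-- `Φ ∣ S` in terms of `Φ ∣ W`. -/
lemma slash_S_eq {p : ℕ} (hp : p ≠ 0) (k : ℤ) (Φ : ℍ → ℂ) :
    Φ ∣[k] ModularGroup.S =
      ((p : ℂ) ^ (2 - k)) • (frickeFun k p Φ ∣[k] ModularForm.heckeMatrix p 0) := by
  have hp' : (p : ℂ) ≠ 0 := by exact_mod_cast hp
  rw [frickeFun_slash_heckeMatrix hp, smul_smul, ← zpow_add₀ hp', show 2 - k + (k - 2) = 0 by ring,
    zpow_zero, one_smul]
  simp [stRep]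

/-- The Fricke involution on modular forms of level `Γ₀(p)`. -/
def frickeForm (p : ℕ) [Fact p.Prime] {k : ℤ}
    (Φ : ModularForm (Gamma0 p : Subgroup (GL (Fin 2) ℝ)) k) :
    ModularForm (Gamma0 p : Subgroup (GL (Fin 2) ℝ)) k where
  toFun := frickeFun k p Φ
  slash_action_eq' := by
    rintro _ ⟨γ, hγ, rfl⟩
    exact isInv_frickeFun (Fact.out : p.Prime).ne_zero (isInv_of_slashInvariant Φ) γ hγ
  holo' := (ModularFormClass.holo Φ).slash k _
  bdd_at_cusps' := by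
    intro c hc
    have hp : p ≠ 0 := (Fact.out : p.Prime).ne_zero
    have hc' : IsCusp c 𝒮ℒ := hc.mono (by rintro _ ⟨γ, -, rfl⟩; exact ⟨γ, rfl⟩)
    rw [OnePoint.isBoundedAt_iff_forall_SL2Z hc']
    intro γ _
    refine isBoundedAtImInfty_slash_of (isInv_frickeFun hp (isInv_of_slashInvariant Φ)) ?_ ?_ γ
    · rw [frickeFun_eq]
      exact (ModularFormClass.bdd_at_infty_slash Φ ModularGroup.S).slash k (heckeDiagMatrix_10 hp)
    · rw [frickeFun_slash_S]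
      exact (ModularFormClass.bdd_at_infty Φ).slash k (frickeMat_mul_S_10 hp)

@[simp] lemma coe_frickeForm (p : ℕ) [Fact p.Prime] {k : ℤ}
    (Φ : ModularForm (Gamma0 p : Subgroup (GL (Fin 2) ℝ)) k) :
    ⇑(frickeForm p Φ) = frickeFun k p Φ := rfl

/-! ### Weight two: `Φ ∣ W = - U_p Φ`, and the cusp form criterion -/

lemma traceFun_two_eq_zero (p : ℕ) [Fact p.Prime]
    (Φ : ModularForm (Gamma0 p : Subgroup (GL (Fin 2) ℝ)) 2) : traceFun 2 p Φ = 0 := by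
  have h := rank_zero_iff_forall_zero.mp ModularForm.levelOne_weight_two_rank_zero (traceForm p Φ)
  have h2 := congrArg (fun f : ModularForm 𝒮ℒ 2 => (⇑f : ℍ → ℂ)) h
  simpa using h2

/-- In weight two, the Fricke involution is `-U_p`. -/
theorem frickeFun_two_eq (p : ℕ) [Fact p.Prime]
    (Φ : ModularForm (Gamma0 p : Subgroup (GL (Fin 2) ℝ)) 2) :
    frickeFun 2 p Φ = -ModularForm.heckeU 2 p Φ := by
  have hp : p ≠ 0 := (Fact.out : p.Prime).ne_zero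
  have h := traceFun_two_eq_zero p (frickeForm p Φ)
  rw [traceFun_eq hp, coe_frickeForm, frickeFun_frickeFun_two hp] at h
  simp only [sub_self, zpow_zero, one_smul] at h
  exact eq_neg_of_add_eq_zero_left h

lemma isZeroAtImInfty_heckeU {p : ℕ} (hp : p ≠ 0) (k : ℤ) {Φ : ℍ → ℂ} (h : IsZeroAtImInfty Φ) :
    IsZeroAtImInfty (ModularForm.heckeU k p Φ) := by
  rw [ModularForm.heckeU_def]
  exact Finset.sum_induction _ IsZeroAtImInfty (fun _ _ h1 h2 => h1.add h2)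
    (Filter.zero_zeroAtFilter _) (fun j _ => h.slash k (heckeMatrix_10 hp j))

lemma isZeroAtImInfty_slash_S_of_fricke {p : ℕ} (hp : p ≠ 0) (k : ℤ) {Φ : ℍ → ℂ}
    (h : IsZeroAtImInfty (frickeFun k p Φ)) : IsZeroAtImInfty (Φ ∣[k] ModularGroup.S) := by
  rw [slash_S_eq hp]
  exact (h.slash k (heckeMatrix_10 hp 0)).smul _

/-- A modular form on `Γ₀(p)` vanishing at `∞` together with its Fricke transform is a cusp
form. -/
theorem exists_cuspForm_of_isZeroAtImInfty_fricke (p : ℕ) [Fact p.Prime] {k : ℤ}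
    (Φ : ModularForm (Gamma0 p : Subgroup (GL (Fin 2) ℝ)) k) (h0 : IsZeroAtImInfty Φ)
    (h1 : IsZeroAtImInfty (frickeFun k p Φ)) :
    ∃ g : CuspForm (Gamma0 p : Subgroup (GL (Fin 2) ℝ)) k, (⇑g : ℍ → ℂ) = ⇑Φ := by
  have hp : p ≠ 0 := (Fact.out : p.Prime).ne_zero
  refine ⟨{ toFun := Φ, slash_action_eq' := Φ.slash_action_eq', holo' := Φ.holo',
            zero_at_cusps' := ?_ }, rfl⟩
  intro c hc
  have hc' : IsCusp c 𝒮ℒ := hc.mono (by rintro _ ⟨γ, -, rfl⟩; exact ⟨γ, rfl⟩)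
  rw [OnePoint.isZeroAt_iff_forall_SL2Z hc']
  intro γ _
  exact isZeroAtImInfty_slash_of (isInv_of_slashInvariant Φ) h0
    (isZeroAtImInfty_slash_S_of_fricke hp k h1) γ

/-- A weight two modular form on `Γ₀(p)` vanishing at `∞` is a cusp form. -/
theorem exists_cuspForm_of_isZeroAtImInfty (p : ℕ) [Fact p.Prime]
    (Φ : ModularForm (Gamma0 p : Subgroup (GL (Fin 2) ℝ)) 2) (h0 : IsZeroAtImInfty Φ) :
    ∃ g : CuspForm (Gamma0 p : Subgroup (GL (Fin 2) ℝ)) 2, (⇑g : ℍ → ℂ) = ⇑Φ := by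
  have hp : p ≠ 0 := (Fact.out : p.Prime).ne_zero
  refine exists_cuspForm_of_isZeroAtImInfty_fricke p Φ h0 ?_
  rw [frickeFun_two_eq]
  exact (isZeroAtImInfty_heckeU hp 2 h0).neg

lemma isZeroAtImInfty_of_coeff_zero {Γ : Subgroup (GL (Fin 2) ℝ)} {k : ℤ} {F : Type*}
    [FunLike F ℍ ℂ] [ModularFormClass F Γ k] (f : F) (hΓ : (1 : ℝ) ∈ Γ.strictPeriods)
    (h0 : (qExpansion 1 f).coeff 0 = 0) : IsZeroAtImInfty (f : ℍ → ℂ) := by
  have hper := SlashInvariantFormClass.periodic_comp_ofComplex f hΓ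
  have han := ModularFormClass.analyticAt_cuspFunction_zero f one_pos hΓ
  have h1 : cuspFunction 1 f 0 = 0 := by simpa [qExpansion_coeff] using h0
  have h2 : (cuspFunction 1 f ∘ fun τ : ℍ => Function.Periodic.qParam 1 τ) = f :=
    funext fun τ => eq_cuspFunction τ one_ne_zero hper
  rw [IsZeroAtImInfty, Filter.ZeroAtFilter, ← h2, ← h1]
  exact han.continuousAt.tendsto.comp (qParam_tendsto_atImInfty one_pos)

/-- A weight two modular form on `Γ₀(p)` with vanishing constant term is a cusp form. -/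
theorem exists_cuspForm_of_coeff_zero (p : ℕ) [Fact p.Prime]
    (Φ : ModularForm (Gamma0 p : Subgroup (GL (Fin 2) ℝ)) 2)
    (h0 : (qExpansion 1 Φ).coeff 0 = 0) :
    ∃ g : CuspForm (Gamma0 p : Subgroup (GL (Fin 2) ℝ)) 2, (⇑g : ℍ → ℂ) = ⇑Φ :=
  exists_cuspForm_of_isZeroAtImInfty p Φ
    (isZeroAtImInfty_of_coeff_zero Φ (CongruenceSubgroup.one_mem_strictPeriods_Gamma0 p) h0)

/-! ### The q-expansion of the trace -/

theorem qExpansion_traceForm_coeff (p : ℕ) [Fact p.Prime] {k : ℤ}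
    (Φ : ModularForm (Gamma0 p : Subgroup (GL (Fin 2) ℝ)) k) (n : ℕ) :
    (qExpansion 1 (traceForm p Φ)).coeff n =
      (qExpansion 1 Φ).coeff n +
        (p : ℂ) ^ (2 - k) * (qExpansion 1 (frickeForm p Φ)).coeff (n * p) := by
  have hp : p ≠ 0 := (Fact.out : p.Prime).ne_zero
  have : NeZero p := ⟨hp⟩
  have hΓ := CongruenceSubgroup.one_mem_strictPeriods_Gamma0 p
  set U := ModularForm.heckeULin k (dvd_refl p) (frickeForm p Φ) with hU
  have hfun : (⇑(traceForm p Φ) : ℍ → ℂ) = ⇑Φ + ⇑(((p : ℂ) ^ (2 - k)) • U) := by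
    rw [coe_traceForm, traceFun_eq hp]
    rfl
  rw [hfun, ModularForm.qExpansion_add one_pos hΓ, FunLike.coe_smul,
    ModularForm.qExpansion_smul one_pos hΓ]
  simp only [map_add, PowerSeries.coeff_smul, smul_eq_mul]
  congr 2
  exact ModularFormClass.qCoeff_heckeU (frickeForm p Φ) hΓ hp n

end

end Fermat.Agent.S16.Trace
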