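import Mathlib
import Fermat.Prelude.Def_ModularForm_HeckeOperator
import Fermat.Agent.S20.Bdry3093
import Fermat.Agent.S23.Stabilizer
import Fermat.Prelude.Thm_UpperHalfPlane_qCoeff_heckeU
import Fermat.Prelude.Thm_UpperHalfPlane_qCoeff_heckeT
import Fermat.Prelude.Thm_ModularForm_periodic_heckeU_comp_ofComplex
import Fermat.Prelude.Thm_ModularForm_mdifferentiable_heckeU
import Fermat.Prelude.Thm_ModularForm_isBoundedAtImInfty_heckeU
import Fermat.Prelude.Thm_ModularForm_periodic_heckeT_comp_ofComplex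
import Fermat.Prelude.Thm_ModularForm_mdifferentiable_heckeT
import Fermat.Prelude.Thm_ModularForm_isBoundedAtImInfty_heckeT
import Fermat.Prelude.Thm_CongruenceSubgroup_one_mem_strictPeriods_Gamma0

/-!
# S16 package P3 (helper2141): trace `Γ₀(p) → SL(2,ℤ)`, Fricke involution `W_p`, cusp criterion

Everything is in `namespace Fermat.Agent.S16.TraceCusp`; slash actions use Mathlib's
normalisation `(f ∣[k] g) z = det g ^ (k-1) * (c z + d) ^ (-k) * f (g z)`.

* `rep j = S * T ^ j`, `Inv k p F` (invariance of a function under `Γ₀(p)`), `Inv1 k G` (under `SL(2,ℤ)`).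
* `trFun k p F = F + ∑ j < p, F ∣[k] rep j`; `trFun_slash` (level one invariance),
  `trForm p F : ModularForm 𝒮ℒ k`, `trFun_weight_two : trFun 2 p F = 0`.
* `exists_cuspForm_of_tendsto_zero`, `exists_cuspForm_of_qCoeff_zero`: a weight two form on `Γ₀(p)`
  with vanishing constant term at `∞` is a cusp form.
* `wMat p = S * diag(p,1)`, `wFun k p F = F ∣[k] wMat p`, `wForm p F : ModularForm (Gamma0 p) k`,
  `wFun_wFun : wFun (wFun F) = p^(k-2) • F`, `wFun_mul : wFun (F*G) = p • (wFun F * wFun G)`,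
  `trFun_eq_add_heckeU : trFun k p F = F + p^(2-k) • heckeU k p (wFun k p F)`,
  `qCoeff_trForm : a_n(Tr F) = a_n(F) + p^(2-k) a_{np}(F|W)`.
* weight two: `wFun_weight_two : wFun 2 p F = - heckeU 2 p F`, `qCoeff_wFun_weight_two`.
* level one: `vFun k p G = G ∣[k] diag(p,1)` (`= p^(k-1) G(p z)`), `vForm p G : ModularForm (Gamma0 p) k`,
  `qCoeff_vFun`, `wFun_of_inv1 : wFun k p G = vFun k p G`, `wFun_vFun : wFun (vFun G) = p^(k-2) • G`,
  `resForm p G` (a level one form regarded on `Γ₀(p)`).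
* `Nice F` (1-periodic, holomorphic, bounded at `i∞`) with the `qCoeff` calculus
  (`Nice.qCoeff_add/sub/smul/neg/heckeU`, `nice_of_form`, `nice_of_levelOne`).
-/

set_option autoImplicit false

open UpperHalfPlane ModularForm MatrixGroups Matrix Filter Topology CongruenceSubgroup
open scoped Manifold

namespace Fermat.Agent.S16.TraceCusp

/-- The coset representative `S * T ^ j` of `Γ₀(p) \ SL(2,ℤ)`. -/
def rep (j : ℤ) : SL(2, ℤ) := ModularGroup.S * ModularGroup.T ^ j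

lemma rep_coe (j : ℤ) : (rep j : Matrix (Fin 2) (Fin 2) ℤ) = !![0, -1; 1, j] := by
  rw [rep, Matrix.SpecialLinearGroup.coe_mul, ModularGroup.coe_T_zpow, ModularGroup.coe_S]
  ext a b
  fin_cases a <;> fin_cases b <;> simp [Matrix.mul_apply, Fin.sum_univ_two]

/-- `Γ₀(p)`-invariance of a function, weight `k`. -/
def Inv (k : ℤ) (p : ℕ) (F : ℍ → ℂ) : Prop := ∀ γ : SL(2, ℤ), γ ∈ Gamma0 p → F ∣[k] γ = F

/-- Every `γ ∈ SL(2,ℤ)` whose lower-left entry `c` and lower-right entry `d` satisfy `d ≡ c j mod p`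
lies in `Γ₀(p) * rep j`. -/
lemma exists_mul_rep (p : ℕ) (γ : SL(2, ℤ)) (j : ℤ) (h : (p : ℤ) ∣ γ 1 1 - γ 1 0 * j) :
    ∃ δ : SL(2, ℤ), δ ∈ Gamma0 p ∧ γ = δ * rep j := by
  refine ⟨γ * (rep j)⁻¹, ?_, by simp⟩
  rw [Gamma0_mem]
  have hinv : ((rep j)⁻¹ : SL(2, ℤ)).1 = !![j, 1; -1, 0] := by
    rw [Matrix.SpecialLinearGroup.coe_inv, rep_coe, Matrix.adjugate_fin_two_of]
    simp
  have : (γ * (rep j)⁻¹) 1 0 = γ 1 0 * j - γ 1 1 := by
    rw [Matrix.SpecialLinearGroup.coe_mul, hinv]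
    simp [Matrix.mul_apply, Fin.sum_univ_two]
    ring
  rw [this]
  have h2 : (p : ℤ) ∣ γ 1 0 * j - γ 1 1 := by
    have := dvd_neg.mpr h
    rwa [neg_sub] at this
  exact (ZMod.intCast_zmod_eq_zero_iff_dvd _ p).mpr h2

lemma slash_mul_rep {k : ℤ} {p : ℕ} {F : ℍ → ℂ} (hF : Inv k p F) (γ : SL(2, ℤ)) (j : ℤ)
    (h : (p : ℤ) ∣ γ 1 1 - γ 1 0 * j) : F ∣[k] γ = F ∣[k] rep j := by
  obtain ⟨δ, hδ, rfl⟩ := exists_mul_rep p γ j h
  rw [SlashAction.slash_mul, hF δ hδ]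

lemma slash_rep_T {k : ℤ} {F : ℍ → ℂ} (j : ℤ) :
    (F ∣[k] rep j) ∣[k] ModularGroup.T = F ∣[k] rep (j + 1) := by
  rw [← SlashAction.slash_mul]
  congr 1
  rw [rep, rep, mul_assoc, _root_.zpow_add_one]

lemma slash_rep_congr {k : ℤ} {p : ℕ} {F : ℍ → ℂ} (hF : Inv k p F) (i j : ℤ)
    (h : (p : ℤ) ∣ i - j) : F ∣[k] rep i = F ∣[k] rep j := by
  apply slash_mul_rep hF
  rw [rep_coe]
  simpa using h

lemma slash_rep_S {k : ℤ} {p : ℕ} {F : ℍ → ℂ} (hF : Inv k p F) (a b : ℤ)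
    (h : (p : ℤ) ∣ a * b + 1) : (F ∣[k] rep a) ∣[k] ModularGroup.S = F ∣[k] rep b := by
  rw [← SlashAction.slash_mul]
  apply slash_mul_rep hF
  rw [Matrix.SpecialLinearGroup.coe_mul, rep_coe, ModularGroup.coe_S]
  simp [Matrix.mul_apply, Fin.sum_univ_two]
  have := dvd_neg.mpr h
  rwa [show -(a * b + 1) = -1 - a * b by ring] at this

lemma slash_rep_zero_S {k : ℤ} {p : ℕ} {F : ℍ → ℂ} (hF : Inv k p F) :
    (F ∣[k] rep 0) ∣[k] ModularGroup.S = F := by
  rw [← SlashAction.slash_mul]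
  apply hF
  rw [Gamma0_mem, Matrix.SpecialLinearGroup.coe_mul, rep_coe, ModularGroup.coe_S]
  simp [Matrix.mul_apply, Fin.sum_univ_two]

lemma slash_S_eq {k : ℤ} {F : ℍ → ℂ} : F ∣[k] ModularGroup.S = F ∣[k] rep 0 := by
  simp [rep]

lemma sum_zmod_eq_sum_range {M : Type*} [AddCommMonoid M] (p : ℕ) [NeZero p] (f : ℕ → M) :
    ∑ x : ZMod p, f x.val = ∑ j ∈ Finset.range p, f j := by
  refine Finset.sum_bij (fun x _ => x.val) (fun x _ => Finset.mem_range.mpr (ZMod.val_lt x))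
    (fun x _ y _ h => ZMod.val_injective p h)
    (fun j hj => ⟨(j : ZMod p), Finset.mem_univ _,
      ZMod.val_natCast_of_lt (Finset.mem_range.mp hj)⟩) (fun _ _ => rfl)

/-- The trace from `Γ₀(p)` to `SL(2,ℤ)`, on functions. -/
noncomputable def trFun (k : ℤ) (p : ℕ) (F : ℍ → ℂ) : ℍ → ℂ :=
  F + ∑ j ∈ Finset.range p, F ∣[k] rep (j : ℤ)

lemma trFun_eq_zmod (k : ℤ) (p : ℕ) [NeZero p] (F : ℍ → ℂ) :
    trFun k p F = F + ∑ x : ZMod p, F ∣[k] rep ((x.val : ℕ) : ℤ) := by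
  rw [trFun, sum_zmod_eq_sum_range p (fun j : ℕ => F ∣[k] rep (j : ℤ))]

lemma trFun_slash_T {k : ℤ} {p : ℕ} {F : ℍ → ℂ} (hF : Inv k p F) :
    trFun k p F ∣[k] ModularGroup.T = trFun k p F := by
  have hT : F ∣[k] ModularGroup.T = F := hF _ (by rw [Gamma0_mem, ModularGroup.coe_T]; simp)
  rw [trFun, SlashAction.add_slash, hT, SlashAction.sum_slash]
  congr 1
  simp_rw [slash_rep_T]
  have h1 := Finset.sum_range_succ (fun j : ℕ => F ∣[k] rep (j : ℤ)) p
  have h2 := Finset.sum_range_succ' (fun j : ℕ => F ∣[k] rep (j : ℤ)) p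
  have h3 : F ∣[k] rep ((p : ℕ) : ℤ) = F ∣[k] rep ((0 : ℕ) : ℤ) :=
    slash_rep_congr hF _ _ (by simp)
  simp only [Nat.cast_add, Nat.cast_one] at h2
  rw [h1, h3] at h2
  exact (add_right_cancel h2).symm

lemma trFun_slash_S {k : ℤ} {p : ℕ} [Fact p.Prime] {F : ℍ → ℂ} (hF : Inv k p F) :
    trFun k p F ∣[k] ModularGroup.S = trFun k p F := by
  rw [trFun_eq_zmod, SlashAction.add_slash, SlashAction.sum_slash, slash_S_eq]
  rw [← Finset.add_sum_erase Finset.univ _ (Finset.mem_univ (0 : ZMod p))]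
  rw [← Finset.add_sum_erase Finset.univ (fun x : ZMod p => F ∣[k] rep ((x.val : ℕ) : ℤ))
    (Finset.mem_univ (0 : ZMod p))]
  simp only [ZMod.val_zero, Nat.cast_zero]
  rw [slash_rep_zero_S hF]
  have key : ∑ x ∈ Finset.univ.erase (0 : ZMod p),
        (F ∣[k] rep ((x.val : ℕ) : ℤ)) ∣[k] ModularGroup.S =
      ∑ x ∈ Finset.univ.erase (0 : ZMod p), F ∣[k] rep ((x.val : ℕ) : ℤ) := by
    refine Finset.sum_nbij' (fun x => -x⁻¹) (fun x => -x⁻¹) ?_ ?_ ?_ ?_ ?_
    · intro x hx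
      simp only [Finset.mem_erase, Finset.mem_univ, and_true] at hx ⊢
      simpa using hx
    · intro x hx
      simp only [Finset.mem_erase, Finset.mem_univ, and_true] at hx ⊢
      simpa using hx
    · intro x _
      simp
    · intro x _
      simp
    · intro x hx
      simp only [Finset.mem_erase, Finset.mem_univ, and_true] at hx
      apply slash_rep_S hF
      rw [← ZMod.intCast_zmod_eq_zero_iff_dvd]
      push_cast
      rw [ZMod.natCast_zmod_val, ZMod.natCast_zmod_val]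
      field_simp
      ring
  rw [key]
  abel

theorem trFun_slash {k : ℤ} {p : ℕ} [Fact p.Prime] {F : ℍ → ℂ} (hF : Inv k p F)
    (γ : SL(2, ℤ)) : trFun k p F ∣[k] γ = trFun k p F :=
  SlashInvariantForm.slash_action_generators_SL2Z (trFun_slash_S hF) (trFun_slash_T hF) γ


open Fermat.Agent.S20 in
lemma inv_of_modularForm {k : ℤ} {p : ℕ} (F : ModularForm (Gamma0 p) k) : Inv k p F :=
  fun _ hγ => slash_eq_of_mem (N := p) F hγ

lemma mdiff_slash_SL {k : ℤ} {F : ℍ → ℂ} (hF : MDiff F) (g : SL(2, ℤ)) : MDiff (F ∣[k] g) := by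
  rw [SL_slash]
  exact hF.slash k _

lemma mdiff_trFun {k : ℤ} {p : ℕ} {F : ℍ → ℂ} (hF : MDiff F) : MDiff (trFun k p F) := by
  unfold trFun
  refine hF.add ?_
  have : ∀ s : Finset ℕ, MDiff (∑ j ∈ s, F ∣[k] rep (j : ℤ)) := by
    intro s
    classical
    induction s using Finset.induction_on with
    | empty =>
      rw [Finset.sum_empty]
      exact (mdifferentiable_const : MDiff (fun _ : ℍ => (0 : ℂ)))
    | insert a s ha ih =>
      rw [Finset.sum_insert ha]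
      exact (mdiff_slash_SL hF _).add ih
  exact this _

lemma isBounded_trFun {k : ℤ} {p : ℕ} [NeZero p] (F : ModularForm (Gamma0 p) k) :
    IsBoundedAtImInfty (trFun k p F) := by
  unfold trFun
  have h0 : IsBoundedAtImInfty (F : ℍ → ℂ) := ModularFormClass.bdd_at_infty F
  have : ∀ s : Finset ℕ, IsBoundedAtImInfty (∑ j ∈ s, (F : ℍ → ℂ) ∣[k] rep (j : ℤ)) := by
    intro s
    classical
    induction s using Finset.induction_on with
    | empty =>
      simp only [Finset.sum_empty]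
      exact zero_form_isBoundedAtImInfty
    | insert a s ha ih =>
      rw [Finset.sum_insert ha]
      exact (ModularFormClass.bdd_at_infty_slash F (rep a)).add ih
  exact h0.add (this _)

/-- The trace of a modular form of level `Γ₀(p)`, as a modular form of level one. -/
noncomputable def trForm {k : ℤ} (p : ℕ) [Fact p.Prime] (F : ModularForm (Gamma0 p) k) :
    ModularForm 𝒮ℒ k where
  toFun := trFun k p F
  slash_action_eq' := by
    rintro _ ⟨γ, rfl⟩
    have := trFun_slash (inv_of_modularForm F) γ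
    rwa [SL_slash] at this
  holo' := mdiff_trFun (ModularFormClass.holo F)
  bdd_at_cusps' := by
    intro c hc
    rw [OnePoint.isBoundedAt_iff_forall_SL2Z hc]
    intro γ _
    have : NeZero p := ⟨(Fact.out : p.Prime).ne_zero⟩
    rw [trFun_slash (inv_of_modularForm F) γ]
    exact isBounded_trFun F

@[simp] lemma coe_trForm {k : ℤ} (p : ℕ) [Fact p.Prime] (F : ModularForm (Gamma0 p) k) :
    (trForm p F : ℍ → ℂ) = trFun k p F := rfl

/-- In weight two the trace vanishes. -/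
theorem trFun_weight_two (p : ℕ) [Fact p.Prime] (F : ModularForm (Gamma0 p) 2) :
    trFun 2 p F = 0 := by
  have h := rank_zero_iff_forall_zero.mp ModularForm.levelOne_weight_two_rank_zero (trForm p F)
  rw [← coe_trForm, h]
  rfl

/-- Slash by `T ^ n` is translation by `n`. -/
lemma slash_T_zpow_apply (k : ℤ) (G : ℍ → ℂ) (n : ℤ) (z : ℍ) :
    (G ∣[k] (ModularGroup.T ^ n)) z = G (((n : ℤ) : ℝ) +ᵥ z) := by
  rw [SL_slash_apply, modular_T_zpow_smul]
  have hd : denom ((ModularGroup.T ^ n : SL(2, ℤ))) z = 1 := by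
    rw [ModularGroup.denom_apply, ModularGroup.coe_T_zpow]
    simp
  rw [hd]
  simp

lemma slash_rep_add (k : ℤ) (F : ℍ → ℂ) (j n : ℤ) (z : ℍ) :
    (F ∣[k] rep (j + n)) z = (F ∣[k] rep j) (((n : ℤ) : ℝ) +ᵥ z) := by
  have h := slash_T_zpow_apply k (F ∣[k] rep j) n z
  rw [← h, ← SlashAction.slash_mul]
  have e : rep (j + n) = rep j * ModularGroup.T ^ n := by
    rw [rep, rep, mul_assoc, ← _root_.zpow_add]
  rw [e]

lemma tendsto_vadd_atImInfty (x : ℝ) : Tendsto (fun z : ℍ => x +ᵥ z) atImInfty atImInfty := by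
  rw [atImInfty, tendsto_comap_iff]
  have : (UpperHalfPlane.im ∘ fun z : ℍ => x +ᵥ z) = UpperHalfPlane.im := by
    funext z; simp [UpperHalfPlane.vadd_im]
  rw [this]
  exact tendsto_comap

open Fermat.Agent.S20 in
/-- Every translate `F ∣ S T^j` of a modular form on `Γ₀(p)` has a limit at `i∞`, independent of `j`. -/
lemma tendsto_slash_rep {k : ℤ} {p : ℕ} [NeZero p] (F : ModularForm (Gamma0 p) k) (j : ℤ) :
    Tendsto ((F : ℍ → ℂ) ∣[k] rep j) atImInfty
      (𝓝 (valueAtInfty ((F : ℍ → ℂ) ∣[k] rep 0))) := by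
  have hF := inv_of_modularForm F
  have h0 : Tendsto ((F : ℍ → ℂ) ∣[k] rep 0) atImInfty
      (𝓝 (valueAtInfty ((F : ℍ → ℂ) ∣[k] rep 0))) := by
    refine Bdry.tendsto_valueAtInfty (h := (p : ℝ))
      (by exact_mod_cast Nat.pos_of_ne_zero (NeZero.ne p)) ?_
      (mdiff_slash_SL (ModularFormClass.holo F) _) (ModularFormClass.bdd_at_infty_slash F _)
    intro z
    have h1 := slash_rep_add k (F : ℍ → ℂ) 0 (p : ℤ) z
    rw [slash_rep_congr hF (0 + (p : ℤ)) 0 (by simp)] at h1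
    rw [h1]
    simp
  have h1 : ((F : ℍ → ℂ) ∣[k] rep j) = fun z => ((F : ℍ → ℂ) ∣[k] rep 0) (((j : ℤ) : ℝ) +ᵥ z) := by
    funext z
    rw [← slash_rep_add, zero_add]
  rw [h1]
  exact h0.comp (tendsto_vadd_atImInfty _)

lemma slash_eq_or {k : ℤ} {p : ℕ} [Fact p.Prime] {F : ℍ → ℂ} (hF : Inv k p F) (γ : SL(2, ℤ)) :
    F ∣[k] γ = F ∨ ∃ j : ℤ, F ∣[k] γ = F ∣[k] rep j := by
  by_cases h : γ ∈ Gamma0 p
  · exact Or.inl (hF γ h)
  · right
    rw [Gamma0_mem] at h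
    refine ⟨(((γ 1 1 : ℤ) : ZMod p) * ((γ 1 0 : ℤ) : ZMod p)⁻¹).val, slash_mul_rep hF γ _ ?_⟩
    rw [← ZMod.intCast_zmod_eq_zero_iff_dvd]
    push_cast
    rw [ZMod.natCast_zmod_val]
    field_simp
    ring

open Fermat.Agent.S20 in
/-- **Cusp criterion in weight two.** A modular form of weight two on `Γ₀(p)` whose constant term at
`∞` vanishes is a cusp form. -/
theorem exists_cuspForm_of_tendsto_zero (p : ℕ) [Fact p.Prime] (F : ModularForm (Gamma0 p) 2)
    (h0 : IsZeroAtImInfty (F : ℍ → ℂ)) : ∃ g : CuspForm (Gamma0 p) 2, (g : ℍ → ℂ) = F := by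
  have hp : p.Prime := Fact.out
  have : NeZero p := ⟨hp.ne_zero⟩
  have hF := inv_of_modularForm F
  set b := valueAtInfty ((F : ℍ → ℂ) ∣[(2 : ℤ)] rep 0) with hb
  -- limit of the trace
  have hlim : Tendsto (trFun 2 p F) atImInfty (𝓝 (0 + ∑ j ∈ Finset.range p, b)) := by
    have hsum : Tendsto (fun z => ∑ j ∈ Finset.range p, ((F : ℍ → ℂ) ∣[(2 : ℤ)] rep (j : ℤ)) z)
        atImInfty (𝓝 (∑ j ∈ Finset.range p, b)) :=
      tendsto_finsetSum _ fun j _ => tendsto_slash_rep F j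
    have := Tendsto.add h0 hsum
    refine this.congr fun z => ?_
    simp [trFun]
  rw [trFun_weight_two p F] at hlim
  have hb0 : b = 0 := by
    have h1 := tendsto_nhds_unique hlim (tendsto_const_nhds (x := (0 : ℂ)))
    simp only [Finset.sum_const, Finset.card_range, zero_add, nsmul_eq_mul] at h1
    have hp0 : (p : ℂ) ≠ 0 := by exact_mod_cast hp.ne_zero
    exact (mul_eq_zero.mp h1).resolve_left hp0
  have hz : ∀ γ : SL(2, ℤ), IsZeroAtImInfty ((F : ℍ → ℂ) ∣[(2 : ℤ)] γ) := by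
    intro γ
    rcases slash_eq_or hF γ with h | ⟨j, h⟩
    · rw [h]; exact h0
    · rw [h]
      have := tendsto_slash_rep F j
      rw [← hb, hb0] at this
      exact this
  exact ⟨mkCF p 2 F (ModularFormClass.holo F) (fun γ hγ => slash_eq_of_mem F hγ) hz, rfl⟩


lemma mapGL_apply (γ : SL(2, ℤ)) (i j : Fin 2) :
    (Matrix.SpecialLinearGroup.mapGL ℝ γ : Matrix (Fin 2) (Fin 2) ℝ) i j = ((γ i j : ℤ) : ℝ) := by
  rw [Matrix.SpecialLinearGroup.mapGL_coe_matrix]
  simp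

/-- The scalar matrix `c • 1` for a positive natural number. -/
noncomputable def scal (p : ℕ) [NeZero p] : GL (Fin 2) ℝ :=
  ModularForm.upperTriangularGL p 0 p (by
    have : (p : ℝ) ≠ 0 := by exact_mod_cast NeZero.ne p
    exact mul_ne_zero this this)

lemma scal_val (p : ℕ) [NeZero p] :
    (scal p : Matrix (Fin 2) (Fin 2) ℝ) = !![(p : ℝ), 0; 0, (p : ℝ)] := rfl

lemma scal_smul (p : ℕ) [NeZero p] (z : ℍ) : scal p • z = z := by
  have hp : (0 : ℝ) < p := by exact_mod_cast Nat.pos_of_ne_zero (NeZero.ne p)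
  have hdet : (0 : ℝ) < (scal p).det.val := by
    rw [Matrix.GeneralLinearGroup.val_det_apply, scal_val, Matrix.det_fin_two_of]
    nlinarith
  ext
  rw [UpperHalfPlane.coe_smul_of_det_pos hdet]
  have hp' : (p : ℂ) ≠ 0 := by exact_mod_cast hp.ne'
  simp [UpperHalfPlane.num, UpperHalfPlane.denom, scal_val]
  field_simp

lemma slash_scal (k : ℤ) (p : ℕ) [NeZero p] (F : ℍ → ℂ) :
    F ∣[k] scal p = ((p : ℂ) ^ (k - 2)) • F := by
  have hp : (0 : ℝ) < p := by exact_mod_cast Nat.pos_of_ne_zero (NeZero.ne p)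
  have hp' : (p : ℂ) ≠ 0 := by exact_mod_cast hp.ne'
  funext z
  have h00 : (scal p) 0 0 = (p : ℝ) := by
    rw [scal_val]; simp
  have h10 : (scal p) 1 0 = 0 := by
    rw [scal_val]; simp
  have h11 : (scal p) 1 1 = (p : ℝ) := by
    rw [scal_val]; simp
  rw [Fermat.Agent.S23.Stabilizer.slash_upper_apply k F (scal p) h10
    (by rw [h00]; exact hp) (by rw [h11]; exact hp)]
  rw [scal_smul, h00, h11]
  simp only [Pi.smul_apply, smul_eq_mul, Complex.ofReal_mul, Complex.ofReal_natCast]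
  rw [mul_comm]
  congr 1
  rw [mul_zpow, ← zpow_add₀ hp', ← zpow_add₀ hp']
  congr 1
  ring

/-- The Fricke matrix `W = S * diag(p,1) = !![0,-1;p,0]`. -/
noncomputable def wMat (p : ℕ) : GL (Fin 2) ℝ :=
  Matrix.SpecialLinearGroup.mapGL ℝ ModularGroup.S * ModularForm.heckeDiagMatrix p

lemma wMat_val (p : ℕ) [NeZero p] :
    (wMat p : Matrix (Fin 2) (Fin 2) ℝ) = !![0, -1; (p : ℝ), 0] := by
  rw [wMat, Matrix.GeneralLinearGroup.coe_mul, ModularForm.val_heckeDiagMatrix (NeZero.ne p)]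
  ext i j
  fin_cases i <;> fin_cases j <;>
    simp [ModularGroup.coe_S, Matrix.mul_apply, Fin.sum_univ_two]

lemma wMat_mul_wMat (p : ℕ) [NeZero p] :
    wMat p * wMat p = Matrix.SpecialLinearGroup.mapGL ℝ (-1 : SL(2, ℤ)) * scal p := by
  apply Matrix.GeneralLinearGroup.ext
  intro i j
  rw [Matrix.GeneralLinearGroup.coe_mul, Matrix.GeneralLinearGroup.coe_mul, wMat_val, scal_val]
  fin_cases i <;> fin_cases j <;>
    simp [Matrix.mul_apply, Fin.sum_univ_two]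

lemma wMat_mul_heckeMatrix (p : ℕ) [NeZero p] (j : ℕ) :
    wMat p * ModularForm.heckeMatrix p j =
      Matrix.SpecialLinearGroup.mapGL ℝ (rep (j : ℤ)) * scal p := by
  apply Matrix.GeneralLinearGroup.ext
  intro a b
  rw [Matrix.GeneralLinearGroup.coe_mul, Matrix.GeneralLinearGroup.coe_mul, wMat_val,
    ModularForm.val_heckeMatrix (NeZero.ne p), scal_val]
  have hr := rep_coe (j : ℤ)
  fin_cases a <;> fin_cases b <;>
    simp [Matrix.mul_apply, Fin.sum_univ_two, hr, mul_comm]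

lemma heckeDiag_mul_wMat (p : ℕ) [NeZero p] :
    ModularForm.heckeDiagMatrix p * wMat p =
      Matrix.SpecialLinearGroup.mapGL ℝ ModularGroup.S * scal p := by
  apply Matrix.GeneralLinearGroup.ext
  intro a b
  rw [Matrix.GeneralLinearGroup.coe_mul, Matrix.GeneralLinearGroup.coe_mul, wMat_val,
    ModularForm.val_heckeDiagMatrix (NeZero.ne p), scal_val]
  fin_cases a <;> fin_cases b <;>
    simp [ModularGroup.coe_S, Matrix.mul_apply, Fin.sum_univ_two]

/-- Conjugation by `W` preserves `Γ₀(p)`. -/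
lemma exists_wMat_mul (p : ℕ) [NeZero p] (γ : SL(2, ℤ)) (hγ : γ ∈ Gamma0 p) :
    ∃ γ' : SL(2, ℤ), γ' ∈ Gamma0 p ∧
      wMat p * Matrix.SpecialLinearGroup.mapGL ℝ γ =
        Matrix.SpecialLinearGroup.mapGL ℝ γ' * wMat p := by
  rw [Gamma0_mem, ZMod.intCast_zmod_eq_zero_iff_dvd] at hγ
  obtain ⟨c, hc⟩ := hγ
  have hdet : γ 0 0 * γ 1 1 - γ 0 1 * γ 1 0 = 1 := by
    have := γ.det_coe
    rwa [Matrix.det_fin_two] at this
  have hdet' : (!![γ 1 1, -c; -(p * γ 0 1), γ 0 0] : Matrix (Fin 2) (Fin 2) ℤ).det = 1 := by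
    rw [Matrix.det_fin_two_of]
    rw [hc] at hdet
    linear_combination hdet
  let γ' : SL(2, ℤ) := ⟨!![γ 1 1, -c; -(p * γ 0 1), γ 0 0], hdet'⟩
  have hγ' : (γ' : Matrix (Fin 2) (Fin 2) ℤ) = !![γ 1 1, -c; -(p * γ 0 1), γ 0 0] := rfl
  refine ⟨γ', ?_, ?_⟩
  · rw [Gamma0_mem, hγ']
    simp
  · apply Matrix.GeneralLinearGroup.ext
    intro a b
    rw [Matrix.GeneralLinearGroup.coe_mul, Matrix.GeneralLinearGroup.coe_mul, wMat_val]
    have hc' : ((γ 1 0 : ℤ) : ℝ) = (p : ℝ) * (c : ℝ) := by exact_mod_cast hc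
    fin_cases a <;> fin_cases b <;>
      simp [Matrix.mul_apply, Fin.sum_univ_two, hc', hγ', mul_comm]

lemma slash_mapGL (k : ℤ) (F : ℍ → ℂ) (γ : SL(2, ℤ)) :
    F ∣[k] (Matrix.SpecialLinearGroup.mapGL ℝ γ) = F ∣[k] γ := rfl

/-- The Fricke involution `W_p` on functions, weight `k`. -/
noncomputable def wFun (k : ℤ) (p : ℕ) (F : ℍ → ℂ) : ℍ → ℂ := F ∣[k] wMat p

lemma wFun_eq (k : ℤ) (p : ℕ) (F : ℍ → ℂ) :
    wFun k p F = (F ∣[k] ModularGroup.S) ∣[k] ModularForm.heckeDiagMatrix p := by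
  rw [wFun, wMat, SlashAction.slash_mul, slash_mapGL]

lemma wFun_inv {k : ℤ} {p : ℕ} [NeZero p] {F : ℍ → ℂ} (hF : Inv k p F) : Inv k p (wFun k p F) := by
  intro γ hγ
  obtain ⟨γ', hγ', h⟩ := exists_wMat_mul p γ hγ
  rw [wFun, ← slash_mapGL, ← SlashAction.slash_mul, h, SlashAction.slash_mul, slash_mapGL,
    hF γ' hγ']

lemma wFun_wFun {k : ℤ} {p : ℕ} [NeZero p] {F : ℍ → ℂ} (hF : Inv k p F) :
    wFun k p (wFun k p F) = ((p : ℂ) ^ (k - 2)) • F := by
  rw [wFun, wFun, ← SlashAction.slash_mul, wMat_mul_wMat, SlashAction.slash_mul, slash_mapGL,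
    hF (-1) (by rw [Gamma0_mem]; simp), slash_scal]

lemma mdiff_wFun {k : ℤ} {p : ℕ} {F : ℍ → ℂ} (hF : MDiff F) : MDiff (wFun k p F) :=
  hF.slash k _

open Fermat.Agent.S23.Stabilizer in
lemma isBounded_wFun_slash {k : ℤ} {p : ℕ} [NeZero p] (F : ModularForm (Gamma0 p) k)
    (δ : SL(2, ℤ)) : IsBoundedAtImInfty (wFun k p F ∣[k] δ) := by
  obtain ⟨g, β, a, d, ha, hd, had, hβ00, hβ10, hβ11, hmat, -⟩ := exists_hermite p δ
  have e : wFun k p F ∣[k] δ = ((F : ℍ → ℂ) ∣[k] (ModularGroup.S * g)) ∣[k] β := by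
    rw [wFun, wMat, ← slash_mapGL, ← SlashAction.slash_mul, mul_assoc, hmat, ← mul_assoc,
      SlashAction.slash_mul, ← map_mul, slash_mapGL]
  rw [e]
  exact IsBoundedAtImInfty.slash k hβ10 (ModularFormClass.bdd_at_infty_slash F _)

open Fermat.Agent.S20 in
/-- The Fricke involution as an operator on modular forms of level `Γ₀(p)`. -/
noncomputable def wForm {k : ℤ} (p : ℕ) [NeZero p] (F : ModularForm (Gamma0 p) k) :
    ModularForm (Gamma0 p) k :=
  mkMF p k (wFun k p F) (mdiff_wFun (ModularFormClass.holo F))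
    (wFun_inv (inv_of_modularForm F)) (isBounded_wFun_slash F)

@[simp] lemma coe_wForm {k : ℤ} (p : ℕ) [NeZero p] (F : ModularForm (Gamma0 p) k) :
    (wForm p F : ℍ → ℂ) = wFun k p F := rfl

lemma heckeU_wFun {k : ℤ} {p : ℕ} [NeZero p] (F : ℍ → ℂ) :
    ModularForm.heckeU k p (wFun k p F) =
      ((p : ℂ) ^ (k - 2)) • ∑ j ∈ Finset.range p, F ∣[k] rep (j : ℤ) := by
  rw [ModularForm.heckeU_def, Finset.smul_sum]
  refine Finset.sum_congr rfl fun j _ => ?_
  rw [wFun, ← SlashAction.slash_mul, wMat_mul_heckeMatrix, SlashAction.slash_mul, slash_mapGL,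
    slash_scal]

/-- The trace in terms of `U_p` and the Fricke involution: `Tr F = F + p^(2-k) U_p (F | W)`. -/
theorem trFun_eq_add_heckeU {k : ℤ} {p : ℕ} [NeZero p] (F : ℍ → ℂ) :
    trFun k p F = F + ((p : ℂ) ^ (2 - k)) • ModularForm.heckeU k p (wFun k p F) := by
  have hp' : (p : ℂ) ≠ 0 := by exact_mod_cast NeZero.ne p
  rw [heckeU_wFun, smul_smul, ← zpow_add₀ hp', trFun]
  simp


/-- `1`-periodic, holomorphic and bounded at `i∞`: exactly what the `q`-expansion API needs. -/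
def Nice (F : ℍ → ℂ) : Prop :=
  Function.Periodic (F ∘ ofComplex) 1 ∧ MDiff F ∧ IsBoundedAtImInfty F

lemma Nice.analytic {F : ℍ → ℂ} (h : Nice F) : AnalyticAt ℂ (cuspFunction 1 F) 0 :=
  analyticAt_cuspFunction_zero one_pos h.1 h.2.1 h.2.2

lemma nice_of_form {k : ℤ} {p : ℕ} (F : ModularForm (Gamma0 p) k) : Nice (F : ℍ → ℂ) := by
  have hΓ := CongruenceSubgroup.one_mem_strictPeriods_Gamma0 p
  have : Fact (IsCusp OnePoint.infty ((Gamma0 p).map (Matrix.SpecialLinearGroup.mapGL ℝ))) :=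
    ⟨Subgroup.isCusp_of_mem_strictPeriods one_pos hΓ⟩
  exact ⟨SlashInvariantFormClass.periodic_comp_ofComplex F hΓ, ModularFormClass.holo F,
    ModularFormClass.bdd_at_infty F⟩

lemma nice_of_levelOne {k : ℤ} (F : ModularForm 𝒮ℒ k) : Nice (F : ℍ → ℂ) :=
  ⟨SlashInvariantFormClass.periodic_comp_ofComplex F one_mem_strictPeriods_SL,
    ModularFormClass.holo F, ModularFormClass.bdd_at_infty F⟩

lemma Nice.add {F G : ℍ → ℂ} (hF : Nice F) (hG : Nice G) : Nice (F + G) :=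
  ⟨by simpa using hF.1.add hG.1, hF.2.1.add hG.2.1, hF.2.2.add hG.2.2⟩

lemma Nice.smul {F : ℍ → ℂ} (hF : Nice F) (c : ℂ) : Nice (c • F) :=
  ⟨fun z => by simpa using congrArg (fun w => c * w) (hF.1 z), hF.2.1.const_smul c,
    hF.2.2.const_smul_left c⟩

lemma Nice.neg {F : ℍ → ℂ} (hF : Nice F) : Nice (-F) := by
  simpa using hF.smul (-1)

lemma Nice.sub {F G : ℍ → ℂ} (hF : Nice F) (hG : Nice G) : Nice (F - G) := by
  simpa [sub_eq_add_neg] using hF.add hG.neg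

lemma Nice.mul {F G : ℍ → ℂ} (hF : Nice F) (hG : Nice G) : Nice (F * G) :=
  ⟨by simpa using hF.1.mul hG.1, hF.2.1.mul hG.2.1, hF.2.2.mul hG.2.2⟩

lemma Nice.heckeU {F : ℍ → ℂ} (h : Nice F) (k : ℤ) (p : ℕ) : Nice (ModularForm.heckeU k p F) :=
  ⟨ModularForm.periodic_heckeU_comp_ofComplex h.1 k p, ModularForm.mdifferentiable_heckeU h.2.1 k p,
    ModularForm.isBoundedAtImInfty_heckeU h.2.2 k p⟩

lemma Nice.heckeT {F : ℍ → ℂ} (h : Nice F) (k : ℤ) (p : ℕ) : Nice (ModularForm.heckeT k p F) :=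
  ⟨ModularForm.periodic_heckeT_comp_ofComplex h.1 k p, ModularForm.mdifferentiable_heckeT h.2.1 k p,
    ModularForm.isBoundedAtImInfty_heckeT h.2.2 k p⟩

lemma Nice.qCoeff_add {F G : ℍ → ℂ} (hF : Nice F) (hG : Nice G) (n : ℕ) :
    ModularFormClass.qCoeff (F + G) n = ModularFormClass.qCoeff F n + ModularFormClass.qCoeff G n := by
  simp only [ModularFormClass.qCoeff]
  rw [qExpansion_add hF.analytic hG.analytic, map_add]

lemma Nice.qCoeff_sub {F G : ℍ → ℂ} (hF : Nice F) (hG : Nice G) (n : ℕ) :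
    ModularFormClass.qCoeff (F - G) n = ModularFormClass.qCoeff F n - ModularFormClass.qCoeff G n := by
  simp only [ModularFormClass.qCoeff]
  rw [qExpansion_sub hF.analytic hG.analytic, map_sub]

lemma Nice.qCoeff_smul {F : ℍ → ℂ} (hF : Nice F) (c : ℂ) (n : ℕ) :
    ModularFormClass.qCoeff (c • F) n = c * ModularFormClass.qCoeff F n := by
  simp only [ModularFormClass.qCoeff]
  rw [qExpansion_smul hF.analytic, PowerSeries.coeff_smul, smul_eq_mul]

lemma Nice.qCoeff_neg {F : ℍ → ℂ} (hF : Nice F) (n : ℕ) :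
    ModularFormClass.qCoeff (-F) n = - ModularFormClass.qCoeff F n := by
  simp only [ModularFormClass.qCoeff]
  rw [qExpansion_neg hF.analytic, map_neg]

lemma Nice.qCoeff_heckeU {F : ℍ → ℂ} (hF : Nice F) (k : ℤ) {p : ℕ} (hp : p ≠ 0) (n : ℕ) :
    ModularFormClass.qCoeff (ModularForm.heckeU k p F) n = ModularFormClass.qCoeff F (n * p) :=
  UpperHalfPlane.qCoeff_heckeU hF.1 hF.2.1 hF.2.2 k hp n

/-- `q`-expansion of the trace: `a_n(Tr F) = a_n(F) + p^(2-k) a_{np}(F|W)`. -/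
theorem qCoeff_trForm {k : ℤ} (p : ℕ) [Fact p.Prime] (F : ModularForm (Gamma0 p) k) (n : ℕ) :
    ModularFormClass.qCoeff (trForm p F) n =
      ModularFormClass.qCoeff F n +
        (p : ℂ) ^ (2 - k) * ModularFormClass.qCoeff (wFun k p F) (n * p) := by
  have hp : p.Prime := Fact.out
  have : NeZero p := ⟨hp.ne_zero⟩
  have hW : Nice (wFun k p F) := nice_of_form (wForm p F)
  rw [coe_trForm, trFun_eq_add_heckeU, (nice_of_form F).qCoeff_add ((hW.heckeU k p).smul _),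
    Nice.qCoeff_smul (hW.heckeU k p), hW.qCoeff_heckeU k hp.ne_zero]

/-- **Weight two:** the Fricke involution is `-U_p`. -/
theorem wFun_weight_two (p : ℕ) [Fact p.Prime] (F : ModularForm (Gamma0 p) 2) :
    wFun 2 p F = - ModularForm.heckeU 2 p F := by
  have hp : p.Prime := Fact.out
  have : NeZero p := ⟨hp.ne_zero⟩
  have h := trFun_weight_two p (wForm p F)
  rw [trFun_eq_add_heckeU, coe_wForm, wFun_wFun (inv_of_modularForm F)] at h
  simp only [sub_self, zpow_zero, one_smul] at h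
  exact eq_neg_of_add_eq_zero_left h

theorem qCoeff_wFun_weight_two (p : ℕ) [Fact p.Prime] (F : ModularForm (Gamma0 p) 2) (n : ℕ) :
    ModularFormClass.qCoeff (wFun 2 p F) n = - ModularFormClass.qCoeff F (n * p) := by
  have hp : p.Prime := Fact.out
  rw [wFun_weight_two, ((nice_of_form F).heckeU 2 p).qCoeff_neg,
    (nice_of_form F).qCoeff_heckeU 2 hp.ne_zero]

/-- The constant term controls vanishing at `i∞`. -/
lemma Nice.isZeroAtImInfty {F : ℍ → ℂ} (hF : Nice F) (h0 : ModularFormClass.qCoeff F 0 = 0) :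
    IsZeroAtImInfty F := by
  have h1 : valueAtInfty F = 0 := by
    rw [← qExpansion_coeff_zero one_pos hF.analytic hF.1]
    exact h0
  have h2 := Fermat.Agent.S20.Bdry.tendsto_valueAtInfty (g := F) (h := 1) one_pos ?_ hF.2.1 hF.2.2
  · rw [h1] at h2
    exact h2
  · intro z
    have := hF.1 (z : ℂ)
    simp only [Function.comp_apply, ofComplex_apply] at this
    rw [← this]
    congr 1
    rw [← ofComplex_apply ((1 : ℝ) +ᵥ z)]
    congr 1
    simp [add_comm]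

/-- **Cusp criterion in weight two**, `q`-expansion form. -/
theorem exists_cuspForm_of_qCoeff_zero (p : ℕ) [Fact p.Prime] (F : ModularForm (Gamma0 p) 2)
    (h0 : ModularFormClass.qCoeff F 0 = 0) : ∃ g : CuspForm (Gamma0 p) 2, (g : ℍ → ℂ) = F :=
  exists_cuspForm_of_tendsto_zero p F ((nice_of_form F).isZeroAtImInfty h0)

/-! ### Level one forms and the operator `V_p` -/

/-- `V_p` with Mathlib's normalisation: `vFun k p G = G ∣[k] diag(p,1)`, i.e. `z ↦ p^(k-1) G(pz)`. -/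
noncomputable def vFun (k : ℤ) (p : ℕ) (G : ℍ → ℂ) : ℍ → ℂ := G ∣[k] ModularForm.heckeDiagMatrix p

lemma vFun_eq_sub (k : ℤ) (p : ℕ) (G : ℍ → ℂ) :
    vFun k p G = ModularForm.heckeT k p G - ModularForm.heckeU k p G := by
  rw [ModularForm.heckeT_eq_heckeU_add, add_sub_cancel_left, vFun]

lemma Nice.vFun {G : ℍ → ℂ} (hG : Nice G) (k : ℤ) (p : ℕ) : Nice (vFun k p G) := by
  rw [vFun_eq_sub]
  exact (hG.heckeT k p).sub (hG.heckeU k p)

theorem qCoeff_vFun {G : ℍ → ℂ} (hG : Nice G) (k : ℤ) {p : ℕ} (hp : p ≠ 0) (n : ℕ) :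
    ModularFormClass.qCoeff (vFun k p G) n =
      if p ∣ n then (p : ℂ) ^ (k - 1) * ModularFormClass.qCoeff G (n / p) else 0 := by
  rw [vFun_eq_sub, (hG.heckeT k p).qCoeff_sub (hG.heckeU k p),
    UpperHalfPlane.qCoeff_heckeT hG.1 hG.2.1 hG.2.2 k hp,
    UpperHalfPlane.qCoeff_heckeU hG.1 hG.2.1 hG.2.2 k hp, ModularForm.coeffHeckeT_apply,
    ModularForm.coeffHeckeU_apply, add_sub_cancel_left]

/-- `SL(2,ℤ)`-invariance of a function. -/
def Inv1 (k : ℤ) (G : ℍ → ℂ) : Prop := ∀ γ : SL(2, ℤ), G ∣[k] γ = G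

lemma inv1_of_levelOne {k : ℤ} (G : ModularForm 𝒮ℒ k) : Inv1 k G :=
  fun γ => Fermat.Agent.S20.levelOne_slash G γ

lemma wFun_of_inv1 {k : ℤ} (p : ℕ) {G : ℍ → ℂ} (hG : Inv1 k G) : wFun k p G = vFun k p G := by
  rw [wFun_eq, hG, vFun]

lemma wFun_vFun {k : ℤ} (p : ℕ) [NeZero p] {G : ℍ → ℂ} (hG : Inv1 k G) :
    wFun k p (vFun k p G) = ((p : ℂ) ^ (k - 2)) • G := by
  rw [wFun, vFun, ← SlashAction.slash_mul, heckeDiag_mul_wMat, SlashAction.slash_mul, slash_mapGL,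
    hG, slash_scal]

lemma vFun_inv {k : ℤ} (p : ℕ) [NeZero p] {G : ℍ → ℂ} (hG : Inv1 k G) : Inv k p (vFun k p G) := by
  have h := wFun_inv (p := p) (fun γ _ => hG γ : Inv k p G)
  rwa [wFun_of_inv1 p hG] at h

open Fermat.Agent.S23.Stabilizer in
lemma isBounded_vFun_slash {k : ℤ} {p : ℕ} [NeZero p] (G : ModularForm 𝒮ℒ k) (δ : SL(2, ℤ)) :
    IsBoundedAtImInfty (vFun k p G ∣[k] δ) := by
  obtain ⟨g, β, a, d, ha, hd, had, hβ00, hβ10, hβ11, hmat, -⟩ := exists_hermite p δ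
  have e : vFun k p G ∣[k] δ = (G : ℍ → ℂ) ∣[k] β := by
    rw [vFun, ← slash_mapGL, ← SlashAction.slash_mul, hmat, SlashAction.slash_mul, slash_mapGL,
      inv1_of_levelOne G g]
  rw [e]
  exact IsBoundedAtImInfty.slash k hβ10 (ModularFormClass.bdd_at_infty G)

open Fermat.Agent.S20 in
/-- `V_p` of a level one form, as a modular form on `Γ₀(p)`. -/
noncomputable def vForm {k : ℤ} (p : ℕ) [NeZero p] (G : ModularForm 𝒮ℒ k) :
    ModularForm (Gamma0 p) k :=
  mkMF p k (vFun k p G) ((ModularFormClass.holo G).slash k _)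
    (vFun_inv p (inv1_of_levelOne G)) (isBounded_vFun_slash G)

@[simp] lemma coe_vForm {k : ℤ} (p : ℕ) [NeZero p] (G : ModularForm 𝒮ℒ k) :
    (vForm p G : ℍ → ℂ) = vFun k p G := rfl

/-- A level one form, regarded as a form on `Γ₀(p)`. -/
noncomputable def resForm {k : ℤ} (p : ℕ) (G : ModularForm 𝒮ℒ k) : ModularForm (Gamma0 p) k where
  toFun := G
  slash_action_eq' := fun γ hγ => G.slash_action_eq' γ (Subgroup.map_le_range _ _ hγ)
  holo' := G.holo'
  bdd_at_cusps' := fun hc => G.bdd_at_cusps' (hc.mono (Subgroup.map_le_range _ _))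

@[simp] lemma coe_resForm {k : ℤ} (p : ℕ) (G : ModularForm 𝒮ℒ k) :
    (resForm p G : ℍ → ℂ) = G := rfl

/-- The Fricke involution is multiplicative up to the factor `p`. -/
lemma wFun_mul (k₁ k₂ : ℤ) (p : ℕ) [NeZero p] (F G : ℍ → ℂ) :
    wFun (k₁ + k₂) p (F * G) = (p : ℂ) • (wFun k₁ p F * wFun k₂ p G) := by
  have hdet : |((wMat p).det : ℝ)| = (p : ℝ) := by
    rw [Matrix.GeneralLinearGroup.val_det_apply, wMat_val, Matrix.det_fin_two_of]
    simp
  rw [wFun, ModularForm.mul_slash, hdet]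
  funext z
  simp [wFun]

end Fermat.Agent.S16.TraceCusp
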